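import Fermat.Agent.PicTorsion.Analytic.Newton
import Mathlib.Analysis.Analytic.Order
import Mathlib.Analysis.Analytic.Uniqueness
import Mathlib.Analysis.Analytic.Polynomial
import Mathlib.Analysis.Calculus.ContDiff.Polynomial
import Mathlib.Analysis.Calculus.InverseFunctionTheorem.ContDiff
import Mathlib.Analysis.Calculus.Deriv.Polynomial
import Mathlib.Analysis.Calculus.ContDiff.Operations

/-!
# The analytic branch through a simple point, and the expansion at a place
-/

set_option autoImplicit false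
set_option linter.unusedSectionVars false

noncomputable section

open AlgebraicCurve Polynomial Filter Topology
open scoped ContDiff

namespace FLTA.PicTorsion

theorem contDiff_eval₂At (q : Polynomial (Polynomial ℂ)) :
    ContDiff ℂ ω (fun p : ℂ × ℂ => eval₂At q p.1 p.2) := by
  induction q using Polynomial.induction_on' with
  | add a b ha hb => simpa [eval₂At, eval₂_add] using ha.add hb
  | monomial n c =>
    have h1 : ContDiff ℂ ω (fun p : ℂ × ℂ => Polynomial.aeval p.1 c) :=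
      (contDiff_aeval c ω).comp contDiff_fst
    simpa [eval₂At, eval₂_monomial] using h1.mul (contDiff_snd.pow n)

/-- The analytic branch through a simple zero of a bivariate polynomial. -/
theorem exists_branch (q : Polynomial (Polynomial ℂ)) (h0 : eval₂At q (0 : ℂ) 0 = 0)
    (h1 : eval₂At (derivative q) (0 : ℂ) 0 ≠ 0) :
    ∃ φ : ℂ → ℂ, AnalyticAt ℂ φ 0 ∧ φ 0 = 0 ∧ (∀ᶠ τ in 𝓝 0, eval₂At q τ (φ τ) = 0) ∧
      (∀ᶠ p in 𝓝 ((0 : ℂ), (0 : ℂ)), eval₂At q p.1 p.2 = 0 → p.2 = φ p.1) := by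
  set Q : ℂ × ℂ → ℂ := fun p => eval₂At q p.1 p.2 with hQ
  have hQc : ContDiff ℂ ω Q := contDiff_eval₂At q
  set A : ℂ × ℂ →L[ℂ] ℂ := fderiv ℂ Q (0, 0) with hA
  have hQd : HasFDerivAt Q A (0, 0) := (hQc.differentiable (by simp)).differentiableAt.hasFDerivAt
  have hb : A (0, 1) = eval₂At (derivative q) (0 : ℂ) 0 := by
    have e1 : HasDerivAt (fun ζ : ℂ => Q (0, ζ)) (A (0, 1)) 0 :=
      hQd.comp_hasDerivAt (0 : ℂ) ((hasDerivAt_const (0 : ℂ) (0 : ℂ)).prodMk (hasDerivAt_id 0))
    have e2 : HasDerivAt (fun ζ : ℂ => Q (0, ζ))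
        ((derivative (q.map (Polynomial.aeval (0 : ℂ)).toRingHom)).eval 0) 0 := by
      refine (Polynomial.hasDerivAt _ 0).congr_of_eventuallyEq (Eventually.of_forall fun ζ => ?_)
      simp [Q, eval₂At, eval_map]
    rw [e1.unique e2, derivative_map, eval_map]
  let L : ℂ × ℂ →L[ℂ] ℂ × ℂ := (ContinuousLinearMap.fst ℂ ℂ ℂ).prod A
  have hinj : Function.Injective (L : ℂ × ℂ →ₗ[ℂ] ℂ × ℂ) := by
    rw [← LinearMap.ker_eq_bot, LinearMap.ker_eq_bot']
    rintro ⟨x, y⟩ hxy
    simp only [ContinuousLinearMap.coe_coe, L, ContinuousLinearMap.prod_apply,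
      ContinuousLinearMap.coe_fst', Prod.mk_eq_zero] at hxy
    obtain ⟨rfl, hy⟩ := hxy
    rw [show ((0 : ℂ), y) = y • ((0 : ℂ), (1 : ℂ)) by simp, map_smul, hb, smul_eq_mul] at hy
    simpa [Prod.mk_eq_zero] using (mul_eq_zero.mp hy).resolve_right h1
  let L' : (ℂ × ℂ) ≃L[ℂ] ℂ × ℂ :=
    (LinearEquiv.ofInjectiveEndo (L : ℂ × ℂ →ₗ[ℂ] ℂ × ℂ) hinj).toContinuousLinearEquiv
  set H : ℂ × ℂ → ℂ × ℂ := fun p => (p.1, Q p) with hH
  have hHc : ContDiffAt ℂ ω H (0, 0) := (contDiff_fst.prodMk hQc).contDiffAt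
  have hHd : HasFDerivAt H (L' : ℂ × ℂ →L[ℂ] ℂ × ℂ) (0, 0) := by
    have : (L' : ℂ × ℂ →L[ℂ] ℂ × ℂ) = L := ContinuousLinearMap.ext fun p => by simp [L']
    rw [this]
    exact hasFDerivAt_fst.prodMk hQd
  let inv := hHc.localInverse hHd (by simp)
  have hH0 : H (0, 0) = (0, 0) := by simp [H, Q, h0]
  have hinvc : ContDiffAt ℂ ω inv (0, 0) := hH0 ▸ hHc.to_localInverse hHd (by simp)
  have hinv0 : inv (0, 0) = (0, 0) := by
    have := hHc.localInverse_apply_image hHd (by simp)
    rwa [hH0] at this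
  have hsd := hHc.hasStrictFDerivAt' hHd (by simp)
  have hright : ∀ᶠ r in 𝓝 ((0 : ℂ), (0 : ℂ)), H (inv r) = r := by
    have := hsd.eventually_right_inverse
    rwa [hH0] at this
  refine ⟨fun τ => (inv (τ, 0)).2, ?_, by simp [hinv0], ?_, ?_⟩
  · exact (ContDiffAt.comp (0 : ℂ) contDiffAt_snd
      (ContDiffAt.comp (0 : ℂ) (f := fun τ : ℂ => (τ, (0 : ℂ))) hinvc
        (contDiffAt_id.prodMk contDiffAt_const))).analyticAt
  · have ht : Tendsto (fun τ : ℂ => (τ, (0 : ℂ))) (𝓝 0) (𝓝 (0, 0)) :=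
      Continuous.tendsto (by fun_prop) 0
    filter_upwards [ht.eventually hright] with τ hτ
    have h1' : (inv (τ, 0)).1 = τ := congrArg Prod.fst hτ
    have h2' : Q (inv (τ, 0)) = 0 := congrArg Prod.snd hτ
    have := h2'
    simp only [hQ] at this
    rwa [h1'] at this
  · filter_upwards [hsd.eventually_left_inverse] with p hp hzero
    have : H p = (p.1, 0) := by simp [H, Q, hzero]
    rw [show inv (p.1, 0) = p by rw [← this]; exact hp]

/-- Functions analytic at `0`. -/
def analyticFuns : Subalgebra ℂ (ℂ → ℂ) where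
  carrier := {f | AnalyticAt ℂ f 0}
  mul_mem' ha hb := ha.mul hb
  add_mem' ha hb := ha.add hb
  algebraMap_mem' _ := analyticAt_const

theorem analyticFuns_continuousAt (f : analyticFuns) : ContinuousAt (f : ℂ → ℂ) 0 :=
  f.2.continuousAt

/-- Evaluation of an analytic function. -/
def analyticEval (τ : ℂ) : analyticFuns →ₐ[ℂ] ℂ :=
  (Pi.evalAlgHom ℂ (fun _ : ℂ => ℂ) τ).comp analyticFuns.val

@[simp] theorem analyticEval_apply (τ : ℂ) (f : analyticFuns) :
    analyticEval τ f = (f : ℂ → ℂ) τ := rfl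

/-- Functions vanishing to order at least `k` at `0`. -/
def vanishing (k : ℕ) : Ideal analyticFuns where
  carrier := {f | ∃ g : ℂ → ℂ, AnalyticAt ℂ g 0 ∧ ∀ᶠ τ in 𝓝 0, (f : ℂ → ℂ) τ = τ ^ k * g τ}
  zero_mem' := ⟨0, analyticAt_const, Eventually.of_forall fun τ => by simp⟩
  add_mem' := by
    rintro f g ⟨a, ha, hfa⟩ ⟨b, hb, hgb⟩
    refine ⟨a + b, ha.add hb, ?_⟩
    filter_upwards [hfa, hgb] with τ h1 h2
    simp [h1, h2, mul_add]
  smul_mem' := by
    rintro c f ⟨a, ha, hfa⟩
    refine ⟨(c : ℂ → ℂ) * a, c.2.mul ha, ?_⟩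
    filter_upwards [hfa] with τ h1
    simp [h1]
    ring

theorem eventually_eq_zero_of_mem_vanishing {f : analyticFuns}
    (h : ∀ k, f ∈ vanishing (k + 1)) : ∀ᶠ τ in 𝓝 0, (f : ℂ → ℂ) τ = 0 := by
  by_contra hne
  obtain ⟨n, g, hg, hg0, hfg⟩ := f.2.exists_eventuallyEq_pow_smul_nonzero_iff.mpr hne
  obtain ⟨a, ha, hfa⟩ := h n
  apply hg0
  have h1 : ∀ᶠ τ in 𝓝[≠] (0 : ℂ), g τ = τ * a τ := by
    filter_upwards [hfg.filter_mono nhdsWithin_le_nhds, hfa.filter_mono nhdsWithin_le_nhds,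
      self_mem_nhdsWithin] with τ h1 h2 hτ
    rw [h2, sub_zero, smul_eq_mul, pow_succ, mul_assoc] at h1
    exact (mul_left_cancel₀ (pow_ne_zero n hτ) h1).symm
  have h2 : Tendsto g (𝓝[≠] (0 : ℂ)) (𝓝 (0 * a 0)) :=
    ((continuousAt_id.mul ha.continuousAt).tendsto.mono_left nhdsWithin_le_nhds).congr'
      (h1.mono fun _ h => h.symm)
  rw [zero_mul] at h2
  exact tendsto_nhds_unique (hg.continuousAt.tendsto.mono_left nhdsWithin_le_nhds) h2

/-- Congruent substitutions give congruent values. -/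
theorem aeval_sub_aeval_mem {A σ : Type*} [CommRing A] [Algebra ℂ A] (I : Ideal A) (a b : σ → A)
    (h : ∀ i, a i - b i ∈ I) (G : MvPolynomial σ ℂ) :
    MvPolynomial.aeval a G - MvPolynomial.aeval b G ∈ I := by
  rw [← Ideal.Quotient.eq]
  have : (Ideal.Quotient.mkₐ ℂ I).comp (MvPolynomial.aeval a) =
      (Ideal.Quotient.mkₐ ℂ I).comp (MvPolynomial.aeval b) :=
    MvPolynomial.algHom_ext fun i => by
      simpa [Ideal.Quotient.eq] using h i
  exact congrArg (fun φ : MvPolynomial σ ℂ →ₐ[ℂ] A ⧸ I => φ G) this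

theorem map_eval₂At {A B : Type} [CommRing A] [CommRing B] [Algebra ℂ A] [Algebra ℂ B]
    (f : A →ₐ[ℂ] B) (q : Polynomial (Polynomial ℂ)) (a b : A) :
    f (eval₂At q a b) = eval₂At q (f a) (f b) := by
  show f.toRingHom _ = _
  rw [eval₂At, Polynomial.hom_eval₂]
  congr 1
  exact RingHom.ext fun r => (Polynomial.aeval_algHom_apply f a r).symm

theorem map_mvAeval {A B σ : Type*} [CommRing A] [CommRing B] [Algebra ℂ A] [Algebra ℂ B]
    (f : A →ₐ[ℂ] B) (a : σ → A) (G : MvPolynomial σ ℂ) :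
    f (MvPolynomial.aeval a G) = MvPolynomial.aeval (fun i => f (a i)) G := by
  rw [← AlgHom.comp_apply, MvPolynomial.comp_aeval]

variable {F : Type} [Field F] [Algebra ℂ F] [IsCurveOver ℂ F] {P : Place ℂ F} {t : F}

/-- The inclusion of the valuation ring of a place. -/
def placeIncl (P : Place ℂ F) : P.toValuationSubring →ₐ[ℂ] F :=
  IsScalarTower.toAlgHom ℂ P.toValuationSubring F

@[simp] theorem placeIncl_apply (P : Place ℂ F) (a : P.toValuationSubring) :
    placeIncl P a = (a : F) := rfl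

/-- The expansion at `P`: relations between functions persist between their branches. -/
theorem eventually_eval_branch_eq_zero (ht : P.ord t = 1) {ι : Type} (z : ι → F)
    (hz : ∀ i, z i ∈ P.toValuationSubring) (hz0 : ∀ i, evalAt P (z i) = 0)
    (q : ι → Polynomial (Polynomial ℂ)) (hq : ∀ i, eval₂At (q i) t (z i) = 0)
    (hq1 : ∀ i, eval₂At (derivative (q i)) (0 : ℂ) 0 ≠ 0)
    (φ : ι → ℂ → ℂ) (hφ : ∀ i, AnalyticAt ℂ (φ i) 0) (hφ0 : ∀ i, φ i 0 = 0)
    (hφq : ∀ i, ∀ᶠ τ in 𝓝 0, eval₂At (q i) τ (φ i τ) = 0)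
    (G : MvPolynomial (Option ι) ℂ)
    (hG : MvPolynomial.aeval (fun o : Option ι => o.elim t z) G = 0) :
    ∀ᶠ τ in 𝓝 0, MvPolynomial.eval (fun o : Option ι => o.elim τ fun i => φ i τ) G = 0 := by
  have htm := mem_of_ord_eq_one ht
  let O := P.toValuationSubring
  let t' : P.toValuationSubring := ⟨t, htm⟩
  let z' : ι → P.toValuationSubring := fun i => ⟨z i, hz i⟩
  let τ' : analyticFuns := ⟨id, analyticAt_id⟩
  let φ' : ι → analyticFuns := fun i => ⟨φ i, hφ i⟩
  let pa : Option ι → analyticFuns := fun o => o.elim τ' φ'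
  suffices h : ∀ k, MvPolynomial.aeval pa G ∈ vanishing (k + 1) by
    filter_upwards [eventually_eq_zero_of_mem_vanishing h] with τ hτ
    rw [← analyticEval_apply, map_mvAeval, MvPolynomial.aeval_eq_eval] at hτ
    convert hτ using 3
    funext o
    cases o <;> rfl
  intro k
  have hT : ∀ i, ∃ T : Polynomial ℂ,
      z' i - Polynomial.aeval t' T ∈ Ideal.span {t' ^ (k + 1)} ∧
      φ' i - Polynomial.aeval τ' T ∈ vanishing (k + 1) := by
    intro i
    obtain ⟨T, u, hu, hu0, hzu⟩ := exists_truncation ht (hz i) (k + 1)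
    have hsub : z' i - Polynomial.aeval t' T = t' ^ (k + 1) * ⟨u, hu⟩ := by
      apply Subtype.ext
      show placeIncl P (z' i - Polynomial.aeval t' T) = placeIncl P (t' ^ (k + 1) * ⟨u, hu⟩)
      rw [map_sub, ← Polynomial.aeval_algHom_apply, map_mul, map_pow]
      simp only [placeIncl_apply, z', t']
      rw [hzu]; ring
    have hzT : z' i - Polynomial.aeval t' T ∈ Ideal.span {t' ^ (k + 1)} := by
      rw [hsub]; exact Ideal.mul_mem_right _ _ (Ideal.mem_span_singleton_self _)
    refine ⟨T, hzT, ?_⟩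
    have hT0 : T.eval 0 = 0 := by
      have h1 := (evalAt_aeval_polynomial htm T).2
      rw [evalAt_eq_zero_of_ord_eq_one ht] at h1
      rw [← h1, show Polynomial.aeval t T = z i - t ^ (k + 1) * u by rw [hzu]; ring,
        evalAt_sub (hz i) (mul_mem (pow_mem htm _) hu), evalAt_mul (pow_mem htm _) hu, hz0 i, hu0]
      simp
    -- `q (X, T) ` is divisible by `X ^ (k + 1)`
    have hqz : eval₂At (q i) t' (z' i) = 0 := by
      apply Subtype.ext
      show placeIncl P _ = placeIncl P 0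
      rw [map_eval₂At, map_zero]
      exact hq i
    have hdvd : Polynomial.aeval t' ((q i).eval T) ∈ Ideal.span {t' ^ (k + 1)} := by
      have h1 : Polynomial.aeval t' ((q i).eval T) = eval₂At (q i) t' (Polynomial.aeval t' T) :=
        (eval₂_at_apply (Polynomial.aeval t').toRingHom T).symm
      rw [h1]
      have h2 := Polynomial.sub_dvd_eval_sub (z' i) (Polynomial.aeval t' T)
        ((q i).map (Polynomial.aeval t').toRingHom)
      rw [eval_map, eval_map, show eval₂ (Polynomial.aeval t').toRingHom (z' i) (q i) = 0 from hqz,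
        zero_sub, dvd_neg] at h2
      exact Ideal.mem_of_dvd _ h2 hzT
    obtain ⟨w, hw⟩ := Ideal.mem_span_singleton.mp hdvd
    obtain ⟨r, hr⟩ : X ^ (k + 1) ∣ (q i).eval T := by
      refine dvd_of_pow_dvd_aeval ht w.2 ?_
      have := congrArg (placeIncl P) hw
      rw [← Polynomial.aeval_algHom_apply, map_mul, map_pow] at this
      exact this
    -- analytic side
    let Tf : analyticFuns := Polynomial.aeval τ' T
    obtain ⟨K, hK⟩ := binomExpansion ((q i).map (Polynomial.aeval τ').toRingHom) Tf (φ' i - Tf)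
    rw [add_sub_cancel, eval_map, eval_map, derivative_map, eval_map] at hK
    set D : analyticFuns := eval₂At (derivative (q i)) τ' Tf + K * (φ' i - Tf) with hD
    have hTf : ∀ τ, (Tf : ℂ → ℂ) τ = T.eval τ := fun τ => by
      rw [← analyticEval_apply, ← Polynomial.aeval_algHom_apply, Polynomial.aeval_def,
        Algebra.algebraMap_self, eval₂_id]
      rfl
    have hD0 : (D : ℂ → ℂ) 0 ≠ 0 := by
      rw [← analyticEval_apply, hD, map_add, map_mul, map_sub, map_eval₂At]
      simp only [analyticEval_apply, hTf, hT0, φ', hφ0 i, sub_zero, mul_zero, add_zero]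
      exact hq1 i
    refine ⟨fun τ => -(r.eval τ) / (D : ℂ → ℂ) τ,
      (((analyticAt_id (𝕜 := ℂ) (z := (0 : ℂ))).aeval_polynomial r).neg).div D.2 hD0, ?_⟩
    have hne : ∀ᶠ τ in 𝓝 0, (D : ℂ → ℂ) τ ≠ 0 := D.2.continuousAt.eventually_ne hD0
    filter_upwards [hφq i, hne] with τ hτ hDτ
    have e1 : eval₂At (q i) τ' Tf = Polynomial.aeval τ' ((q i).eval T) :=
      eval₂_at_apply (Polynomial.aeval τ').toRingHom T
    have e2 : eval₂At (q i) τ' (φ' i) =
        eval₂At (q i) τ' Tf + D * (φ' i - Tf) := by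
      rw [hD]; linear_combination hK
    have e3 := congrArg (analyticEval τ) e2
    rw [e1, map_eval₂At, map_add, map_mul, map_sub, ← Polynomial.aeval_algHom_apply, hr] at e3
    simp only [analyticEval_apply] at e3
    rw [show (φ' i : ℂ → ℂ) τ = φ i τ from rfl, show (τ' : ℂ → ℂ) τ = τ from rfl, hτ] at e3
    simp only [map_mul, map_pow, aeval_X, hTf] at e3
    show (φ' i : ℂ → ℂ) τ - (Tf : ℂ → ℂ) τ = _
    rw [show (φ' i : ℂ → ℂ) τ = φ i τ from rfl, hTf]
    rw [Polynomial.coe_aeval_eq_eval] at e3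
    field_simp
    linear_combination -e3
  choose T hT1 hT2 using hT
  let sub : Option ι → Polynomial ℂ := fun o => o.elim X T
  obtain ⟨r, hr⟩ : X ^ (k + 1) ∣ MvPolynomial.aeval sub G := by
    have h1 : MvPolynomial.aeval (fun o : Option ι => o.elim t' z') G -
        Polynomial.aeval t' (MvPolynomial.aeval sub G) ∈ Ideal.span {t' ^ (k + 1)} := by
      rw [map_mvAeval]
      refine aeval_sub_aeval_mem _ _ _ (fun o => ?_) G
      cases o with
      | none => simp [sub]
      | some i => simpa [sub] using hT1 i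
    have h0 : MvPolynomial.aeval (fun o : Option ι => o.elim t' z') G = 0 := by
      apply Subtype.ext
      show placeIncl P _ = placeIncl P 0
      rw [map_mvAeval, map_zero, ← hG]
      congr 2
      funext o
      cases o <;> rfl
    rw [h0, zero_sub, Ideal.neg_mem_iff, Ideal.mem_span_singleton] at h1
    obtain ⟨w, hw⟩ := h1
    refine dvd_of_pow_dvd_aeval ht w.2 ?_
    have := congrArg (placeIncl P) hw
    rw [← Polynomial.aeval_algHom_apply, map_mul, map_pow] at this
    exact this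
  have h1 : MvPolynomial.aeval pa G - Polynomial.aeval τ' (MvPolynomial.aeval sub G) ∈
      vanishing (k + 1) := by
    rw [map_mvAeval]
    refine aeval_sub_aeval_mem _ _ _ (fun o => ?_) G
    cases o with
    | none => simp [sub, pa]
    | some i => simpa [sub, pa] using hT2 i
  have h2 : Polynomial.aeval τ' (MvPolynomial.aeval sub G) ∈ vanishing (k + 1) := by
    rw [hr, map_mul]
    refine Ideal.mul_mem_right _ _ ⟨fun _ => 1, analyticAt_const, Eventually.of_forall fun τ => ?_⟩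
    simp [τ']
  simpa using add_mem h1 h2

end FLTA.PicTorsion
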