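import Fermat.Agent.PicTorsion.Analytic.SmoothPoint
import Mathlib.LinearAlgebra.FiniteDimensional.Basic

/-!
# Analytic charts at the places of a function field over `ℂ`
-/

set_option autoImplicit false
set_option linter.unusedSectionVars false

noncomputable section

open AlgebraicCurve Polynomial Filter Topology

namespace FLTA.PicTorsion

variable {F : Type} [Field F] [Algebra ℂ F] [IsCurveOver ℂ F] [Curves.IsFunctionField ℂ F]

theorem exists_finite_generators :
    ∃ s : Finset F, IntermediateField.adjoin ℂ (s : Set F) = ⊤ := by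
  classical
  obtain ⟨x, -, hfin⟩ := Curves.IsFunctionField.exists_finite (K := ℂ) (F := F)
  let K₀ := IntermediateField.adjoin ℂ ({x} : Set F)
  let b := Module.finBasis K₀ F
  refine ⟨insert x (Finset.univ.image b), eq_top_iff.mpr fun f _ => ?_⟩
  rw [← b.sum_repr f]
  refine sum_mem fun j _ => ?_
  rw [IntermediateField.smul_def, smul_eq_mul]
  refine mul_mem ?_ (IntermediateField.subset_adjoin _ _ (by simp))
  exact IntermediateField.adjoin.mono _ _ _ (by simp) (b.repr f j).2

variable {P : Place ℂ F} {t : F}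

/-- Generators with simple equations at a place. -/
theorem exists_smooth_generators (ht : P.ord t = 1) :
    ∃ (n : ℕ) (z : Fin n → F) (q : Fin n → Polynomial (Polynomial ℂ)),
      (∀ i, z i ∈ P.toValuationSubring) ∧ (∀ i, evalAt P (z i) = 0) ∧
      IntermediateField.adjoin ℂ (Set.range (genFam t z)) = ⊤ ∧
      (∀ i, eval₂At (q i) t (z i) = 0) ∧ (∀ i, eval₂At (q i) (0 : ℂ) 0 = 0) ∧
      ∀ i, eval₂At (derivative (q i)) (0 : ℂ) 0 ≠ 0 := by
  classical
  obtain ⟨s, hs⟩ := exists_finite_generators (F := F)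
  have key : ∀ g : F, ∃ (z : F) (q : Polynomial (Polynomial ℂ)), z ∈ P.toValuationSubring ∧
      evalAt P z = 0 ∧ g ∈ IntermediateField.adjoin ℂ ({t, z} : Set F) ∧ eval₂At q t z = 0 ∧
      eval₂At q (0 : ℂ) 0 = 0 ∧ eval₂At (derivative q) (0 : ℂ) 0 ≠ 0 := by
    intro g
    rcases P.toValuationSubring.mem_or_inv_mem g with hg | hg
    · exact exists_simple_root ht hg
    · obtain ⟨z, q, h1, h2, h3, h4, h5, h6⟩ := exists_simple_root ht hg
      exact ⟨z, q, h1, h2, inv_inv g ▸ inv_mem h3, h4, h5, h6⟩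
  choose z q h1 h2 h3 h4 h5 h6 using key
  let e := s.equivFin
  refine ⟨s.card, fun i => z (e.symm i : F), fun i => q (e.symm i : F), fun i => h1 _, fun i => h2 _,
    ?_, fun i => h4 _, fun i => h5 _, fun i => h6 _⟩
  rw [eq_top_iff, ← hs, IntermediateField.adjoin_le_iff]
  intro g hg
  refine IntermediateField.adjoin.mono _ _ _ ?_ (h3 g)
  rintro a (rfl | rfl)
  · exact ⟨none, rfl⟩
  · exact ⟨some (e ⟨g, hg⟩), by simp⟩

/-- Convergence to a place, tested on regular functions. -/
theorem tendsto_place_iff {α : Type*} {l : Filter α} {u : α → Place ℂ F} :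
    Tendsto u l (𝓝 P) ↔ ∀ f ∈ P.toValuationSubring,
      (∀ᶠ a in l, f ∈ (u a).toValuationSubring) ∧
        Tendsto (fun a => evalAt (u a) f) l (𝓝 (evalAt P f)) := by
  refine ⟨fun h f hf => ⟨h.eventually (eventually_mem hf), (tendsto_evalAt hf).comp h⟩, fun h => ?_⟩
  rw [isEmbedding_value.isInducing.tendsto_nhds_iff, tendsto_pi_nhds]
  intro f
  show Tendsto (fun a => value (u a) f) l (𝓝 (value P f))
  by_cases hf : f ∈ P.toValuationSubring
  · rw [value_of_mem hf]
    refine Tendsto.congr' ?_ ((OnePoint.continuous_coe.tendsto _).comp (h f hf).2)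
    filter_upwards [(h f hf).1] with a ha using (value_of_mem ha).symm
  · have hf0 : f ≠ 0 := fun h0 => hf (h0 ▸ zero_mem _)
    have hneg := (Curves.not_mem_iff_ord_neg P f).mp hf
    have hinv : f⁻¹ ∈ P.toValuationSubring :=
      mem_of_ord_nonneg P (by rw [P.ord_inv]; omega)
    have hinv0 : evalAt P f⁻¹ = 0 :=
      (evalAt_eq_zero_iff hinv).mpr (Or.inr (by rw [P.ord_inv]; omega))
    rw [value_of_notMem hf, OnePoint.hasBasis_nhds_infty.tendsto_right_iff]
    intro K hK
    obtain ⟨M, hM, hMK⟩ := hK.2.isBounded.exists_pos_norm_le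
    have hev : ∀ᶠ a in l, ‖evalAt (u a) f⁻¹‖ < M⁻¹ := by
      have := (h _ hinv).2
      rw [hinv0] at this
      exact (Metric.tendsto_nhds.mp this M⁻¹ (inv_pos.mpr hM)).mono fun a ha => by simpa using ha
    filter_upwards [(h _ hinv).1, hev] with a ha hlt
    by_cases hfa : f ∈ (u a).toValuationSubring
    · rw [value_of_mem hfa]
      refine Or.inl ⟨_, fun hmem => ?_, rfl⟩
      have h1 : evalAt (u a) f * evalAt (u a) f⁻¹ = 1 := by
        rw [← evalAt_mul hfa ha, mul_inv_cancel₀ hf0, evalAt_one]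
      have h2 := congrArg norm h1
      rw [norm_mul, norm_one] at h2
      have h3 : ‖evalAt (u a) f‖ * ‖evalAt (u a) f⁻¹‖ < M * M⁻¹ :=
        mul_lt_mul' (hMK _ hmem) hlt (norm_nonneg _) hM
      rw [mul_inv_cancel₀ hM.ne'] at h3
      linarith
    · rw [value_of_notMem hfa]
      exact Or.inr rfl

/-- The analytic chart given by a uniformiser. -/
theorem exists_chart (ht : P.ord t = 1) :
    ∃ π : ℂ → Place ℂ F, π 0 = P ∧ Tendsto π (𝓝 0) (𝓝 P) ∧
      (∀ᶠ τ in 𝓝 0, t ∈ (π τ).toValuationSubring ∧ evalAt (π τ) t = τ ∧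
        (π τ).ord (t - algebraMap ℂ F τ) = 1) ∧
      (∀ᶠ v in 𝓝 P, π (evalAt v t) = v) ∧
      ∀ f ∈ P.toValuationSubring, ∃ φ : ℂ → ℂ, AnalyticAt ℂ φ 0 ∧
        ∀ᶠ v in 𝓝 P, f ∈ v.toValuationSubring ∧ evalAt v f = φ (evalAt v t) := by
  classical
  obtain ⟨n, z, q, hz, hz0, hgen, hq, hq0, hq1⟩ := exists_smooth_generators ht
  choose φ hφ hφ0 hφq hφu using fun i => exists_branch (q i) (hq0 i) (hq1 i)
  have htm := mem_of_ord_eq_one ht
  have htP := evalAt_eq_zero_of_ord_eq_one ht
  have htr : ∀ c : ℂ, t ≠ algebraMap ℂ F c := fun c h => by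
    rw [h, Curves.ord_algebraMap] at ht
    omega
  let g : Option (Fin n) → F := genFam t z
  let pt : ℂ → Option (Fin n) → ℂ := fun τ => genFam τ fun i => φ i τ
  have hev : ∀ G : MvPolynomial (Option (Fin n)) ℂ, ∀ τ, (∀ i, AnalyticAt ℂ (φ i) τ) →
      AnalyticAt ℂ (fun τ => MvPolynomial.eval (pt τ) G) τ := by
    intro G τ hτ
    induction G using MvPolynomial.induction_on with
    | C c => simpa using analyticAt_const
    | add a b ha hb => simp only [map_add]; exact ha.fun_add hb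
    | mul_X a o ha =>
      simp only [map_mul, MvPolynomial.eval_X]
      refine ha.fun_mul ?_
      cases o with
      | none => exact analyticAt_id
      | some i => exact hτ i
  -- a ball on which everything is defined
  obtain ⟨r, hr, hball⟩ := Metric.eventually_nhds_iff_ball.mp
    (show ∀ᶠ τ in 𝓝 (0 : ℂ), ∀ i, AnalyticAt ℂ (φ i) τ ∧
        eval₂At (derivative (q i)) τ (φ i τ) ≠ 0 from by
      refine eventually_all.mpr fun i => (hφ i).eventually_analyticAt.and ?_
      have hc : ContinuousAt (fun τ => eval₂At (derivative (q i)) τ (φ i τ)) 0 :=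
        (contDiff_eval₂At (derivative (q i))).continuous.continuousAt.comp₂
          continuousAt_id (hφ i).continuousAt
      exact hc.eventually_ne (by rw [hφ0 i]; exact hq1 i))
  have hrel : ∀ τ ∈ Metric.ball (0 : ℂ) r, ∀ G : MvPolynomial (Option (Fin n)) ℂ,
      MvPolynomial.aeval g G = 0 → MvPolynomial.eval (pt τ) G = 0 := by
    intro τ hτ G hG
    have h0 := eventually_eval_branch_eq_zero ht z hz hz0 q hq hq1 φ hφ hφ0 hφq G hG
    exact AnalyticOnNhd.eqOn_zero_of_preconnected_of_eventuallyEq_zero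
      (fun x hx => hev G x fun i => (hball x hx i).1) (convex_ball _ _).isPreconnected
      (Metric.mem_ball_self hr) h0 hτ
  have hex : ∀ τ ∈ Metric.ball (0 : ℂ) r, ∃ w : Place ℂ F,
      (∀ o, g o ∈ w.toValuationSubring) ∧ (∀ o, evalAt w (g o) = pt τ o) ∧
      w.ord (t - algebraMap ℂ F τ) = 1 ∧
      ∀ f ∈ w.toValuationSubring, ∃ a b : MvPolynomial (Option (Fin n)) ℂ,
        MvPolynomial.eval (pt τ) b ≠ 0 ∧
          f = MvPolynomial.aeval g a / MvPolynomial.aeval g b :=
    fun τ hτ => exists_place_of_point t z hgen htr q hq τ _ (fun i => (hball τ hτ i).2) (hrel τ hτ)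
  haveI : Nonempty (Place ℂ F) := ⟨P⟩
  choose! w hw1 hw2 hw3 hw4 using hex
  have huniq : ∀ τ ∈ Metric.ball (0 : ℂ) r, ∀ v : Place ℂ F, (∀ o, g o ∈ v.toValuationSubring) →
      (∀ o, evalAt v (g o) = pt τ o) → w τ = v := by
    intro τ hτ v hv1 hv2
    refine eq_of_values_eq g (fun f hf => ?_) hv1
    rw [show (fun o => evalAt v (g o)) = pt τ from funext hv2]
    exact hw4 τ hτ f hf
  have h0 := Metric.mem_ball_self (x := (0 : ℂ)) hr
  have hgP : ∀ o, g o ∈ P.toValuationSubring := fun o => by cases o with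
    | none => exact htm
    | some i => exact hz i
  have hgP0 : ∀ o, evalAt P (g o) = pt 0 o := fun o => by cases o with
    | none => exact htP
    | some i => exact (hz0 i).trans (hφ0 i).symm
  have hw0 : w 0 = P := huniq 0 h0 P hgP hgP0
  -- expansions
  have hexp : ∀ f ∈ P.toValuationSubring, ∃ ψ : ℂ → ℂ, AnalyticAt ℂ ψ 0 ∧
      ψ 0 = evalAt P f ∧ ∀ᶠ τ in 𝓝 (0 : ℂ), ∀ v : Place ℂ F, (∀ o, g o ∈ v.toValuationSubring) →
        (∀ o, evalAt v (g o) = pt τ o) → f ∈ v.toValuationSubring ∧ evalAt v f = ψ τ := by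
    intro f hf
    obtain ⟨a, b, hb, rfl⟩ := hw4 0 h0 f (hw0.symm ▸ hf)
    have ha := hev a 0 hφ
    have hb' := hev b 0 hφ
    refine ⟨fun τ => MvPolynomial.eval (pt τ) a / MvPolynomial.eval (pt τ) b, ha.fun_div hb' hb,
      ?_, ?_⟩
    rotate_left
    · filter_upwards [hb'.continuousAt.eventually_ne hb] with τ hτ v hv1 hv2
      obtain ⟨ha1, ha2⟩ := evalAt_aeval g hv1 a
      obtain ⟨hb1, hb2⟩ := evalAt_aeval g hv1 b
      rw [show (fun o => evalAt v (g o)) = pt τ from funext hv2] at ha2 hb2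
      have hb0 : MvPolynomial.aeval g b ≠ 0 := fun h => hτ (by rw [← hb2, h, evalAt_zero])
      have hord : v.ord (MvPolynomial.aeval g b) = 0 := by
        have h1 := Curves.ord_nonneg_of_mem v hb1
        by_contra h2
        exact hτ (hb2 ▸ (evalAt_eq_zero_iff hb1).mpr (Or.inr (by omega)))
      have hbi : (MvPolynomial.aeval g b)⁻¹ ∈ v.toValuationSubring :=
        mem_of_ord_nonneg v (by rw [v.ord_inv, hord]; rfl)
      refine ⟨div_eq_mul_inv (G := F) _ _ ▸ mul_mem ha1 hbi, ?_⟩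
      rw [eq_div_iff hτ, ← ha2, ← hb2, ← evalAt_mul (div_eq_mul_inv (G := F) _ _ ▸ mul_mem ha1 hbi)
        hb1, div_mul_cancel₀ _ hb0]
    · obtain ⟨ha1, ha2⟩ := evalAt_aeval g hgP a
      obtain ⟨hb1, hb2⟩ := evalAt_aeval g hgP b
      rw [show (fun o => evalAt P (g o)) = pt 0 from funext hgP0] at ha2 hb2
      have hb0 : MvPolynomial.aeval g b ≠ 0 := fun h => hb (by rw [← hb2, h, evalAt_zero])
      rw [div_eq_iff hb, ← ha2, ← hb2, ← evalAt_mul hf hb1, div_mul_cancel₀ _ hb0]
  have hmem : ∀ᶠ τ in 𝓝 (0 : ℂ), τ ∈ Metric.ball (0 : ℂ) r := Metric.ball_mem_nhds _ hr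
  -- near `P` the values lie on the branch
  have hnear : ∀ᶠ v in 𝓝 P, evalAt v t ∈ Metric.ball (0 : ℂ) r ∧
      (∀ o, g o ∈ v.toValuationSubring) ∧ ∀ o, evalAt v (g o) = pt (evalAt v t) o := by
    have htt := tendsto_evalAt htm
    rw [htP] at htt
    have hpair : ∀ i, ∀ᶠ v in 𝓝 P, eval₂At (q i) (evalAt v t) (evalAt v (z i)) = 0 →
        evalAt v (z i) = φ i (evalAt v t) := by
      intro i
      have hzt := tendsto_evalAt (hz i)
      rw [hz0 i] at hzt
      exact (htt.prodMk_nhds hzt).eventually (hφu i)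
    filter_upwards [htt.eventually hmem, eventually_all.mpr fun o => eventually_mem (hgP o),
      eventually_all.mpr hpair] with v h1 h2 h3
    refine ⟨h1, h2, fun o => ?_⟩
    cases o with
    | none => rfl
    | some i =>
      refine h3 i ?_
      let e : MvPolynomial (Option (Fin n)) ℂ :=
        eval₂At (q i) (MvPolynomial.X none) (MvPolynomial.X (some i))
      have he := (evalAt_aeval g h2 e).2
      rw [← MvPolynomial.aeval_eq_eval, map_eval₂At, map_eval₂At] at he
      simp only [MvPolynomial.aeval_X] at he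
      rw [show eval₂At (q i) (g none) (g (some i)) = 0 from hq i, evalAt_zero] at he
      exact he.symm
  refine ⟨w, hw0, ?_, ?_, ?_, ?_⟩
  · rw [tendsto_place_iff]
    intro f hf
    obtain ⟨ψ, hψ, hψ0, hψv⟩ := hexp f hf
    have key : ∀ᶠ τ in 𝓝 (0 : ℂ), f ∈ (w τ).toValuationSubring ∧ evalAt (w τ) f = ψ τ := by
      filter_upwards [hψv, hmem] with τ h1 h2 using h1 (w τ) (hw1 τ h2) (hw2 τ h2)
    refine ⟨key.mono fun _ h => h.1, ?_⟩
    rw [← hψ0]
    exact hψ.continuousAt.tendsto.congr' (key.mono fun _ h => h.2.symm)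
  · filter_upwards [hmem] with τ hτ
    exact ⟨hw1 τ hτ none, hw2 τ hτ none, hw3 τ hτ⟩
  · filter_upwards [hnear] with v hv using huniq _ hv.1 v hv.2.1 hv.2.2
  · intro f hf
    obtain ⟨ψ, hψ, -, hψv⟩ := hexp f hf
    refine ⟨ψ, hψ, ?_⟩
    have htt := tendsto_evalAt htm
    rw [htP] at htt
    filter_upwards [hnear, htt.eventually hψv] with v hv h using h v hv.2.1 hv.2.2

end FLTA.PicTorsion
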