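import Fermat.Agent.PicTorsion.Analytic.Eval
import Fermat.Agent.Curves.BasicAdjoin
import Fermat.Agent.Curves.BasicCurve
import Fermat.Agent.Curves.BasicFG
import Fermat.Agent.Curves.RRSpace
import Mathlib.Topology.Compactness.Compact

/-!
# Compactness of the space of places of a function field over `ℂ`
-/

set_option autoImplicit false
set_option linter.unusedSectionVars false
set_option linter.style.haveILetI false

noncomputable section

open AlgebraicCurve Filter Topology OnePoint IsDedekindDomain Polynomial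
open scoped IntermediateField

namespace FLTA.PicTorsion

variable {F : Type} [Field F] [Algebra ℂ F]

theorem isSepFunctionField_complex [Curves.IsFunctionField ℂ F] :
    Curves.IsSepFunctionField ℂ F := by
  obtain ⟨x, hx, hfin⟩ := Curves.IsFunctionField.exists_finite (K := ℂ) (F := F)
  haveI : CharZero (IntermediateField.adjoin ℂ ({x} : Set F)) :=
    charZero_of_injective_algebraMap (R := ℂ) (algebraMap ℂ _).injective
  exact ⟨x, hx, hfin, inferInstance⟩

variable [IsCurveOver ℂ F] [Curves.IsFunctionField ℂ F]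

/-- A non-trivial valuation subring containing the constants is the ring of a place. -/
theorem exists_place_eq_valuationSubring (A : ValuationSubring F)
    (hA : ∀ c : ℂ, algebraMap ℂ F c ∈ A) (hA' : A ≠ ⊤) :
    ∃ v : Place ℂ F, v.toValuationSubring = A := by
  classical
  haveI := isSepFunctionField_complex (F := F)
  obtain ⟨g, hg⟩ : ∃ g, g ∉ A := by
    by_contra h
    push Not at h
    exact hA' (eq_top_iff.mpr fun x _ => h x)
  have hg0 : g ≠ 0 := fun h => hg (h ▸ A.zero_mem)
  have hx : Transcendental ℂ g⁻¹ := by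
    intro halg
    have hmem : g⁻¹ ∈ (algebraMap ℂ F).range :=
      minpoly.mem_range_of_degree_eq_one ℂ g⁻¹
        (IsAlgClosed.degree_eq_one_of_irreducible ℂ (minpoly.irreducible halg.isIntegral))
    obtain ⟨c, hc⟩ := hmem
    apply hg
    rw [← inv_inv g, ← hc, ← map_inv₀]
    exact hA _
  set x := g⁻¹ with hxdef
  have hxA : x ∈ A := (A.mem_or_inv_mem g).resolve_left hg
  haveI := Curves.finite_adjoin_of_transcendental hx
  haveI : CharZero (IntermediateField.adjoin ℂ ({x} : Set F)) :=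
    charZero_of_injective_algebraMap (R := ℂ) (algebraMap ℂ _).injective
  haveI : Algebra.IsSeparable (IntermediateField.adjoin ℂ ({x} : Set F)) F := inferInstance
  letI := Curves.polyAlgebraAdjoin (K := ℂ) x
  haveI := Curves.isScalarTower_polyAlgebraAdjoin (K := ℂ) x
  haveI := Curves.isFractionRing_polyAlgebraAdjoin hx
  letI : Algebra ℂ[X] F :=
    ((algebraMap ℂ⟮x⟯ F).comp (algebraMap ℂ[X] ℂ⟮x⟯)).toAlgebra
  haveI : IsScalarTower ℂ[X] ℂ⟮x⟯ F := IsScalarTower.of_algebraMap_eq fun _ => rfl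
  haveI : IsScalarTower ℂ ℂ[X] F := IsScalarTower.of_algebraMap_eq fun a => by
    rw [IsScalarTower.algebraMap_apply ℂ ℂ⟮x⟯ F, IsScalarTower.algebraMap_apply ℂ ℂ[X] ℂ⟮x⟯]
    rfl
  let B := integralClosure ℂ[X] F
  haveI : IsDedekindDomain B := IsIntegralClosure.isDedekindDomain ℂ[X] ℂ⟮x⟯ F _
  haveI : IsFractionRing B F := integralClosure.isFractionRing_of_finite_extension ℂ⟮x⟯ F
  have hX : algebraMap ℂ[X] F X = x := by
    show algebraMap ℂ⟮x⟯ F (algebraMap ℂ[X] ℂ⟮x⟯ X) = x
    rw [Curves.polyAlgebraAdjoin_X]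
    rfl
  have hpoly : ∀ p : ℂ[X], algebraMap ℂ[X] F p ∈ A := by
    intro p
    induction p using Polynomial.induction_on with
    | C c =>
      rw [← Polynomial.algebraMap_eq, ← IsScalarTower.algebraMap_apply]
      exact hA c
    | add a b ha hb => rw [map_add]; exact add_mem ha hb
    | monomial n c _ =>
      rw [map_mul, map_pow, hX, ← Polynomial.algebraMap_eq, ← IsScalarTower.algebraMap_apply]
      exact mul_mem (hA c) (pow_mem hxA _)
  let φ₀ : ℂ[X] →+* A := (algebraMap ℂ[X] F).codRestrict A.toSubring hpoly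
  have hB : ∀ b : B, algebraMap B F b ∈ A := by
    intro b
    obtain ⟨p, hp, hpb⟩ := b.2
    have hint : IsIntegral A (b : F) := by
      refine ⟨p.map φ₀, hp.map _, ?_⟩
      rw [Polynomial.eval₂_map]
      exact hpb
    obtain ⟨a, ha⟩ := IsIntegrallyClosed.isIntegral_iff.mp hint
    show (b : F) ∈ A
    rw [← ha]
    exact a.2
  let φ : B →+* A := (algebraMap B F).codRestrict A.toSubring hB
  let P : Ideal B := (IsLocalRing.maximalIdeal A).comap φ
  have hP : P ≠ ⊥ := by
    intro hbot
    apply hA'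
    rw [eq_top_iff]
    intro h _
    obtain ⟨a, b, hb, rfl⟩ := IsFractionRing.div_surjective B h
    have hu : IsUnit (φ b) := by
      by_contra hu
      have : b ∈ P := hu
      rw [hbot, Ideal.mem_bot] at this
      exact nonZeroDivisors.ne_zero hb this
    obtain ⟨c, hc⟩ := isUnit_iff_exists_inv.mp hu
    have hc' : algebraMap B F b * (c : F) = 1 := congrArg Subtype.val hc
    rw [div_eq_mul_inv, inv_eq_of_mul_eq_one_right hc']
    exact mul_mem (hB a) c.2
  haveI : IsScalarTower ℂ B F := IsScalarTower.of_algebraMap_eq fun a => rfl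
  let w : Place ℂ F := Place.ofHeightOneSpectrum (R := B) ⟨P, Ideal.IsPrime.comap φ, hP⟩
  refine ⟨w, ValuationSubring.eq_of_le_of_ne_top _ (fun h hh => ?_) hA'⟩
  rw [Place.ofHeightOneSpectrum_toValuationSubring, Valuation.mem_valuationSubring_iff] at hh
  obtain ⟨n, d, hnd⟩ := HeightOneSpectrum.exists_primeCompl_mul_eq_of_integer _ h hh
  have hu : IsUnit (φ d) := by
    by_contra hu
    exact d.2 hu
  obtain ⟨c, hc⟩ := isUnit_iff_exists_inv.mp hu
  have hc' : algebraMap B F d * (c : F) = 1 := congrArg Subtype.val hc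
  have hh' : h = algebraMap B F n * (c : F) := by
    rw [← hnd, mul_assoc, hc', mul_one]
  rw [hh']
  exact mul_mem (hB n) c.2

/-- A neighbourhood of `∞` in the sphere. -/
def outerDisc : Set (OnePoint ℂ) := (((↑) : ℂ → OnePoint ℂ) '' Metric.closedBall 0 1)ᶜ

theorem isOpen_outerDisc : IsOpen outerDisc :=
  (OnePoint.isClosed_image_coe.mpr
    ⟨Metric.isClosed_closedBall, isCompact_closedBall _ _⟩).isOpen_compl

/-- The closed conditions characterising the value functions of places. -/
def valueConds : Set (F → OnePoint ℂ) :=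
  {φ | (∀ c : ℂ, φ (algebraMap ℂ F c) = ↑c) ∧
    (∀ (f g : F) (a b : ℂ), φ f = ↑a → φ g = ↑b → φ (f + g) = ↑(a + b) ∧ φ (f * g) = ↑(a * b)) ∧
    ∀ f : F, ¬ (φ f ∈ outerDisc ∧ φ f⁻¹ ∈ outerDisc)}

theorem isClosed_valueConds : IsClosed (valueConds (F := F)) := by
  refine isClosed_iff_clusterPt.mpr fun φ hφ => ?_
  have hcl : φ ∈ closure valueConds := mem_closure_iff_clusterPt.mpr hφ
  refine ⟨fun c => ?_, fun f g a b hfa hgb => ?_, fun f hf => ?_⟩
  · have hcl' : closure valueConds ⊆ {ψ : F → OnePoint ℂ | ψ (algebraMap ℂ F c) = ↑c} :=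
      closure_minimal (fun ψ hψ => hψ.1 c) (isClosed_eq (continuous_apply _) continuous_const)
    exact hcl' hcl
  · have key : ∀ (op : ℂ → ℂ → ℂ) (h : F), Continuous (fun p : ℂ × ℂ => op p.1 p.2) →
        (∀ ψ ∈ valueConds (F := F), ∀ a b : ℂ, ψ f = ↑a → ψ g = ↑b → ψ h = ↑(op a b)) →
        φ h = ↑(op a b) := by
      intro op h hop hh
      by_contra hne
      obtain ⟨U, hU, V, hV, hUV⟩ : ∃ U ∈ 𝓝 (φ h), ∃ V ∈ 𝓝 ((op a b : ℂ) : OnePoint ℂ),
          Disjoint U V := by
        obtain ⟨U, V, hU, hV, hxU, hyV, hd⟩ := t2_separation hne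
        exact ⟨U, hU.mem_nhds hxU, V, hV.mem_nhds hyV, hd⟩
      have hV' : ∀ᶠ p in 𝓝 (a, b), ((op p.1 p.2 : ℂ) : OnePoint ℂ) ∈ V :=
        ((OnePoint.continuous_coe.comp hop).tendsto (a, b)).eventually hV
      rw [nhds_prod_eq] at hV'
      obtain ⟨pa, hpa, pb, hpb, hab⟩ := eventually_prod_iff.mp hV'
      have hf' : ∀ᶠ ψ in 𝓝 φ, ∃ z : ℂ, ψ f = ↑z ∧ pa z := by
        have : ((↑) : ℂ → OnePoint ℂ) '' {z | pa z} ∈ 𝓝 (φ f) := by
          rw [hfa, OnePoint.nhds_coe_eq]
          exact image_mem_map hpa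
        exact (((continuous_apply f).tendsto φ).eventually this).mono
          fun ψ ⟨z, hz, hz'⟩ => ⟨z, hz'.symm, hz⟩
      have hg' : ∀ᶠ ψ in 𝓝 φ, ∃ z : ℂ, ψ g = ↑z ∧ pb z := by
        have : ((↑) : ℂ → OnePoint ℂ) '' {z | pb z} ∈ 𝓝 (φ g) := by
          rw [hgb, OnePoint.nhds_coe_eq]
          exact image_mem_map hpb
        exact (((continuous_apply g).tendsto φ).eventually this).mono
          fun ψ ⟨z, hz, hz'⟩ => ⟨z, hz'.symm, hz⟩
      have hU' : ∀ᶠ ψ in 𝓝 φ, ψ h ∈ U := ((continuous_apply h).tendsto φ).eventually hU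
      obtain ⟨ψ, hψ, ⟨za, hza, hpza⟩, ⟨zb, hzb, hpzb⟩, hψU⟩ :=
        ((mem_closure_iff_frequently.mp hcl).and_eventually
          (hf'.and (hg'.and hU'))).exists
      exact Set.disjoint_left.mp hUV hψU
        (hh ψ hψ za zb hza hzb ▸ hab hpza hpzb)
    exact ⟨key (· + ·) _ continuous_add fun ψ hψ a b h1 h2 => (hψ.2.1 f g a b h1 h2).1,
      key (· * ·) _ continuous_mul fun ψ hψ a b h1 h2 => (hψ.2.1 f g a b h1 h2).2⟩
  · have hopen : IsOpen {ψ : F → OnePoint ℂ | ψ f ∈ outerDisc ∧ ψ f⁻¹ ∈ outerDisc} :=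
      (isOpen_outerDisc.preimage
          (continuous_apply (A := fun _ : F => OnePoint ℂ) f)).inter
        (isOpen_outerDisc.preimage (continuous_apply (A := fun _ : F => OnePoint ℂ) f⁻¹))
    obtain ⟨ψ, hψ, hψ'⟩ := mem_closure_iff.mp hcl _ hopen hf
    exact hψ'.2.2 f hψ

theorem value_mem_valueConds (v : Place ℂ F) : value v ∈ valueConds (F := F) := by
  refine ⟨fun c => by rw [value_of_mem (algebraMap_mem v c), evalAt_algebraMap],
    fun f g a b hfa hgb => ?_, fun f h => ?_⟩
  · have hf : f ∈ v.toValuationSubring := value_ne_infty_iff.mp (by rw [hfa]; exact coe_ne_infty a)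
    have hg : g ∈ v.toValuationSubring := value_ne_infty_iff.mp (by rw [hgb]; exact coe_ne_infty b)
    rw [value_of_mem hf, coe_eq_coe] at hfa
    rw [value_of_mem hg, coe_eq_coe] at hgb
    rw [value_of_mem (add_mem hf hg), value_of_mem (mul_mem hf hg), evalAt_add hf hg,
      evalAt_mul hf hg, hfa, hgb]
    exact ⟨rfl, rfl⟩
  · obtain ⟨h1, h2⟩ := h
    have big : ∀ h : F, h ∈ v.toValuationSubring → value v h ∈ outerDisc → 1 < ‖evalAt v h‖ := by
      intro h hh hout
      rw [value_of_mem hh] at hout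
      by_contra hle
      exact hout ⟨_, by simpa [Metric.mem_closedBall] using not_lt.mp hle, rfl⟩
    rcases eq_or_ne f 0 with rfl | hf
    · have := big 0 (zero_mem _) h1
      simp at this
      linarith
    · by_cases hm : f ∈ v.toValuationSubring <;> by_cases hm' : f⁻¹ ∈ v.toValuationSubring
      · have h3 : evalAt v f * evalAt v f⁻¹ = 1 := by
          rw [← evalAt_mul hm hm', mul_inv_cancel₀ hf, evalAt_one]
        have h4 := congrArg norm h3
        rw [norm_mul, norm_one] at h4
        nlinarith [big f hm h1, big f⁻¹ hm' h2]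
      · have hord := (Curves.not_mem_iff_ord_neg v f⁻¹).mp hm'
        rw [v.ord_inv] at hord
        have h3 := big f hm h1
        rw [(evalAt_eq_zero_iff hm).mpr (Or.inr (by omega))] at h3
        simp at h3
        linarith
      · have hord := (Curves.not_mem_iff_ord_neg v f).mp hm
        have h3 := big f⁻¹ hm' h2
        rw [(evalAt_eq_zero_iff hm').mpr (Or.inr (by rw [v.ord_inv]; omega))] at h3
        simp at h3
        linarith
      · exact hm' ((v.toValuationSubring.mem_or_inv_mem f).resolve_left hm)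

theorem range_value : Set.range (value (F := F)) = valueConds (F := F) := by
  refine Set.Subset.antisymm (Set.range_subset_iff.mpr value_mem_valueConds) fun φ hφ => ?_
  obtain ⟨hc, hop, hinv⟩ := hφ
  have hfin : ∀ f : F, φ f ≠ ∞ → ∃ a : ℂ, φ f = ↑a := fun f hf =>
    (OnePoint.ne_infty_iff_exists.mp hf).imp fun a ha => ha.symm
  have hone : φ 1 = ↑(1 : ℂ) := by simpa using hc 1
  have hzero : φ 0 = ↑(0 : ℂ) := by simpa using hc 0
  let S : Subring F :=
    { carrier := {f | φ f ≠ ∞}
      one_mem' := by simp [hone]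
      zero_mem' := by simp [hzero]
      mul_mem' := fun {f g} hf hg => by
        obtain ⟨a, ha⟩ := hfin f hf
        obtain ⟨b, hb⟩ := hfin g hg
        simp [(hop f g a b ha hb).2]
      add_mem' := fun {f g} hf hg => by
        obtain ⟨a, ha⟩ := hfin f hf
        obtain ⟨b, hb⟩ := hfin g hg
        simp [(hop f g a b ha hb).1]
      neg_mem' := fun {f} hf => by
        obtain ⟨a, ha⟩ := hfin f hf
        have h1 := (hop (algebraMap ℂ F (-1)) f (-1) a (hc _) ha).2
        simp only [map_neg, map_one, neg_mul, one_mul] at h1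
        simp [h1] }
  have hout : (∞ : OnePoint ℂ) ∈ outerDisc := OnePoint.infty_notMem_image_coe
  let A : ValuationSubring F := ValuationSubring.ofSubring S fun f => by
    by_contra h
    push Not at h
    obtain ⟨h1, h2⟩ := h
    have h1' : φ f = ∞ := not_not.mp h1
    have h2' : φ f⁻¹ = ∞ := not_not.mp h2
    exact hinv f ⟨h1' ▸ hout, h2' ▸ hout⟩
  have hA : ∀ c : ℂ, algebraMap ℂ F c ∈ A := fun c => by
    show φ _ ≠ ∞
    rw [hc c]
    exact coe_ne_infty c
  have hA' : A ≠ ⊤ := by
    intro htop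
    obtain ⟨x, hx, -⟩ := Curves.IsFunctionField.exists_finite (K := ℂ) (F := F)
    have hall : ∀ f : F, ∃ a : ℂ, φ f = ↑a := fun f =>
      hfin f (show f ∈ A from htop ▸ ValuationSubring.mem_top f)
    obtain ⟨a, ha⟩ := hall x
    set y := x + algebraMap ℂ F (-a) with hy
    have hy0 : φ y = ↑(0 : ℂ) := by rw [(hop _ _ a (-a) ha (hc _)).1, add_neg_cancel]
    have hyne : y ≠ 0 := by
      intro h
      apply hx
      rw [hy, map_neg, add_neg_eq_zero] at h
      exact h ▸ isAlgebraic_algebraMap a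
    obtain ⟨b, hb⟩ := hall y⁻¹
    have h1 := (hop y y⁻¹ 0 b hy0 hb).2
    rw [mul_inv_cancel₀ hyne, hone, coe_eq_coe, zero_mul] at h1
    exact one_ne_zero h1
  obtain ⟨v, hv⟩ := exists_place_eq_valuationSubring A hA hA'
  refine ⟨v, funext fun f => ?_⟩
  have hmem : f ∈ v.toValuationSubring ↔ φ f ≠ ∞ := by rw [hv]; rfl
  by_cases hf : f ∈ v.toValuationSubring
  · obtain ⟨a, ha⟩ := hfin f (hmem.mp hf)
    rw [value_of_mem hf, ha, coe_eq_coe]
    set y := f + algebraMap ℂ F (-a) with hy
    have hym : y ∈ v.toValuationSubring := add_mem hf (algebraMap_mem v _)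
    have hy0 : φ y = ↑(0 : ℂ) := by rw [(hop _ _ a (-a) ha (hc _)).1, add_neg_cancel]
    have : evalAt v y = 0 := by
      rcases eq_or_ne y 0 with h | h
      · rw [h, evalAt_zero]
      rw [evalAt_eq_zero_iff hym]
      refine Or.inr (lt_of_le_of_ne (Curves.ord_nonneg_of_mem v hym) fun h0 => ?_)
      have hyi : y⁻¹ ∈ v.toValuationSubring :=
        mem_of_ord_nonneg v (by rw [v.ord_inv, ← h0]; rfl)
      rw [hv] at hyi
      obtain ⟨b, hb⟩ := hfin _ hyi
      have h1 := (hop y y⁻¹ 0 b hy0 hb).2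
      rw [mul_inv_cancel₀ h, hone, coe_eq_coe, zero_mul] at h1
      exact one_ne_zero h1
    rw [evalAt_add hf (algebraMap_mem v _), evalAt_algebraMap, add_neg_eq_zero] at this
    exact this
  · rw [value_of_notMem hf]
    exact (not_not.mp (mt hmem.mpr hf)).symm

/-- The space of places is compact. -/
theorem compactSpace_place : CompactSpace (Place ℂ F) :=
  ⟨isEmbedding_value.isCompact_iff.mpr
    (by rw [Set.image_univ, range_value]; exact isClosed_valueConds.isCompact)⟩

end FLTA.PicTorsion
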