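import Fermat.Agent.PicTorsion.Analytic.Chart
import Mathlib.Analysis.Analytic.Constructions

/-!
# Chosen coordinates at places
-/

set_option autoImplicit false
set_option linter.unusedSectionVars false

noncomputable section

open AlgebraicCurve Filter Topology

namespace FLTA.PicTorsion

variable {F : Type} [Field F] [Algebra ℂ F] [IsCurveOver ℂ F] [Curves.IsFunctionField ℂ F]

/-- A chosen uniformiser at `P`. -/
def unif (P : Place ℂ F) : F := (Curves.exists_ord_eq_one P).choose

theorem unif_ne_zero (P : Place ℂ F) : unif P ≠ 0 :=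
  (Curves.exists_ord_eq_one P).choose_spec.1

theorem ord_unif (P : Place ℂ F) : P.ord (unif P) = 1 :=
  (Curves.exists_ord_eq_one P).choose_spec.2

/-- The coordinate at `P`. -/
def coord (P v : Place ℂ F) : ℂ := evalAt v (unif P)

theorem coord_self (P : Place ℂ F) : coord P P = 0 :=
  evalAt_eq_zero_of_ord_eq_one (ord_unif P)

theorem tendsto_coord (P : Place ℂ F) : Tendsto (coord P) (𝓝 P) (𝓝 0) := by
  have := tendsto_evalAt (mem_of_ord_eq_one (ord_unif P))
  rwa [evalAt_eq_zero_of_ord_eq_one (ord_unif P)] at this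

/-- The parametrisation of a neighbourhood of `P` by the coordinate. -/
def param (P : Place ℂ F) : ℂ → Place ℂ F := (exists_chart (ord_unif P)).choose

theorem param_zero (P : Place ℂ F) : param P 0 = P :=
  (exists_chart (ord_unif P)).choose_spec.1

theorem tendsto_param (P : Place ℂ F) : Tendsto (param P) (𝓝 0) (𝓝 P) :=
  (exists_chart (ord_unif P)).choose_spec.2.1

theorem eventually_param (P : Place ℂ F) :
    ∀ᶠ τ in 𝓝 0, unif P ∈ (param P τ).toValuationSubring ∧ coord P (param P τ) = τ ∧
      (param P τ).ord (unif P - algebraMap ℂ F τ) = 1 :=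
  (exists_chart (ord_unif P)).choose_spec.2.2.1

theorem eventually_param_coord (P : Place ℂ F) : ∀ᶠ v in 𝓝 P, param P (coord P v) = v :=
  (exists_chart (ord_unif P)).choose_spec.2.2.2.1

theorem exists_expansion {P : Place ℂ F} {f : F} (hf : f ∈ P.toValuationSubring) :
    ∃ φ : ℂ → ℂ, AnalyticAt ℂ φ 0 ∧ φ 0 = evalAt P f ∧
      ∀ᶠ τ in 𝓝 0, f ∈ (param P τ).toValuationSubring ∧ evalAt (param P τ) f = φ τ := by
  obtain ⟨φ, hφ, hev⟩ := (exists_chart (ord_unif P)).choose_spec.2.2.2.2 f hf
  have h1 : ∀ᶠ τ in 𝓝 0, f ∈ (param P τ).toValuationSubring ∧ evalAt (param P τ) f = φ τ := by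
    filter_upwards [(tendsto_param P).eventually hev, eventually_param P] with τ h hτ
    refine ⟨h.1, h.2.trans ?_⟩
    show φ (coord P (param P τ)) = φ τ
    rw [hτ.2.1]
  refine ⟨φ, hφ, ?_, h1⟩
  have := (h1.self_of_nhds).2
  rw [param_zero] at this
  exact this.symm

/-- The parametrisation avoids any other given place. -/
theorem eventually_param_ne {P w : Place ℂ F} (h : P ≠ w) : ∀ᶠ τ in 𝓝 0, param P τ ≠ w :=
  (tendsto_param P).eventually (eventually_ne h)

/-- A section of `L(M)` near a point of multiplicity one of `M`: vanishing is detected by the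
value of `t h`. -/
theorem eventually_mul_unif_spec (P : Place ℂ F) (M : Divisor ℂ F) (hM : M P = 1) :
    ∀ᶠ τ in 𝓝 0, ∀ h ∈ riemannRochSpace M,
      unif P * h ∈ (param P τ).toValuationSubring ∧
        (h ≠ 0 → (evalAt (param P τ) (unif P * h) = 0 ↔
          1 ≤ (param P τ).ord h + M (param P τ))) := by
  classical
  have hav : ∀ᶠ τ in 𝓝 0, ∀ w ∈ M.support, w ≠ P → param P τ ≠ w := by
    refine (Finset.eventually_all M.support).mpr fun w _ => ?_
    by_cases hw : w = P
    · exact Eventually.of_forall fun τ h => absurd hw h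
    · exact (eventually_param_ne (Ne.symm hw)).mono fun τ h _ => h
  filter_upwards [eventually_param P, hav] with τ hτ hsupp h hh
  rcases eq_or_ne h 0 with rfl | hh0
  · simp [zero_mem]
  set v := param P τ with hv
  have hord := ((mem_riemannRochSpace_iff.mp hh) v).resolve_left hh0
  have ht0 := unif_ne_zero P
  have key : 0 ≤ v.ord (unif P) + v.ord h ∧
      v.ord (unif P) + v.ord h = v.ord h + M v := by
    rcases eq_or_ne τ 0 with h0 | h0
    · have hvP : v = P := by rw [hv, h0, param_zero]
      rw [hvP, ord_unif, hM]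
      rw [hvP, hM] at hord
      omega
    · have hne : v ≠ P := fun hvP => h0 (by
        rw [← hτ.2.1, hvP, coord_self])
      have hMv : M v = 0 := by
        by_contra hMv
        exact hsupp v (Finsupp.mem_support_iff.mpr hMv) hne rfl
      have hval : evalAt v (unif P) ≠ 0 := by
        rw [show evalAt v (unif P) = τ from hτ.2.1]
        exact h0
      have htv : v.ord (unif P) = 0 := by
        have h1 := Curves.ord_nonneg_of_mem v hτ.1
        by_contra h2
        exact hval ((evalAt_eq_zero_iff hτ.1).mpr (Or.inr (by omega)))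
      rw [hMv] at hord ⊢
      omega
  have hmem : unif P * h ∈ v.toValuationSubring :=
    mem_of_ord_nonneg v (by rw [v.ord_mul ht0 hh0]; exact key.1)
  refine ⟨hmem, fun _ => ?_⟩
  rw [evalAt_eq_zero_iff hmem, or_iff_right (mul_ne_zero ht0 hh0), v.ord_mul ht0 hh0, key.2]
  omega

end FLTA.PicTorsion
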