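import Fermat.Agent.PicTorsion.Analytic.Chart
import Fermat.Agent.Curves.RRGenus

/-!
# Divisor classes of tuples of places; non-special tuples
-/

set_option autoImplicit false
set_option linter.unusedSectionVars false

noncomputable section

open AlgebraicCurve Filter Topology

namespace FLTA.PicTorsion

variable {F : Type} [Field F] [Algebra ℂ F] [IsCurveOver ℂ F]
variable {ι : Type} [Fintype ι]

/-- The divisor of a tuple of places. -/
def tupDiv (v : ι → Place ℂ F) : Divisor ℂ F := ∑ i, Finsupp.single (v i) (1 : ℤ)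

theorem degree_single_one (v : Place ℂ F) : Divisor.degree (Finsupp.single v (1 : ℤ)) = 1 := by
  rw [Divisor.degree_single, IsCurveOver.deg_eq_one_of_isAlgClosed]
  simp

theorem degree_tupDiv (v : ι → Place ℂ F) : Divisor.degree (tupDiv v) = Fintype.card ι := by
  simp [tupDiv, map_sum, degree_single_one, IsCurveOver.deg_eq_one_of_isAlgClosed]

theorem tupDiv_nonneg (v : ι → Place ℂ F) : 0 ≤ tupDiv v :=
  Finset.sum_nonneg fun i _ => Finsupp.single_nonneg.mpr zero_le_one

theorem tupDiv_apply_of_injective {v : ι → Place ℂ F} (hv : Function.Injective v) (i : ι) :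
    tupDiv v (v i) = 1 := by
  classical
  rw [tupDiv, Finsupp.finsetSum_apply, Finset.sum_eq_single i]
  · simp
  · exact fun j _ hj => Finsupp.single_eq_of_ne' (fun h => hj (hv h))
  · simp

theorem tupDiv_apply_of_notMem {v : ι → Place ℂ F} {w : Place ℂ F} (h : ∀ i, v i ≠ w) :
    tupDiv v w = 0 := by
  rw [tupDiv, Finsupp.finsetSum_apply]
  exact Finset.sum_eq_zero fun i _ => Finsupp.single_eq_of_ne' (h i)

theorem one_le_tupDiv_apply (v : ι → Place ℂ F) (i : ι) : 1 ≤ tupDiv v (v i) := by
  classical
  rw [tupDiv, Finsupp.finsetSum_apply]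
  refine le_trans (by simp) (Finset.single_le_sum (f := fun j => Finsupp.single (v j) (1 : ℤ) (v i))
    (fun j _ => ?_) (Finset.mem_univ i))
  rw [Finsupp.single_apply]
  split_ifs <;> simp

theorem tupDiv_sumElim {κ : Type} [Fintype κ] (v : ι → Place ℂ F) (w : κ → Place ℂ F) :
    tupDiv (Sum.elim v w) = tupDiv v + tupDiv w := by
  simp [tupDiv, Fintype.sum_sum_type]

/-- The class of `v - w`. -/
def ptDiff (v w : Place ℂ F) : Pic0 ℂ F :=
  Pic0.mk ⟨Finsupp.single v 1 - Finsupp.single w 1, by
    rw [Divisor.mem_degZero, map_sub, degree_single_one, degree_single_one, sub_self]⟩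

@[simp]
theorem ptDiff_self (v : Place ℂ F) : ptDiff v v = 0 := by
  simp only [ptDiff, sub_self]
  exact Pic0.mk_zero

theorem ptDiff_add (u v w : Place ℂ F) : ptDiff u v + ptDiff v w = ptDiff u w := by
  rw [ptDiff, ptDiff, ptDiff, ← Pic0.mk_add]
  congr 1
  apply Subtype.ext
  simp

/-- The class of `∑ v i - ∑ P i`. -/
def tupCls (P v : ι → Place ℂ F) : Pic0 ℂ F := ∑ i, ptDiff (v i) (P i)

@[simp]
theorem tupCls_self (P : ι → Place ℂ F) : tupCls P P = 0 := by simp [tupCls]

theorem degree_tupDiv_sub (P v : ι → Place ℂ F) :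
    tupDiv v - tupDiv P ∈ Divisor.degZero (K := ℂ) (F := F) := by
  rw [Divisor.mem_degZero, map_sub, degree_tupDiv, degree_tupDiv, sub_self]

theorem tupCls_eq_mk (P v : ι → Place ℂ F) :
    tupCls P v = Pic0.mk ⟨tupDiv v - tupDiv P, degree_tupDiv_sub P v⟩ := by
  show _ = QuotientAddGroup.mk' _ _
  have : (⟨tupDiv v - tupDiv P, degree_tupDiv_sub P v⟩ : Divisor.degZero (K := ℂ) (F := F)) =
      ∑ i, ⟨Finsupp.single (v i) 1 - Finsupp.single (P i) 1, by
        rw [Divisor.mem_degZero, map_sub, degree_single_one, degree_single_one, sub_self]⟩ := by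
    apply Subtype.ext
    simp [tupDiv, Finset.sum_sub_distrib]
  rw [this, map_sum]
  rfl

theorem tupCls_add_eq_zero_iff {κ : Type} [Fintype κ] (S s : ι → Place ℂ F)
    (R w : κ → Place ℂ F) :
    tupCls S s + tupCls R w = 0 ↔
      ∃ f : F, f ≠ 0 ∧ Curves.divFn (K := ℂ) f = tupDiv s + tupDiv w - (tupDiv S + tupDiv R) := by
  rw [tupCls_eq_mk, tupCls_eq_mk, ← Pic0.mk_add, ← Pic0.mk_zero, Pic0.mk, Pic0.mk,
    QuotientAddGroup.eq_iff_sub_mem, sub_zero, AddSubgroup.mem_addSubgroupOf]
  show Divisor.IsPrincipal _ ↔ _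
  simp only [Divisor.IsPrincipal, AddSubgroup.coe_add]
  refine exists_congr fun f => and_congr_right fun _ => ?_
  rw [Finsupp.ext_iff]
  refine forall_congr' fun v => ?_
  rw [Curves.divFn_apply]
  simp only [Finsupp.add_apply, Finsupp.sub_apply]
  constructor <;> intro h <;> linarith

variable [Curves.IsFunctionField ℂ F]

instance infinite_place : Infinite (Place ℂ F) := by
  obtain ⟨P⟩ := Curves.IsFunctionField.exists_place (K := ℂ) (F := F)
  obtain ⟨t, -, ht⟩ := Curves.exists_ord_eq_one P
  obtain ⟨π, -, -, hπ, -, -⟩ := exists_chart ht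
  have hinj : Set.InjOn π {τ | evalAt (π τ) t = τ} := fun a ha b hb h => by
    rw [← (ha : evalAt (π a) t = a), h]
    exact hb
  have hinf : {τ : ℂ | evalAt (π τ) t = τ}.Infinite :=
    infinite_of_mem_nhds 0 (hπ.mono fun τ h => h.2.1)
  exact Set.infinite_univ_iff.mp ((hinf.image hinj).mono (Set.subset_univ _))

/-- A tuple of distinct places whose sum is non-special. -/
structure NonSpecial (R : ι → Place ℂ F) : Prop where
  injective : Function.Injective R
  ell_eq_one : Curves.ell (tupDiv R) = 1

theorem finite_setOf_ell_add_single {D : Divisor ℂ F} (hD0 : 0 ≤ D) (hD : Curves.ell D = 1)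
    (hk : Divisor.degree D < genusFF ℂ F) :
    {P : Place ℂ F | 2 ≤ Curves.ell (D + Finsupp.single P 1)}.Finite := by
  classical
  obtain ⟨c, hc⟩ := Curves.exists_forall_finrank_H1_eq_zero (K := ℂ) (F := F)
  by_contra hinf
  obtain ⟨T, hT, hTcard⟩ := Set.Infinite.exists_subset_card_eq hinf c.toNat
  have key : ∀ T : Finset (Place ℂ F), (↑T ⊆ {P | 2 ≤ Curves.ell (D + Finsupp.single P 1)}) →
      T.card + 1 ≤ Curves.ell (D + ∑ P ∈ T, Finsupp.single P 1) := by
    intro T
    induction T using Finset.induction with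
    | empty => simp [hD]
    | insert P U hPU ih =>
      intro hsub
      rw [Finset.coe_insert, Set.insert_subset_iff] at hsub
      rw [Finset.card_insert_of_notMem hPU, Finset.sum_insert hPU]
      set E : Divisor ℂ F := ∑ Q ∈ U, Finsupp.single Q 1
      have hEP : E P = 0 := by
        simp only [E, Finsupp.finsetSum_apply]
        exact Finset.sum_eq_zero fun Q hQ =>
          Finsupp.single_eq_of_ne' (fun h => hPU (h ▸ hQ))
      have hE0 : 0 ≤ E := Finset.sum_nonneg fun Q _ => Finsupp.single_nonneg.mpr zero_le_one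
      have hlt : riemannRochSpace (D + E) < riemannRochSpace (D + (Finsupp.single P 1 + E)) := by
        refine lt_of_le_of_ne (Curves.riemannRochSpace_mono ?_) ?_
        · exact add_le_add le_rfl (le_add_of_nonneg_left (Finsupp.single_nonneg.mpr zero_le_one))
        intro heq
        have hsub' : riemannRochSpace (D + Finsupp.single P 1) ≤ riemannRochSpace D := by
          intro f hf
          have h1 : f ∈ riemannRochSpace (D + E) := by
            rw [heq]
            exact Curves.riemannRochSpace_mono (add_le_add le_rfl (le_add_of_nonneg_right hE0)) hf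
          intro v
          rcases eq_or_ne v P with rfl | hv
          · have := h1 v
            rwa [Finsupp.add_apply, hEP, add_zero] at this
          · have := hf v
            rwa [Finsupp.add_apply, Finsupp.single_eq_of_ne hv, add_zero] at this
        have h2 := Submodule.finrank_mono hsub'
        have h3 : 2 ≤ Curves.ell (D + Finsupp.single P 1) := hsub.1
        unfold Curves.ell at hD h3
        omega
      have := Submodule.finrank_lt_finrank_of_lt hlt
      have := ih hsub.2
      unfold Curves.ell at *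
      omega
  have h1 := key T hT
  set E : Divisor ℂ F := ∑ P ∈ T, Finsupp.single P 1
  have hdeg : Divisor.degree (D + E) = Divisor.degree D + T.card := by
    simp [E, map_sum, degree_single_one, IsCurveOver.deg_eq_one_of_isAlgClosed]
  have hk0 := Curves.degree_nonneg hD0
  have h2 := Curves.riemannRoch (D + E)
  rw [hc _ (by rw [hdeg, hTcard]; omega), hdeg] at h2
  omega

theorem exists_nonSpecial_aux (S : Set (Place ℂ F)) (hS : S.Finite) :
    ∀ k ≤ genusFF ℂ F, ∃ R : Fin k → Place ℂ F, NonSpecial R ∧ ∀ i, R i ∉ S := by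
  intro k
  induction k with
  | zero =>
    intro _
    refine ⟨Fin.elim0, ⟨fun i => i.elim0, ?_⟩, fun i => i.elim0⟩
    rw [show tupDiv (Fin.elim0 : Fin 0 → Place ℂ F) = 0 from Finset.sum_empty]
    exact Curves.ell_zero
  | succ k ih =>
    intro hk
    obtain ⟨R, hR, hRS⟩ := ih (by omega)
    have hfin := finite_setOf_ell_add_single (tupDiv_nonneg R) hR.ell_eq_one
      (by rw [degree_tupDiv, Fintype.card_fin]; exact_mod_cast hk)
    obtain ⟨P, hP⟩ := ((hfin.union hS).union (Set.finite_range R)).exists_notMem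
    simp only [Set.mem_union, not_or, Set.mem_range, not_exists, Set.mem_ofPred_eq, not_le] at hP
    refine ⟨Fin.snoc R P, ⟨?_, ?_⟩, ?_⟩
    · intro a b hab
      induction a using Fin.lastCases with
      | last => induction b using Fin.lastCases with
        | last => rfl
        | cast b => simp at hab; exact absurd hab.symm (hP.2 b)
      | cast a => induction b using Fin.lastCases with
        | last => simp at hab; exact absurd hab (hP.2 a)
        | cast b => simp at hab; exact congrArg Fin.castSucc (hR.injective hab)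
    · have e : tupDiv (Fin.snoc R P) = tupDiv R + Finsupp.single P 1 := by
        simp [tupDiv, Fin.sum_univ_castSucc]
      rw [e]
      have h1 : Curves.ell (tupDiv R) ≤ Curves.ell (tupDiv R + Finsupp.single P 1) :=
        Curves.ell_mono (le_add_of_nonneg_right (Finsupp.single_nonneg.mpr zero_le_one))
      rw [hR.ell_eq_one] at h1
      omega
    · intro i
      induction i using Fin.lastCases with
      | last => simpa using hP.1.2
      | cast i => simpa using hRS i

theorem exists_nonSpecial {S : Set (Place ℂ F)} (hS : S.Finite) :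
    ∃ R : Fin (genusFF ℂ F) → Place ℂ F, NonSpecial R ∧ ∀ i, R i ∉ S :=
  exists_nonSpecial_aux S hS _ le_rfl

theorem exists_eq_tupDiv_of_nonneg : ∀ (n : ℕ) (D : Divisor ℂ F), 0 ≤ D →
    Divisor.degree D = n → ∃ E : Fin n → Place ℂ F, D = tupDiv E := by
  intro n
  induction n with
  | zero =>
    intro D hD hdeg
    refine ⟨Fin.elim0, ?_⟩
    rw [show tupDiv (Fin.elim0 : Fin 0 → Place ℂ F) = 0 from Finset.sum_empty]
    ext v
    rw [Curves.degree_eq_sum, Finsupp.sum, Nat.cast_zero,
      Finset.sum_eq_zero_iff_of_nonneg fun v _ => hD v] at hdeg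
    by_contra h
    exact h (hdeg v (Finsupp.mem_support_iff.mpr h))
  | succ n ih =>
    intro D hD hdeg
    obtain ⟨v, hv⟩ : ∃ v, D v ≠ 0 := by
      by_contra h
      push Not at h
      rw [show D = 0 from Finsupp.ext h, map_zero] at hdeg
      omega
    have hv1 : 1 ≤ D v := by
      have := hD v
      rw [Finsupp.zero_apply] at this
      omega
    have hpos : 0 ≤ D - Finsupp.single v 1 := fun w => by
      rw [Finsupp.sub_apply, Finsupp.zero_apply]
      rcases eq_or_ne w v with rfl | hw
      · simp; omega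
      · rw [Finsupp.single_eq_of_ne hw, sub_zero]
        exact hD w
    obtain ⟨E, hE⟩ := ih (D - Finsupp.single v 1) hpos
      (by rw [Curves.degree_sub_single, hdeg]; omega)
    · refine ⟨Fin.snoc E v, ?_⟩
      have : tupDiv (Fin.snoc E v) = tupDiv E + Finsupp.single v 1 := by
        simp [tupDiv, Fin.sum_univ_castSucc]
      rw [this, ← hE, sub_add_cancel]

theorem exists_eq_tupCls (O : Place ℂ F) (x : Pic0 ℂ F) :
    ∃ E : Fin (genusFF ℂ F) → Place ℂ F, x = tupCls (fun _ => O) E := by
  obtain ⟨⟨D, hD⟩, rfl⟩ := Pic0.mk_surjective x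
  set g := genusFF ℂ F
  set D' : Divisor ℂ F := D + tupDiv (fun _ : Fin g => O)
  have hdeg : Divisor.degree D' = g := by
    rw [map_add, Divisor.mem_degZero.mp hD, degree_tupDiv, Fintype.card_fin, zero_add]
  have hl := Curves.riemann_inequality D'
  obtain ⟨f, hf, hf0⟩ : ∃ f ∈ riemannRochSpace D', f ≠ 0 := by
    by_contra h
    push Not at h
    have : riemannRochSpace D' = ⊥ := (Submodule.eq_bot_iff _).mpr h
    unfold Curves.ell at hl
    rw [this, finrank_bot, hdeg] at hl
    omega
  obtain ⟨E, hE⟩ := exists_eq_tupDiv_of_nonneg g (Curves.divFn (K := ℂ) f + D')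
    ((Curves.mem_riemannRochSpace_iff_add_nonneg hf0).mp hf)
    (by rw [map_add, Curves.degree_divFn, hdeg, zero_add])
  refine ⟨E, ?_⟩
  rw [tupCls_eq_mk, Pic0.mk, Pic0.mk, QuotientAddGroup.eq_iff_sub_mem,
    AddSubgroup.mem_addSubgroupOf]
  refine ⟨f⁻¹, inv_ne_zero hf0, fun v => ?_⟩
  rw [Place.ord_inv, AddSubgroupClass.coe_sub]
  show (D - (tupDiv E - tupDiv fun _ => O)) v = -v.ord f
  rw [← hE]
  simp [D', Curves.divFn_apply]
  ring

end FLTA.PicTorsion
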