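import Fermat.Agent.Curves.BasicOrd

/-!
# Small additions to the `ord` API
-/

set_option autoImplicit false

noncomputable section

open AlgebraicCurve WithZero

namespace FLTA.PicTorsion

variable {K F : Type*} [Field K] [Field F] [Algebra K F] (v : Place K F)

theorem mem_of_ord_nonneg {f : F} (h : 0 ≤ v.ord f) : f ∈ v.toValuationSubring := by
  rcases eq_or_ne f 0 with rfl | hf
  · exact zero_mem _
  · exact (Curves.mem_iff_ord_nonneg v hf).mpr h

theorem ord_div {f g : F} (hf : f ≠ 0) (hg : g ≠ 0) : v.ord (f / g) = v.ord f - v.ord g := by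
  rw [div_eq_mul_inv, v.ord_mul hf (inv_ne_zero hg), v.ord_inv, sub_eq_add_neg]

theorem ord_add_of_lt {f g : F} (hf : f ≠ 0) (h : g = 0 ∨ v.ord f < v.ord g) :
    f + g ≠ 0 ∧ v.ord (f + g) = v.ord f := by
  rcases eq_or_ne g 0 with rfl | hg
  · simp [hf]
  have h' := h.resolve_left hg
  refine ⟨fun h0 => ?_, Curves.ord_add_eq_of_lt v hf hg h'⟩
  rw [eq_neg_of_add_eq_zero_right h0, Curves.ord_neg] at h'
  exact lt_irrefl _ h'

theorem mem_maximalIdeal_iff {a : v.toValuationSubring} :
    a ∈ IsLocalRing.maximalIdeal v.toValuationSubring ↔ (a : F) = 0 ∨ 0 < v.ord (a : F) := by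
  rw [← Curves.residueMap_eq_zero_iff v a]
  exact (IsLocalRing.residue_eq_zero_iff a).symm

end FLTA.PicTorsion
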