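import Fermat.Prelude.Def_AlgebraicCurve_IsCurveOver
import Fermat.Agent.PicTorsion.Analytic.OrdAux
import Mathlib.Analysis.Complex.Basic
import Mathlib.Analysis.Complex.Polynomial.Basic
import Mathlib.Topology.Compactification.OnePoint.Basic
import Mathlib.Algebra.MvPolynomial.Eval

/-!
# Values of functions at the places of a function field over `ℂ`, and the topology they define
-/

set_option autoImplicit false
set_option linter.unusedSectionVars false

noncomputable section

open AlgebraicCurve Filter Topology OnePoint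

namespace FLTA.PicTorsion

variable {F : Type} [Field F] [Algebra ℂ F] [IsCurveOver ℂ F]

/-- The residue field of a place is `ℂ`. -/
def residueEquiv (v : Place ℂ F) : ℂ ≃ₐ[ℂ] v.ResidueField :=
  AlgEquiv.ofBijective (Algebra.ofId ℂ v.ResidueField)
    (haveI : Module.Finite ℂ v.ResidueField := IsCurveOver.finiteResidue v
     haveI : Algebra.IsIntegral ℂ v.ResidueField := Algebra.IsIntegral.of_finite ℂ v.ResidueField
     IsAlgClosed.algebraMap_bijective_of_isIntegral)

/-- The value map on the valuation ring of a place. -/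
def resVal (v : Place ℂ F) : v.toValuationSubring →+* ℂ :=
  ((residueEquiv v).symm : v.ResidueField →+* ℂ).comp (IsLocalRing.residue _)

theorem resVal_algebraMap (v : Place ℂ F) (c : ℂ) :
    resVal v (algebraMap ℂ v.toValuationSubring c) = c :=
  (residueEquiv v).symm_apply_apply c

open scoped Classical in
/-- The value of `f` at `v` (zero if `f` has a pole there). -/
def evalAt (v : Place ℂ F) (f : F) : ℂ :=
  if h : f ∈ v.toValuationSubring then resVal v ⟨f, h⟩ else 0

open scoped Classical in
/-- The value of `f` at `v` in the Riemann sphere. -/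
def value (v : Place ℂ F) (f : F) : OnePoint ℂ :=
  if f ∈ v.toValuationSubring then ((evalAt v f : ℂ) : OnePoint ℂ) else ∞

variable {v : Place ℂ F} {f g : F}

theorem evalAt_of_mem (h : f ∈ v.toValuationSubring) : evalAt v f = resVal v ⟨f, h⟩ := dif_pos h

theorem value_of_mem (h : f ∈ v.toValuationSubring) : value v f = (evalAt v f : OnePoint ℂ) :=
  if_pos h

theorem value_of_notMem (h : f ∉ v.toValuationSubring) : value v f = ∞ := if_neg h

theorem value_ne_infty_iff : value v f ≠ ∞ ↔ f ∈ v.toValuationSubring := by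
  by_cases h : f ∈ v.toValuationSubring
  · simp [value_of_mem h, h]
  · simp [value_of_notMem h, h]

variable (v) in
theorem algebraMap_mem (c : ℂ) : algebraMap ℂ F c ∈ v.toValuationSubring := v.algebraMap_mem' c

variable (v) in
@[simp]
theorem evalAt_algebraMap (c : ℂ) : evalAt v (algebraMap ℂ F c) = c := by
  rw [evalAt_of_mem (algebraMap_mem v c)]
  exact resVal_algebraMap v c

variable (v) in
@[simp]
theorem evalAt_one : evalAt v (1 : F) = 1 := by
  rw [evalAt_of_mem (one_mem _)]
  exact map_one (resVal v)

variable (v) in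
@[simp]
theorem evalAt_zero : evalAt v (0 : F) = 0 := by
  rw [evalAt_of_mem (zero_mem _)]
  exact map_zero (resVal v)

theorem evalAt_add (hf : f ∈ v.toValuationSubring) (hg : g ∈ v.toValuationSubring) :
    evalAt v (f + g) = evalAt v f + evalAt v g := by
  rw [evalAt_of_mem (add_mem hf hg), evalAt_of_mem hf, evalAt_of_mem hg, ← map_add]
  rfl

theorem evalAt_sub (hf : f ∈ v.toValuationSubring) (hg : g ∈ v.toValuationSubring) :
    evalAt v (f - g) = evalAt v f - evalAt v g := by
  rw [evalAt_of_mem (sub_mem hf hg), evalAt_of_mem hf, evalAt_of_mem hg, ← map_sub]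
  rfl

theorem evalAt_mul (hf : f ∈ v.toValuationSubring) (hg : g ∈ v.toValuationSubring) :
    evalAt v (f * g) = evalAt v f * evalAt v g := by
  rw [evalAt_of_mem (mul_mem hf hg), evalAt_of_mem hf, evalAt_of_mem hg, ← map_mul]
  rfl

theorem evalAt_pow (hf : f ∈ v.toValuationSubring) (n : ℕ) :
    evalAt v (f ^ n) = evalAt v f ^ n := by
  rw [evalAt_of_mem (pow_mem hf n), evalAt_of_mem hf, ← map_pow]
  rfl

theorem evalAt_eq_zero_iff (hf : f ∈ v.toValuationSubring) :
    evalAt v f = 0 ↔ f = 0 ∨ 0 < v.ord f := by
  rw [evalAt_of_mem hf,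
    show resVal v ⟨f, hf⟩ = (residueEquiv v).symm (IsLocalRing.residue _ ⟨f, hf⟩) from rfl,
    EmbeddingLike.map_eq_zero_iff, IsLocalRing.residue_eq_zero_iff,
    mem_maximalIdeal_iff]

theorem sub_evalAt_eq_zero_or_pos (hf : f ∈ v.toValuationSubring) :
    f - algebraMap ℂ F (evalAt v f) = 0 ∨ 0 < v.ord (f - algebraMap ℂ F (evalAt v f)) := by
  rw [← evalAt_eq_zero_iff (sub_mem hf (algebraMap_mem v _)),
    evalAt_sub hf (algebraMap_mem v _), evalAt_algebraMap, sub_self]

theorem evalAt_ne_zero_of_ord_eq_zero (hf0 : f ≠ 0) (h : v.ord f = 0) : evalAt v f ≠ 0 := by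
  intro he
  rw [evalAt_eq_zero_iff (mem_of_ord_nonneg v h.ge), or_iff_right hf0] at he
  omega

/-- Value of a polynomial expression in functions regular at `v`. -/
theorem evalAt_aeval {σ : Type*} (z : σ → F) (hz : ∀ i, z i ∈ v.toValuationSubring)
    (p : MvPolynomial σ ℂ) :
    MvPolynomial.aeval z p ∈ v.toValuationSubring ∧
      evalAt v (MvPolynomial.aeval z p) = MvPolynomial.eval (fun i => evalAt v (z i)) p := by
  induction p using MvPolynomial.induction_on with
  | C c => simp [algebraMap_mem]
  | add p q hp hq =>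
    refine ⟨by rw [map_add]; exact add_mem hp.1 hq.1, ?_⟩
    rw [map_add, map_add, evalAt_add hp.1 hq.1, hp.2, hq.2]
  | mul_X p i hp =>
    refine ⟨by rw [map_mul, MvPolynomial.aeval_X]; exact mul_mem hp.1 (hz i), ?_⟩
    rw [map_mul, map_mul, MvPolynomial.aeval_X, MvPolynomial.eval_X,
      evalAt_mul hp.1 (hz i), hp.2]

theorem value_injective : Function.Injective (value (F := F)) := by
  intro v w h
  apply Place.ext
  ext f
  rw [← value_ne_infty_iff (v := v), ← value_ne_infty_iff (v := w), h]

/-- The topology of pointwise convergence of values on the Riemann sphere. -/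
scoped instance placeTopology : TopologicalSpace (Place ℂ F) :=
  TopologicalSpace.induced (fun v f => value v f) inferInstance

theorem isEmbedding_value : Topology.IsEmbedding (value (F := F)) :=
  ⟨⟨rfl⟩, value_injective⟩

theorem continuous_value (f : F) : Continuous (fun v : Place ℂ F => value v f) :=
  (continuous_apply f).comp isEmbedding_value.continuous

scoped instance placeT2Space : T2Space (Place ℂ F) := isEmbedding_value.t2Space

theorem isOpen_setOf_mem (f : F) : IsOpen {v : Place ℂ F | f ∈ v.toValuationSubring} := by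
  have : {v : Place ℂ F | f ∈ v.toValuationSubring} = (fun v => value v f) ⁻¹' {∞}ᶜ := by
    ext v
    simpa using (value_ne_infty_iff (v := v) (f := f)).symm
  rw [this]
  exact OnePoint.isClosed_infty.isOpen_compl.preimage (continuous_value f)

theorem eventually_mem {v : Place ℂ F} (hf : f ∈ v.toValuationSubring) :
    ∀ᶠ w in 𝓝 v, f ∈ w.toValuationSubring :=
  (isOpen_setOf_mem f).mem_nhds hf

theorem tendsto_evalAt {v : Place ℂ F} (hf : f ∈ v.toValuationSubring) :
    Tendsto (fun w : Place ℂ F => evalAt w f) (𝓝 v) (𝓝 (evalAt v f)) := by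
  rw [← OnePoint.comap_coe_nhds (evalAt v f), tendsto_comap_iff]
  refine Tendsto.congr' ?_ (value_of_mem hf ▸ (continuous_value f).tendsto v)
  filter_upwards [eventually_mem hf] with w hw using value_of_mem hw

theorem continuousOn_evalAt (f : F) :
    ContinuousOn (fun v : Place ℂ F => evalAt v f) {v | f ∈ v.toValuationSubring} :=
  fun _ hv => (tendsto_evalAt hv).mono_left nhdsWithin_le_nhds

/-- Eventual avoidance of a given place. -/
theorem eventually_ne {v w : Place ℂ F} (h : v ≠ w) : ∀ᶠ u in 𝓝 v, u ≠ w :=
  isOpen_compl_singleton.mem_nhds h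

end FLTA.PicTorsion
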