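import Mathlib.Analysis.Calculus.MeanValue
import Mathlib.Analysis.Calculus.ContDiff.RCLike
import Mathlib.Analysis.Calculus.InverseFunctionTheorem.ContDiff
import Mathlib.Analysis.SpecificLimits.Basic
import Mathlib.Analysis.Normed.Module.FiniteDimension
import Mathlib.Analysis.Complex.Basic

/-!
# Linearisation of a commutative local group law of class `C²`

If `α : E → G` is injective near `0` and `α (Φ (x, y)) = α x + α y` near `0`, for a `C²` map `Φ`,
then `α = e ∘ L` near `0`, with `e : E →+ G` a homomorphism injective near `0` and `L` a local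
homeomorphism: `L = lim 2ⁿ hⁿ`, where `h` is the halving map.
-/

set_option autoImplicit false
set_option linter.unusedSectionVars false

noncomputable section

open Filter Topology Metric

namespace FLTA.PicTorsion

section SecondOrder

variable {X Y : Type*} [NormedAddCommGroup X] [NormedSpace ℂ X] [NormedAddCommGroup Y]
  [NormedSpace ℂ Y]

theorem exists_second_order {f : X → Y} (hf : ContDiffAt ℂ 2 f 0) {S : X →L[ℂ] Y}
    (hS : HasFDerivAt f S 0) :
    ∃ C δ : ℝ, 0 ≤ C ∧ 0 < δ ∧ ∀ x y, ‖x‖ < δ → ‖y‖ < δ →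
      ‖f x - f y - S (x - y)‖ ≤ C * max ‖x‖ ‖y‖ * ‖x - y‖ := by
  have h1 : ContDiffAt ℂ 1 (fderiv ℂ f) 0 := hf.fderiv_right (by norm_num)
  obtain ⟨K, t, ht, hK⟩ := h1.exists_lipschitzOnWith
  have hd : ∀ᶠ z in 𝓝 (0 : X), DifferentiableAt ℂ f z :=
    (hf.eventually (by decide)).mono fun z hz => hz.differentiableAt (by norm_num)
  obtain ⟨δ, hδ, hball⟩ := Metric.eventually_nhds_iff_ball.mp (hd.and ht)
  refine ⟨K, δ, K.2, hδ, fun x y hx hy => ?_⟩
  have hm : max ‖x‖ ‖y‖ < δ := max_lt hx hy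
  set s := closedBall (0 : X) (max ‖x‖ ‖y‖) with hs
  have hmem : ∀ z ∈ s, z ∈ ball (0 : X) δ := fun z hz => by
    rw [hs, mem_closedBall_zero_iff] at hz
    rw [mem_ball_zero_iff]
    linarith
  have hb : ∀ z ∈ s, ‖fderiv ℂ f z - S‖ ≤ K * max ‖x‖ ‖y‖ := fun z hz => by
    rw [← hS.fderiv]
    refine (lipschitzOnWith_iff_norm_sub_le.mp hK (hball z (hmem z hz)).2
      (hball 0 (mem_ball_self hδ)).2).trans ?_
    rw [sub_zero]
    rw [hs, mem_closedBall_zero_iff] at hz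
    exact mul_le_mul_of_nonneg_left hz K.2
  exact (convex_closedBall (0 : X) _).norm_image_sub_le_of_norm_fderiv_le'
    (fun z hz => (hball z (hmem z hz)).1) hb
    (by simp [hs] : y ∈ s) (by simp [hs] : x ∈ s)

end SecondOrder

variable {E : Type*} [NormedAddCommGroup E] [NormedSpace ℂ E] [FiniteDimensional ℂ E]
  {G : Type*} [AddCommGroup G]

/-- Extension of a local homomorphism on a ball to the whole space. -/
theorem exists_hom_of_local {β : E → G} {r : ℝ} (hr : 0 < r) (h0 : β 0 = 0)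
    (hadd : ∀ a b : E, ‖a‖ < r → ‖b‖ < r → β (a + b) = β a + β b) :
    ∃ e : E →+ G, ∀ a : E, ‖a‖ < r → e a = β a := by
  have hnc : ∀ (m : ℕ) (z : E), ‖(m : ℂ) • z‖ = m * ‖z‖ := fun m z => by
    rw [norm_smul, Complex.norm_natCast]
  have hmul : ∀ (m : ℕ) (z : E), (m : ℝ) * ‖z‖ < r → β ((m : ℂ) • z) = m • β z := by
    intro m
    induction m with
    | zero => simp [h0]
    | succ m ih =>
      intro z hz
      push_cast at hz
      have h1 : (m : ℝ) * ‖z‖ < r := by nlinarith [norm_nonneg z]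
      rcases Nat.eq_zero_or_pos m with rfl | hm
      · simp
      have h2 : ‖z‖ < r := by
        have : (1 : ℝ) ≤ m := by exact_mod_cast hm
        nlinarith [norm_nonneg z]
      rw [Nat.cast_succ, add_smul, one_smul, hadd _ _ ((hnc m z).trans_lt h1) h2, ih z h1,
        succ_nsmul]
  have hex : ∀ z : E, ∃ n : ℕ, 0 < n ∧ ‖z‖ < n * r := by
    intro z
    obtain ⟨n, hn⟩ := exists_nat_gt (‖z‖ / r)
    refine ⟨n, ?_, (div_lt_iff₀ hr).mp hn⟩
    exact_mod_cast lt_of_le_of_lt (div_nonneg (norm_nonneg z) hr.le) hn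
  choose N hN0 hN using hex
  set e : E → G := fun z => N z • β ((N z : ℂ)⁻¹ • z) with he
  have hnorm : ∀ (n : ℕ) (z : E), 0 < n → ‖z‖ < n * r → ‖(n : ℂ)⁻¹ • z‖ < r := fun n z hn hz => by
    rw [norm_smul, norm_inv, Complex.norm_natCast, inv_mul_lt_iff₀ (by exact_mod_cast hn)]
    exact hz
  have hind : ∀ (z : E) (n : ℕ), 0 < n → ‖z‖ < n * r → e z = n • β ((n : ℂ)⁻¹ • z) := by
    intro z n hn hz
    set m := N z with hm
    have hm0 : 0 < m := hN0 z
    have key : ∀ a b : ℕ, 0 < a → 0 < b → ‖z‖ < a * r →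
        β ((a : ℂ)⁻¹ • z) = b • β (((a * b : ℕ) : ℂ)⁻¹ • z) := by
      intro a b ha hb hza
      have e1 : (a : ℂ)⁻¹ • z = (b : ℂ) • (((a * b : ℕ) : ℂ)⁻¹ • z) := by
        rw [smul_smul]
        congr 1
        have : (a : ℂ) ≠ 0 := by exact_mod_cast ha.ne'
        have : (b : ℂ) ≠ 0 := by exact_mod_cast hb.ne'
        push_cast
        field_simp
      rw [← hmul b _ (by rw [← hnc, ← e1]; exact hnorm a z ha hza), ← e1]
    show m • β ((m : ℂ)⁻¹ • z) = _
    rw [key m n hm0 hn (hN z), key n m hn hm0 hz, smul_smul, smul_smul, mul_comm n m]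
  refine ⟨AddMonoidHom.mk' e fun a b => ?_, fun a ha => ?_⟩
  · obtain ⟨n, hn⟩ := exists_nat_gt ((‖a‖ + ‖b‖) / r)
    have hn' : ‖a‖ + ‖b‖ < n * r := (div_lt_iff₀ hr).mp hn
    have hn0 : 0 < n := by
      exact_mod_cast lt_of_le_of_lt
        (div_nonneg (add_nonneg (norm_nonneg a) (norm_nonneg b)) hr.le) hn
    have ha : ‖a‖ < n * r := by linarith [norm_nonneg b]
    have hb : ‖b‖ < n * r := by linarith [norm_nonneg a]
    rw [hind a n hn0 ha, hind b n hn0 hb, hind (a + b) n hn0 ((norm_add_le a b).trans_lt hn'),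
      smul_add, hadd _ _ (hnorm n a hn0 ha) (hnorm n b hn0 hb), smul_add]
  · show e a = _
    rw [hind a 1 one_pos (by simpa using ha)]
    simp

/-- Linearisation of a local commutative group law. -/
theorem exists_linearisation (α : E → G) (Φ : E × E → E) (hΦ : ContDiffAt ℂ 2 Φ 0)
    (hα0 : α 0 = 0) (hl : ∀ᶠ u in 𝓝 0, Φ (u, 0) = u) (hr' : ∀ᶠ u in 𝓝 0, Φ (0, u) = u)
    (hadd : ∀ᶠ p in 𝓝 (0 : E × E), α (Φ p) = α p.1 + α p.2)
    (hinj : ∀ᶠ p in 𝓝 (0 : E × E), α p.1 = α p.2 → p.1 = p.2) :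
    ∃ (e : E →+ G) (L : E → E), L 0 = 0 ∧ ContinuousAt L 0 ∧ map L (𝓝 0) = 𝓝 0 ∧
      (∀ᶠ u in 𝓝 0, α u = e (L u)) ∧ ∀ᶠ z in 𝓝 0, e z = 0 → z = 0 := by
  haveI : CompleteSpace E := FiniteDimensional.complete ℂ E
  have hΦ0 : Φ 0 = 0 := hl.self_of_nhds
  set S : E × E →L[ℂ] E := ContinuousLinearMap.fst ℂ E E + ContinuousLinearMap.snd ℂ E E with hS
  have hΦd : HasFDerivAt Φ S 0 := by
    have hD := (hΦ.differentiableAt (by norm_num)).hasFDerivAt
    suffices fderiv ℂ Φ 0 = S by rwa [this] at hD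
    have h1 : (fderiv ℂ Φ 0).comp (ContinuousLinearMap.inl ℂ E E) = ContinuousLinearMap.id ℂ E :=
      (HasFDerivAt.comp (0 : E) (f := fun u : E => (u, (0 : E))) hD
          (ContinuousLinearMap.inl ℂ E E).hasFDerivAt).unique
        ((hasFDerivAt_id (0 : E)).congr_of_eventuallyEq (hl.mono fun u hu => hu))
    have h2 : (fderiv ℂ Φ 0).comp (ContinuousLinearMap.inr ℂ E E) = ContinuousLinearMap.id ℂ E :=
      (HasFDerivAt.comp (0 : E) (f := fun u : E => ((0 : E), u)) hD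
          (ContinuousLinearMap.inr ℂ E E).hasFDerivAt).unique
        ((hasFDerivAt_id (0 : E)).congr_of_eventuallyEq (hr'.mono fun u hu => hu))
    refine ContinuousLinearMap.ext fun p => ?_
    have e1 := congrArg (fun T : E →L[ℂ] E => T p.1) h1
    have e2 := congrArg (fun T : E →L[ℂ] E => T p.2) h2
    simp only [ContinuousLinearMap.comp_apply, ContinuousLinearMap.inl_apply,
      ContinuousLinearMap.inr_apply, ContinuousLinearMap.id_apply] at e1 e2
    conv_lhs => rw [show p = (p.1, (0 : E)) + ((0 : E), p.2) by simp, map_add, e1, e2]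
    simp [S]
  -- doubling and halving
  set d : E → E := fun u => Φ (u, u) with hdd
  have hd2 : ContDiffAt ℂ 2 d 0 :=
    ContDiffAt.comp (0 : E) (f := fun u : E => (u, u)) hΦ (contDiffAt_id.prodMk contDiffAt_id)
  let two : E ≃L[ℂ] E :=
    (LinearEquiv.smulOfNeZero ℂ E (2 : ℂ) two_ne_zero).toContinuousLinearEquiv
  have hdd' : HasFDerivAt d (two : E →L[ℂ] E) 0 := by
    have h := HasFDerivAt.comp (0 : E) (f := fun u : E => (u, u)) hΦd
      ((hasFDerivAt_id (0 : E)).prodMk (hasFDerivAt_id (0 : E)))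
    have heq : (two : E →L[ℂ] E) =
        S.comp ((ContinuousLinearMap.id ℂ E).prod (ContinuousLinearMap.id ℂ E)) :=
      ContinuousLinearMap.ext fun u => by simp [two, S, two_smul]
    rw [heq]
    exact h
  set h := hd2.localInverse hdd' (by norm_num) with hh
  have hd0 : d 0 = 0 := hΦ0
  have hh0 : h 0 = 0 := by
    have := hd2.localInverse_apply_image hdd' (by norm_num)
    rwa [hd0] at this
  have hh2 : ContDiffAt ℂ 2 h 0 := hd0 ▸ hd2.to_localInverse hdd' (by norm_num)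
  have hsd := hd2.hasStrictFDerivAt' hdd' (by norm_num)
  have hhd : HasFDerivAt h (two.symm : E →L[ℂ] E) 0 := by
    have := hsd.to_localInverse
    rw [hd0] at this
    exact this.hasFDerivAt
  obtain ⟨C, δ₁, hC, hδ₁, hsecond⟩ := exists_second_order hh2 hhd
  obtain ⟨CΦ, δ₂, hCΦ, hδ₂, hsecondΦ⟩ := exists_second_order hΦ hΦd
  set δ := min δ₁ (1 / (10 * (C + 1))) with hδdef
  have hδ : 0 < δ := lt_min hδ₁ (by positivity)
  have hhalf : ∀ u : E, (two.symm : E →L[ℂ] E) u = (2 : ℂ)⁻¹ • u := fun u => by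
    refine two.injective ?_
    simp [two, smul_smul, Units.smul_def]
  have hstep : ∀ x y, ‖x‖ < δ → ‖y‖ < δ →
      ‖h x - h y - (2 : ℂ)⁻¹ • (x - y)‖ ≤ C * max ‖x‖ ‖y‖ * ‖x - y‖ := fun x y hx hy => by
    rw [← hhalf]
    exact hsecond x y (hx.trans_le (min_le_left _ _)) (hy.trans_le (min_le_left _ _))
  have hcontr : ∀ x y, ‖x‖ < δ → ‖y‖ < δ → ‖h x - h y‖ ≤ 3 / 5 * ‖x - y‖ := by
    intro x y hx hy
    have hCm : C * max ‖x‖ ‖y‖ ≤ 1 / 10 := by
      have h1 : max ‖x‖ ‖y‖ ≤ 1 / (10 * (C + 1)) :=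
        ((max_lt hx hy).trans_le (min_le_right _ _)).le
      calc C * max ‖x‖ ‖y‖ ≤ C * (1 / (10 * (C + 1))) := mul_le_mul_of_nonneg_left h1 hC
        _ ≤ 1 / 10 := by
          rw [mul_one_div, div_le_iff₀ (by positivity)]
          linarith
    have h2 : ‖h x - h y - (2 : ℂ)⁻¹ • (x - y)‖ ≤ 1 / 10 * ‖x - y‖ :=
      (hstep x y hx hy).trans (mul_le_mul_of_nonneg_right hCm (norm_nonneg _))
    have h3 : ‖(2 : ℂ)⁻¹ • (x - y)‖ = 1 / 2 * ‖x - y‖ := by
      rw [norm_smul, norm_inv, Complex.norm_ofNat]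
      ring
    calc ‖h x - h y‖ = ‖(h x - h y - (2 : ℂ)⁻¹ • (x - y)) + (2 : ℂ)⁻¹ • (x - y)‖ := by
          rw [sub_add_cancel]
      _ ≤ _ := norm_add_le _ _
      _ ≤ 3 / 5 * ‖x - y‖ := by rw [h3]; linarith
  have hmap : ∀ x, ‖x‖ < δ → ‖h x‖ ≤ 3 / 5 * ‖x‖ := fun x hx => by
    simpa [hh0] using hcontr x 0 hx (by simpa using hδ)
  have hit : ∀ (n : ℕ) (x : E), ‖x‖ < δ → ‖h^[n] x‖ ≤ (3 / 5) ^ n * ‖x‖ ∧ ‖h^[n] x‖ < δ := by
    intro n x hx
    induction n with
    | zero => simpa using hx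
    | succ n ih =>
      have h1 := hmap _ ih.2
      rw [Function.iterate_succ_apply']
      constructor
      · rw [pow_succ']
        calc ‖h (h^[n] x)‖ ≤ 3 / 5 * ‖h^[n] x‖ := h1
          _ ≤ 3 / 5 * ((3 / 5) ^ n * ‖x‖) := mul_le_mul_of_nonneg_left ih.1 (by norm_num)
          _ = _ := by ring
      · nlinarith [norm_nonneg (h^[n] x), ih.2]
  have hitd : ∀ (n : ℕ) (x y : E), ‖x‖ < δ → ‖y‖ < δ →
      ‖h^[n] x - h^[n] y‖ ≤ (3 / 5) ^ n * ‖x - y‖ := by
    intro n x y hx hy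
    induction n with
    | zero => simp
    | succ n ih =>
      rw [Function.iterate_succ_apply', Function.iterate_succ_apply', pow_succ']
      calc _ ≤ 3 / 5 * ‖h^[n] x - h^[n] y‖ := hcontr _ _ (hit n x hx).2 (hit n y hy).2
        _ ≤ 3 / 5 * ((3 / 5) ^ n * ‖x - y‖) := mul_le_mul_of_nonneg_left ih (by norm_num)
        _ = _ := by ring
  set D : E → E → ℕ → E := fun x y n => (2 : ℂ) ^ n • (h^[n] x - h^[n] y) with hD
  have hDstep : ∀ x y, ‖x‖ < δ → ‖y‖ < δ → ∀ n,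
      dist (D x y n) (D x y (n + 1)) ≤ 2 * C * max ‖x‖ ‖y‖ * ‖x - y‖ * (18 / 25) ^ n := by
    intro x y hx hy n
    set a := h^[n] x with ha
    set b := h^[n] y with hb
    have e1 : D x y (n + 1) - D x y n =
        (2 : ℂ) ^ (n + 1) • (h a - h b - (2 : ℂ)⁻¹ • (a - b)) := by
      simp only [D, Function.iterate_succ_apply', ← ha, ← hb]
      rw [smul_sub ((2 : ℂ) ^ (n + 1)) (h a - h b), smul_smul]
      congr 2
      rw [pow_succ]
      field_simp
    rw [dist_comm, dist_eq_norm, e1, norm_smul, norm_pow, Complex.norm_ofNat]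
    have h1 := hstep a b (hit n x hx).2 (hit n y hy).2
    have h2 : max ‖a‖ ‖b‖ ≤ (3 / 5) ^ n * max ‖x‖ ‖y‖ :=
      max_le ((hit n x hx).1.trans (by gcongr; exact le_max_left _ _))
        ((hit n y hy).1.trans (by gcongr; exact le_max_right _ _))
    have h3 := hitd n x y hx hy
    calc (2 : ℝ) ^ (n + 1) * ‖h a - h b - (2 : ℂ)⁻¹ • (a - b)‖
        ≤ (2 : ℝ) ^ (n + 1) * (C * max ‖a‖ ‖b‖ * ‖a - b‖) := by gcongr
      _ ≤ (2 : ℝ) ^ (n + 1) *
          (C * ((3 / 5) ^ n * max ‖x‖ ‖y‖) * ((3 / 5) ^ n * ‖x - y‖)) := by gcongr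
      _ = 2 * C * max ‖x‖ ‖y‖ * ‖x - y‖ * (2 * (3 / 5) * (3 / 5)) ^ n := by
          rw [mul_pow, mul_pow]; ring
      _ = _ := by norm_num
  have hzero : ∀ n, h^[n] (0 : E) = 0 := fun n => Function.iterate_fixed hh0 n
  set L : E → E := fun x => limUnder atTop (fun n : ℕ => (2 : ℂ) ^ n • h^[n] x) with hL
  have hLt : ∀ x, ‖x‖ < δ → Tendsto (fun n : ℕ => (2 : ℂ) ^ n • h^[n] x) atTop (𝓝 (L x)) := by
    intro x hx
    refine CauchySeq.tendsto_limUnder ?_
    have := cauchySeq_of_le_geometric (18 / 25 : ℝ) _ (by norm_num)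
      (hDstep x 0 hx (by simpa using hδ))
    simpa [D, hzero] using this
  have hLdiff : ∀ x y, ‖x‖ < δ → ‖y‖ < δ →
      ‖L x - L y - (x - y)‖ ≤ 8 * C * max ‖x‖ ‖y‖ * ‖x - y‖ := by
    intro x y hx hy
    have ht : Tendsto (D x y) atTop (𝓝 (L x - L y)) := by
      simp only [D, smul_sub]
      exact (hLt x hx).sub (hLt y hy)
    have := dist_le_of_le_geometric_of_tendsto₀ (18 / 25 : ℝ) _ (by norm_num) (hDstep x y hx hy) ht
    rw [dist_comm, dist_eq_norm] at this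
    simp only [D, pow_zero, one_smul, Function.iterate_zero_apply] at this
    refine this.trans ?_
    have : 0 ≤ C * max ‖x‖ ‖y‖ * ‖x - y‖ := by positivity
    rw [div_le_iff₀ (by norm_num)]
    nlinarith
  have hL0 : L 0 = 0 := by
    refine tendsto_nhds_unique (hLt 0 (by simpa using hδ)) ?_
    simp only [hzero, smul_zero]
    exact tendsto_const_nhds
  have hLs : HasStrictFDerivAt L
      ((ContinuousLinearEquiv.refl ℂ E : E ≃L[ℂ] E) : E →L[ℂ] E) 0 := by
    rw [hasStrictFDerivAt_iff_isLittleO, Asymptotics.isLittleO_iff]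
    intro ε hε
    have hball : ∀ᶠ p in 𝓝 ((0 : E), (0 : E)),
        max ‖p.1‖ ‖p.2‖ < min δ (ε / (8 * C + 1)) :=
      (Continuous.tendsto' (by fun_prop) _ 0 (by simp)).eventually_lt_const
        (lt_min hδ (by positivity))
    filter_upwards [hball] with p hp
    obtain ⟨hp1, hp2⟩ := lt_min_iff.mp hp
    refine (hLdiff p.1 p.2 ((le_max_left _ _).trans_lt hp1)
      ((le_max_right _ _).trans_lt hp1)).trans (mul_le_mul_of_nonneg_right ?_ (norm_nonneg _))
    rw [lt_div_iff₀ (by positivity)] at hp2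
    nlinarith [le_max_left ‖p.1‖ ‖p.2‖, norm_nonneg p.1]
  -- compatibility of halving with the law
  have hleft : ∀ᶠ u in 𝓝 0, h (d u) = u := hsd.eventually_left_inverse
  have hright : ∀ᶠ u in 𝓝 0, d (h u) = u := by
    have := hsd.eventually_right_inverse
    rwa [hd0] at this
  have hdouble : ∀ᶠ p in 𝓝 (0 : E × E), d (Φ p) = Φ (d p.1, d p.2) := by
    have c1 : Tendsto (fun p : E × E => (Φ p, Φ p)) (𝓝 0) (𝓝 0) := by
      have := hΦ.continuousAt.tendsto.prodMk_nhds hΦ.continuousAt.tendsto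
      rwa [hΦ0] at this
    have cd : Tendsto d (𝓝 0) (𝓝 0) := by
      have := hd2.continuousAt.tendsto
      rwa [hd0] at this
    have cfst : Tendsto (fun p : E × E => p.1) (𝓝 0) (𝓝 0) := continuous_fst.tendsto' _ _ rfl
    have csnd : Tendsto (fun p : E × E => p.2) (𝓝 0) (𝓝 0) := continuous_snd.tendsto' _ _ rfl
    have c2 : Tendsto (fun p : E × E => (d p.1, d p.2)) (𝓝 0) (𝓝 0) :=
      (cd.comp cfst).prodMk_nhds (cd.comp csnd)
    have c3 : Tendsto (fun p : E × E => (p.1, p.1)) (𝓝 0) (𝓝 0) := cfst.prodMk_nhds cfst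
    have c4 : Tendsto (fun p : E × E => (p.2, p.2)) (𝓝 0) (𝓝 0) := csnd.prodMk_nhds csnd
    have c5 : Tendsto (fun p : E × E => (d (Φ p), Φ (d p.1, d p.2))) (𝓝 0) (𝓝 0) := by
      have hc : Tendsto Φ (𝓝 0) (𝓝 0) := by
        have := hΦ.continuousAt.tendsto
        rwa [hΦ0] at this
      exact (cd.comp hc).prodMk_nhds (hc.comp c2)
    filter_upwards [hadd, c1.eventually hadd, c2.eventually hadd, c3.eventually hadd,
      c4.eventually hadd, c5.eventually hinj] with p e0 e1 e2 e3 e4 e5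
    refine e5 ?_
    show α (Φ (Φ p, Φ p)) = α (Φ (d p.1, d p.2))
    rw [e1, e2]
    show α (Φ p) + α (Φ p) = α (Φ (p.1, p.1)) + α (Φ (p.2, p.2))
    rw [e0, e3, e4]
    abel
  have hhalve : ∀ᶠ p in 𝓝 (0 : E × E), h (Φ p) = Φ (h p.1, h p.2) := by
    have ch : Tendsto h (𝓝 0) (𝓝 0) := by
      have := hh2.continuousAt.tendsto
      rwa [hh0] at this
    have cfst : Tendsto (fun p : E × E => p.1) (𝓝 0) (𝓝 0) := continuous_fst.tendsto' _ _ rfl
    have csnd : Tendsto (fun p : E × E => p.2) (𝓝 0) (𝓝 0) := continuous_snd.tendsto' _ _ rfl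
    have c1 : Tendsto (fun p : E × E => (h p.1, h p.2)) (𝓝 0) (𝓝 0) :=
      (ch.comp cfst).prodMk_nhds (ch.comp csnd)
    have c2 : Tendsto (fun p : E × E => Φ (h p.1, h p.2)) (𝓝 0) (𝓝 0) := by
      have := hΦ.continuousAt.tendsto
      rw [hΦ0] at this
      exact this.comp c1
    filter_upwards [c1.eventually hdouble, c2.eventually hleft, cfst.eventually hright,
      csnd.eventually hright] with p e1 e2 e3 e4
    rw [e3, e4] at e1
    rw [← e1, e2]
  obtain ⟨δ₃, hδ₃, hhalve'⟩ := Metric.eventually_nhds_iff_ball.mp hhalve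
  set δ₄ := min (min δ δ₂) δ₃ with hδ₄def
  have hδ₄ : 0 < δ₄ := lt_min (lt_min hδ hδ₂) hδ₃
  have hiter : ∀ (n : ℕ) (x y : E), ‖x‖ < δ₄ → ‖y‖ < δ₄ →
      h^[n] (Φ (x, y)) = Φ (h^[n] x, h^[n] y) := by
    intro n x y hx hy
    induction n with
    | zero => rfl
    | succ n ih =>
      have hb : ∀ z : E, ‖z‖ < δ₄ → ‖h^[n] z‖ < δ₄ := fun z hz =>
        lt_of_le_of_lt (((hit n z (hz.trans_le ((min_le_left _ _).trans (min_le_left _ _)))).1).trans
          (mul_le_of_le_one_left (norm_nonneg _) (pow_le_one₀ (by norm_num) (by norm_num)))) hz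
      rw [Function.iterate_succ_apply', Function.iterate_succ_apply', Function.iterate_succ_apply',
        ih]
      refine hhalve' (h^[n] x, h^[n] y) ?_
      rw [mem_ball_zero_iff]
      exact max_lt ((hb x hx).trans_le (min_le_right _ _)) ((hb y hy).trans_le (min_le_right _ _))
  have hLadd : ∀ᶠ p in 𝓝 (0 : E × E), L (Φ p) = L p.1 + L p.2 := by
    have hsmall : ∀ᶠ p in 𝓝 (0 : E × E), ‖p.1‖ < δ₄ ∧ ‖p.2‖ < δ₄ ∧ ‖Φ p‖ < δ := by
      refine ((continuous_fst.norm).tendsto' _ 0 (by simp)).eventually_lt_const hδ₄ |>.and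
        (((continuous_snd.norm).tendsto' _ 0 (by simp)).eventually_lt_const hδ₄ |>.and ?_)
      have := hΦ.continuousAt.norm.tendsto
      rw [hΦ0, norm_zero] at this
      exact this.eventually_lt_const hδ
    filter_upwards [hsmall] with ⟨x, y⟩ ⟨hx, hy, hxy⟩
    have hxδ : ‖x‖ < δ := hx.trans_le ((min_le_left _ _).trans (min_le_left _ _))
    have hyδ : ‖y‖ < δ := hy.trans_le ((min_le_left _ _).trans (min_le_left _ _))
    have hlim : Tendsto (fun n : ℕ => (2 : ℂ) ^ n • h^[n] (Φ (x, y)) -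
        ((2 : ℂ) ^ n • h^[n] x + (2 : ℂ) ^ n • h^[n] y)) atTop (𝓝 0) := by
      have hgeo : Tendsto (fun n : ℕ => CΦ * max ‖x‖ ‖y‖ * max ‖x‖ ‖y‖ * (18 / 25 : ℝ) ^ n)
          atTop (𝓝 0) := by
        simpa using (tendsto_pow_atTop_nhds_zero_of_lt_one (by norm_num : (0 : ℝ) ≤ 18 / 25)
          (by norm_num)).const_mul (CΦ * max ‖x‖ ‖y‖ * max ‖x‖ ‖y‖)
      refine squeeze_zero_norm (fun n => ?_) hgeo
      rw [hiter n x y hx hy, ← smul_add, ← smul_sub, norm_smul, norm_pow, Complex.norm_ofNat]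
      have hnp : ‖(h^[n] x, h^[n] y)‖ ≤ (3 / 5) ^ n * max ‖x‖ ‖y‖ :=
        max_le ((hit n x hxδ).1.trans (by gcongr; exact le_max_left _ _))
          ((hit n y hyδ).1.trans (by gcongr; exact le_max_right _ _))
      have hnp2 : ‖(h^[n] x, h^[n] y)‖ < δ₂ :=
        lt_of_le_of_lt (hnp.trans (mul_le_of_le_one_left (le_max_of_le_left (norm_nonneg _))
          (pow_le_one₀ (by norm_num) (by norm_num))))
          (max_lt (hx.trans_le ((min_le_left _ _).trans (min_le_right _ _)))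
            (hy.trans_le ((min_le_left _ _).trans (min_le_right _ _))))
      have := hsecondΦ (h^[n] x, h^[n] y) 0 hnp2 (by simpa using hδ₂)
      simp only [hΦ0, sub_zero, norm_zero, max_eq_left (norm_nonneg _), hS,
        ContinuousLinearMap.add_apply, ContinuousLinearMap.coe_fst',
        ContinuousLinearMap.coe_snd'] at this
      calc (2 : ℝ) ^ n * ‖Φ (h^[n] x, h^[n] y) - (h^[n] x + h^[n] y)‖
          ≤ (2 : ℝ) ^ n * (CΦ * ‖(h^[n] x, h^[n] y)‖ * ‖(h^[n] x, h^[n] y)‖) := by gcongr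
        _ ≤ (2 : ℝ) ^ n *
            (CΦ * ((3 / 5) ^ n * max ‖x‖ ‖y‖) * ((3 / 5) ^ n * max ‖x‖ ‖y‖)) := by gcongr
        _ = CΦ * max ‖x‖ ‖y‖ * max ‖x‖ ‖y‖ * (2 * (3 / 5) * (3 / 5)) ^ n := by
            rw [mul_pow, mul_pow]; ring
        _ = _ := by norm_num
    exact sub_eq_zero.mp (tendsto_nhds_unique ((hLt _ hxy).sub ((hLt x hxδ).add (hLt y hyδ))) hlim)
  -- transport to the linear coordinate
  set Li := hLs.localInverse L _ 0 with hLi
  have hLi0 : Li 0 = 0 := by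
    have := hLs.localInverse_apply_image
    rwa [hL0] at this
  have hLr : ∀ᶠ z in 𝓝 (0 : E), L (Li z) = z := by
    have := hLs.eventually_right_inverse
    rwa [hL0] at this
  have hLl : ∀ᶠ u in 𝓝 (0 : E), Li (L u) = u := hLs.eventually_left_inverse
  have cLi : Tendsto Li (𝓝 0) (𝓝 0) := by
    have := hLs.to_localInverse.continuousAt.tendsto
    rw [hL0] at this
    change Tendsto Li (𝓝 0) (𝓝 (Li 0)) at this
    rwa [hLi0] at this
  have cLi2 : Tendsto (fun p : E × E => (Li p.1, Li p.2)) (𝓝 0) (𝓝 0) :=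
    (cLi.comp (continuous_fst.tendsto' _ _ rfl)).prodMk_nhds
      (cLi.comp (continuous_snd.tendsto' _ _ rfl))
  have hβ : ∀ᶠ p in 𝓝 (0 : E × E),
      α (Li (p.1 + p.2)) = α (Li p.1) + α (Li p.2) := by
    have c : Tendsto (fun p : E × E => Φ (Li p.1, Li p.2)) (𝓝 0) (𝓝 0) := by
      have := hΦ.continuousAt.tendsto
      rw [hΦ0] at this
      exact this.comp cLi2
    filter_upwards [cLi2.eventually hLadd, cLi2.eventually hadd, c.eventually hLl,
      (continuous_fst.tendsto' (0 : E × E) _ rfl).eventually hLr,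
      (continuous_snd.tendsto' (0 : E × E) _ rfl).eventually hLr] with p e1 e2 e3 e4 e5
    rw [e4, e5] at e1
    rw [e1] at e3
    rw [e3, e2]
  obtain ⟨r, hr, hβr⟩ := Metric.eventually_nhds_iff_ball.mp hβ
  obtain ⟨e, he⟩ := exists_hom_of_local (β := fun z => α (Li z)) hr (by rw [hLi0, hα0])
    (fun a b ha hb => hβr (a, b) (by rw [mem_ball_zero_iff]; exact max_lt ha hb))
  have hsmallr : ∀ᶠ z in 𝓝 (0 : E), ‖z‖ < r :=
    (continuous_norm.tendsto' _ 0 norm_zero).eventually_lt_const hr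
  have cL : Tendsto L (𝓝 0) (𝓝 0) := by
    have := hLs.continuousAt.tendsto
    rwa [hL0] at this
  refine ⟨e, L, hL0, hLs.continuousAt, ?_, ?_, ?_⟩
  · have := hLs.map_nhds_eq_of_equiv
    rwa [hL0] at this
  · filter_upwards [cL.eventually hsmallr, hLl] with u e1 e2
    rw [he _ e1, e2]
  · have c : Tendsto (fun z => (Li z, (0 : E))) (𝓝 0) (𝓝 0) :=
      cLi.prodMk_nhds tendsto_const_nhds
    filter_upwards [hsmallr, hLr, c.eventually hinj] with z e1 e2 e3 hez
    rw [he _ e1] at hez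
    rw [← e2, e3 (hez.trans hα0.symm), hL0]

end FLTA.PicTorsion
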