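import Mathlib.Algebra.Module.ZLattice.Basic
import Mathlib.Analysis.Normed.Module.FiniteDimension
import Mathlib.Analysis.Complex.Basic
import Mathlib.LinearAlgebra.Complex.FiniteDimensional
import Mathlib.Data.ZMod.Basic
import Mathlib.GroupTheory.QuotientGroup.Basic
import Mathlib.Algebra.Module.Torsion.Basic

/-!
# Torsion in a group uniformised by a complex vector space with compact fundamental domain
-/

set_option autoImplicit false
set_option linter.unusedSectionVars false

noncomputable section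

open Filter Topology

namespace FLTA.PicTorsion

variable {E : Type*} [NormedAddCommGroup E] [NormedSpace ℂ E] [FiniteDimensional ℂ E]
  {G : Type*} [AddCommGroup G]

theorem natCard_torsion_of_uniformisation (e : E →+ G) (he : ∀ᶠ z in 𝓝 0, e z = 0 → z = 0)
    {K : Set E} (hK : IsCompact K) (hcover : ∀ x : G, ∃ z ∈ K, e z = x) {n : ℕ} (hn : n ≠ 0) :
    Nat.card {x : G // (n : ℤ) • x = 0} = n ^ (2 * Module.finrank ℂ E) := by
  haveI : FiniteDimensional ℝ E := FiniteDimensional.trans ℝ ℂ E
  let Λ : Submodule ℤ E := e.ker.toIntSubmodule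
  have hmem : ∀ z : E, z ∈ Λ ↔ e z = 0 := fun z => Iff.rfl
  haveI : DiscreteTopology Λ := by
    apply discreteTopology_of_isOpen_singleton_zero
    obtain ⟨U, hUsub, hUo, h0U⟩ := eventually_nhds_iff.mp he
    refine ⟨U, hUo, Set.ext fun z => ⟨fun hz => ?_, fun hz => ?_⟩⟩
    · exact Subtype.ext (hUsub (z : E) hz z.2)
    · simp only [Set.mem_singleton_iff] at hz
      subst hz
      exact h0U
  haveI : IsZLattice ℝ Λ := by
    constructor
    by_contra hne
    obtain ⟨f, hf0, hf⟩ := Submodule.exists_le_ker_of_lt_top _ (lt_top_iff_ne_top.mpr hne)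
    obtain ⟨C, hC⟩ :=
      (hK.image f.continuous_of_finiteDimensional).isBounded.exists_norm_le
    obtain ⟨z, hz⟩ : ∃ z, C < ‖f z‖ := by
      obtain ⟨z, hz⟩ := DFunLike.ne_iff.mp hf0
      simp only [LinearMap.zero_apply] at hz
      refine ⟨((|C| + 1) / f z) • z, ?_⟩
      rw [map_smul, smul_eq_mul, div_mul_cancel₀ _ hz, Real.norm_eq_abs,
        abs_of_pos (by positivity)]
      linarith [le_abs_self C]
    obtain ⟨k, hk, hek⟩ := hcover (e z)
    have hker : f (z - k) = 0 :=
      hf (Submodule.subset_span ((hmem _).mpr (by rw [map_sub, hek, sub_self])))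
    rw [map_sub, sub_eq_zero] at hker
    exact absurd (hC _ ⟨k, hk, rfl⟩) (not_le.mpr (hker ▸ hz))
  haveI := ZLattice.module_finite ℝ Λ
  haveI := ZLattice.module_free ℝ Λ
  let b := Module.finBasis ℤ Λ
  have hrank : Module.finrank ℤ Λ = 2 * Module.finrank ℂ E := by
    rw [ZLattice.rank ℝ Λ, finrank_real_of_complex]
  have hnC : (n : ℂ) ≠ 0 := Nat.cast_ne_zero.mpr hn
  let χ : (Fin (Module.finrank ℤ Λ) → ℤ) →+ Submodule.torsionBy ℤ G (n : ℤ) :=
    { toFun := fun k => ⟨e ((n : ℂ)⁻¹ • ((b.equivFun.symm k : Λ) : E)), by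
        rw [Submodule.mem_torsionBy_iff, ← map_zsmul, ← Int.cast_smul_eq_zsmul ℂ, smul_smul,
          Int.cast_natCast, mul_inv_cancel₀ hnC, one_smul]
        exact (b.equivFun.symm k).2⟩
      map_zero' := Subtype.ext (by simp)
      map_add' := fun x y => Subtype.ext (by
        simp [map_add, smul_add]) }
  let π : (Fin (Module.finrank ℤ Λ) → ℤ) →+ (Fin (Module.finrank ℤ Λ) → ZMod n) :=
    (Int.castAddHom (ZMod n)).compLeft _
  have hχ : Function.Surjective χ := by
    intro x
    obtain ⟨z, -, hz⟩ := hcover (x : G)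
    have hnz : (n : ℂ) • z ∈ Λ := by
      rw [hmem, show ((n : ℂ)) = (((n : ℤ)) : ℂ) by simp, Int.cast_smul_eq_zsmul, map_zsmul, hz]
      exact (Submodule.mem_torsionBy_iff _ _).mp x.2
    refine ⟨b.equivFun ⟨_, hnz⟩, Subtype.ext ?_⟩
    show e _ = _
    rw [LinearEquiv.symm_apply_apply, smul_smul, inv_mul_cancel₀ hnC, one_smul, hz]
  have hπ : Function.Surjective π := fun y =>
    ⟨fun i => (y i).cast, funext fun i => ZMod.intCast_zmod_cast (y i)⟩
  have hker : χ.ker = π.ker := by
    ext k
    constructor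
    · intro hk
      have hk' : (n : ℂ)⁻¹ • ((b.equivFun.symm k : Λ) : E) ∈ Λ :=
        (hmem _).mpr (congrArg Subtype.val (show χ k = 0 from hk))
      have h2 : b.equivFun.symm k = (n : ℤ) • (⟨_, hk'⟩ : Λ) := Subtype.ext (by
        rw [Submodule.coe_smul, ← Int.cast_smul_eq_zsmul ℂ, Int.cast_natCast, smul_smul,
          mul_inv_cancel₀ hnC, one_smul])
      have h3 : k = (n : ℤ) • b.equivFun (⟨_, hk'⟩ : Λ) := by
        rw [← map_smul, ← h2, LinearEquiv.apply_symm_apply]
      show π k = 0
      rw [h3]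
      funext i
      simp [π]
    · intro hk
      have hdvd : ∀ i, (n : ℤ) ∣ k i := fun i =>
        (ZMod.intCast_zmod_eq_zero_iff_dvd _ _).mp (congrFun (show π k = 0 from hk) i)
      choose m hm using hdvd
      have hkm : k = (n : ℤ) • m := funext fun i => by simp [hm i]
      refine Subtype.ext ?_
      show e _ = 0
      rw [hkm, LinearEquiv.map_smul b.equivFun.symm, Submodule.coe_smul,
        ← Int.cast_smul_eq_zsmul ℂ, Int.cast_natCast, smul_smul, inv_mul_cancel₀ hnC, one_smul]
      exact (b.equivFun.symm m).2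
  calc Nat.card {x : G // (n : ℤ) • x = 0}
      = Nat.card (Submodule.torsionBy ℤ G (n : ℤ)) :=
        Nat.card_congr (Equiv.subtypeEquivRight fun x => (Submodule.mem_torsionBy_iff _ _).symm)
    _ = Nat.card (Fin (Module.finrank ℤ Λ) → ZMod n) := by
        refine Nat.card_congr (Equiv.trans
          (QuotientAddGroup.quotientKerEquivOfSurjective χ hχ).toEquiv.symm
          (Equiv.trans (QuotientAddGroup.quotientAddEquivOfEq hker).toEquiv
            (QuotientAddGroup.quotientKerEquivOfSurjective π hπ).toEquiv))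
    _ = n ^ (2 * Module.finrank ℂ E) := by
        rw [Nat.card_fun, Nat.card_zmod, Nat.card_fin, hrank]

end FLTA.PicTorsion
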