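import Fermat.Agent.PicTorsion.Analytic.Uniformisation
import Fermat.Agent.PicTorsion.Analytic.Torus
import Fermat.Agent.PicTorsion.Descent.Model
import Fermat.Agent.Curves.BasicFG
import Fermat.Agent.Curves.RRInstances

/-!
# Torsion of `Pic⁰` of a function field over `ℂ`

`natCard_torsion_complex`. The set of places carries the compact topology of `OnePoint ℂ`-valued
evaluation maps and analytic charts from uniformisers; a local group law on `ℂ^g` near a
non-special tuple is linearised, so `Pic⁰ ≅ ℂ^g / Λ` with `Λ` a full lattice.
-/

set_option autoImplicit false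

open AlgebraicCurve

namespace FLTA.PicTorsion

/-- Over `ℂ`, the `n`-torsion of `Pic⁰` has `n ^ (2 g)` elements. -/
theorem natCard_torsion_complex (F : Type) [Field F] [Algebra ℂ F] [IsCurveOver ℂ F]
    [Algebra.EssFiniteType ℂ F] (n : ℕ) (hn : n ≠ 0) :
    Nat.card (Pic0.torsion ℂ F n) = n ^ (2 * genusFF ℂ F) := by
  obtain ⟨x, hx, hfin⟩ := exists_transcendental_finite ℂ F
  have : Curves.IsSepFunctionField ℂ F := Curves.isSepFunctionField_of_charZero hx hfin
  obtain ⟨e, K, he, hK, hcover⟩ := exists_uniformisation (F := F)
  have h := natCard_torsion_of_uniformisation e he hK hcover hn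
  rw [Module.finrank_fin_fun] at h
  exact (Nat.card_congr (Equiv.subtypeEquivRight fun x => Pic0.mem_torsion)).trans h

end FLTA.PicTorsion
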