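import Fermat.Agent.Curves.RRSpace
import Fermat.Agent.PicTorsion.Analytic.Eval
import Mathlib.Algebra.Polynomial.Identities
import Mathlib.RingTheory.AlgebraicIndependent.AlgebraicClosure
import Mathlib.RingTheory.AlgebraicIndependent.TranscendenceBasis
import Mathlib.RingTheory.AlgebraicIndependent.Transcendental

/-!
# Newton reduction of an element at a uniformiser

For a uniformiser `t` at `P` and `y` regular at `P` we write `y = Y(t) + t^N z` with `z` a simple
root of a polynomial `q(t, ·)` at `P`.
-/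

set_option autoImplicit false
set_option linter.unusedSectionVars false

noncomputable section

open AlgebraicCurve Polynomial

namespace FLTA.PicTorsion

variable {F : Type} [Field F] [Algebra ℂ F]

/-- Evaluation of a bivariate polynomial at a pair of elements of an algebra over `ℂ`. -/
abbrev eval₂At {A : Type} [CommRing A] [Algebra ℂ A] (q : Polynomial (Polynomial ℂ)) (a b : A) :
    A :=
  q.eval₂ (Polynomial.aeval a).toRingHom b

variable [IsCurveOver ℂ F]

theorem transcendental_of_ord_ne_zero_complex {P : Place ℂ F} {t : F} (ht : P.ord t ≠ 0) :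
    Transcendental ℂ t := by
  intro h
  have hint : IsIntegral ℂ t := h.isIntegral
  have hmem : t ∈ (algebraMap ℂ F).range :=
    minpoly.mem_range_of_degree_eq_one ℂ t
      (IsAlgClosed.degree_eq_one_of_irreducible ℂ (minpoly.irreducible hint))
  obtain ⟨c, rfl⟩ := hmem
  exact ht (Curves.ord_algebraMap P c)

theorem isAlgebraic_adjoin_of_transcendental [Curves.IsFunctionField ℂ F] {t : F}
    (ht : Transcendental ℂ t) (y : F) :
    IsAlgebraic (Algebra.adjoin ℂ ({t} : Set F)) y := by
  obtain ⟨x, -, hfin⟩ := Curves.IsFunctionField.exists_finite (K := ℂ) (F := F)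
  haveI : Algebra.IsAlgebraic (IntermediateField.adjoin ℂ ({x} : Set F)) F :=
    Algebra.IsAlgebraic.of_finite _ _
  haveI : Algebra.IsAlgebraic (Algebra.adjoin ℂ ({x} : Set F)) F :=
    IntermediateField.isAlgebraic_adjoin_iff_top.mp inferInstance
  have htr : Algebra.trdeg ℂ F ≤ 1 :=
    (Algebra.IsAlgebraic.trdeg_le_cardinalMk ℂ ({x} : Set F)).trans (by simp)
  by_contra hy
  have h1 : AlgebraicIndependent ℂ (fun _ : Unit => t) :=
    algebraicIndependent_unique_type_iff.mpr ht
  have h2 : AlgebraicIndependent ℂ (fun o : Option Unit => o.elim y (fun _ => t)) := by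
    rw [AlgebraicIndependent.option_iff_transcendental h1]
    have : Set.range (fun _ : Unit => t) = {t} := by ext; simp [eq_comm]
    rw [this]
    exact hy
  have := h2.cardinalMk_le_trdeg.trans htr
  norm_num at this

/-- A bivariate polynomial relation with non-vanishing derivative. -/
theorem exists_separable_relation [Curves.IsFunctionField ℂ F] {t : F}
    (ht : Transcendental ℂ t) (y : F) :
    ∃ p : Polynomial (Polynomial ℂ), eval₂At p t y = 0 ∧ eval₂At (derivative p) t y ≠ 0 := by
  classical
  have hinj : Function.Injective (Polynomial.aeval t : Polynomial ℂ →ₐ[ℂ] F) :=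
    transcendental_iff_injective.mp ht
  have hex : ∃ d, ∃ p : Polynomial (Polynomial ℂ), p ≠ 0 ∧ p.natDegree = d ∧
      eval₂At p t y = 0 := by
    obtain ⟨p, hp0, hp⟩ := isAlgebraic_adjoin_of_transcendental ht y
    let e : Polynomial ℂ →+* Algebra.adjoin ℂ ({t} : Set F) :=
      (Polynomial.aeval (⟨t, Algebra.self_mem_adjoin_singleton ℂ t⟩ :
        Algebra.adjoin ℂ ({t} : Set F))).toRingHom
    have hsurj : Function.Surjective e := by
      rintro ⟨a, ha⟩
      rw [Algebra.adjoin_singleton_eq_range_aeval] at ha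
      obtain ⟨r, rfl⟩ := ha
      exact ⟨r, Subtype.ext (by simp [e])⟩
    obtain ⟨p', rfl⟩ := Polynomial.map_surjective e hsurj p
    refine ⟨_, p', fun h => hp0 (by rw [h, Polynomial.map_zero]), rfl, ?_⟩
    rw [Polynomial.aeval_def, Polynomial.eval₂_map] at hp
    convert! hp using 2
    refine Polynomial.ringHom_ext (fun c => ?_) ?_ <;> simp [e] <;> rfl
  obtain ⟨p, hp0, hdeg, hp⟩ := Nat.find_spec hex
  refine ⟨p, hp, fun hd => ?_⟩
  rcases eq_or_ne p.natDegree 0 with h0 | h0
  · obtain ⟨c, rfl⟩ := Polynomial.natDegree_eq_zero.mp h0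
    have : Polynomial.aeval t c = 0 := by simpa [eval₂At] using hp
    exact hp0 (by rw [hinj (this.trans (map_zero _).symm), map_zero])
  · have hne : derivative p ≠ 0 := by
      intro h
      exact h0 (Polynomial.derivative_eq_zero.mp h)
    refine Nat.find_min hex ?_ ⟨derivative p, hne, rfl, hd⟩
    rw [← hdeg]
    exact natDegree_derivative_lt h0

variable {P : Place ℂ F} {t : F}

theorem ne_zero_of_ord_eq_one (ht : P.ord t = 1) : t ≠ 0 := by
  rintro rfl
  simp at ht

theorem mem_of_ord_eq_one (ht : P.ord t = 1) : t ∈ P.toValuationSubring :=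
  mem_of_ord_nonneg P (by omega)

theorem evalAt_eq_zero_of_ord_eq_one (ht : P.ord t = 1) : evalAt P t = 0 :=
  (evalAt_eq_zero_iff (mem_of_ord_eq_one ht)).mpr (Or.inr (by omega))

/-- The value at `P` of a polynomial in a function. -/
theorem evalAt_aeval_polynomial (hf : t ∈ P.toValuationSubring) (G : Polynomial ℂ) :
    Polynomial.aeval t G ∈ P.toValuationSubring ∧
      evalAt P (Polynomial.aeval t G) = G.eval (evalAt P t) := by
  induction G using Polynomial.induction_on with
  | C c => simp [algebraMap_mem]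
  | add p q hp hq =>
    refine ⟨by rw [map_add]; exact add_mem hp.1 hq.1, ?_⟩
    rw [map_add, evalAt_add hp.1 hq.1, hp.2, hq.2, Polynomial.eval_add]
  | monomial n a _ =>
    have h : Polynomial.aeval t (C a * X ^ (n + 1)) = algebraMap ℂ F a * t ^ (n + 1) := by simp
    refine ⟨by rw [h]; exact mul_mem (algebraMap_mem P a) (pow_mem hf _), ?_⟩
    rw [h, evalAt_mul (algebraMap_mem P a) (pow_mem hf _), evalAt_algebraMap, evalAt_pow hf]
    simp

theorem dvd_of_pow_dvd_aeval (ht : P.ord t = 1) {G : Polynomial ℂ} {k : ℕ}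
    {u : F} (hu : u ∈ P.toValuationSubring) (h : Polynomial.aeval t G = t ^ k * u) :
    X ^ k ∣ G := by
  induction k generalizing G u with
  | zero => simp
  | succ k ih =>
    have h0 : G.eval 0 = 0 := by
      have h1 := (evalAt_aeval_polynomial (mem_of_ord_eq_one ht) G).2
      rw [h, evalAt_mul (pow_mem (mem_of_ord_eq_one ht) _) hu,
        evalAt_pow (mem_of_ord_eq_one ht), evalAt_eq_zero_of_ord_eq_one ht] at h1
      simpa using h1.symm
    obtain ⟨G', rfl⟩ : X ∣ G := by
      rw [Polynomial.X_dvd_iff, Polynomial.coeff_zero_eq_eval_zero, h0]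
    have h' : Polynomial.aeval t G' = t ^ k * u := by
      have := ne_zero_of_ord_eq_one ht
      rw [map_mul, Polynomial.aeval_X, pow_succ'] at h
      rw [mul_assoc] at h
      exact mul_left_cancel₀ this h
    rw [pow_succ']
    exact mul_dvd_mul_left X (ih hu h')

/-- Truncated expansion at a uniformiser. -/
theorem exists_truncation (ht : P.ord t = 1) {y : F} (hy : y ∈ P.toValuationSubring) (N : ℕ) :
    ∃ (Y : Polynomial ℂ) (z : F), z ∈ P.toValuationSubring ∧ evalAt P z = 0 ∧
      y = Polynomial.aeval t Y + t ^ N * z := by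
  induction N with
  | zero =>
    refine ⟨C (evalAt P y), y - algebraMap ℂ F (evalAt P y), sub_mem hy (algebraMap_mem P _), ?_,
      by simp⟩
    rw [evalAt_sub hy (algebraMap_mem P _), evalAt_algebraMap, sub_self]
  | succ N ih =>
    obtain ⟨Y, z, hz, hz0, hy'⟩ := ih
    have ht0 := ne_zero_of_ord_eq_one ht
    have hw : z / t ∈ P.toValuationSubring := by
      rcases eq_or_ne z 0 with rfl | hne
      · simp
      apply mem_of_ord_nonneg
      have := ((evalAt_eq_zero_iff hz).mp hz0).resolve_left hne
      rw [ord_div P hne ht0]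
      omega
    refine ⟨Y + C (evalAt P (z / t)) * X ^ (N + 1), z / t - algebraMap ℂ F (evalAt P (z / t)),
      sub_mem hw (algebraMap_mem P _), ?_, ?_⟩
    · rw [evalAt_sub hw (algebraMap_mem P _), evalAt_algebraMap, sub_self]
    · rw [hy']
      simp only [map_add, map_mul, Polynomial.aeval_C, map_pow, Polynomial.aeval_X]
      field_simp
      ring

/-- Newton reduction. -/
theorem exists_simple_root [Curves.IsFunctionField ℂ F] (ht : P.ord t = 1) {y : F}
    (hy : y ∈ P.toValuationSubring) :
    ∃ (z : F) (q : Polynomial (Polynomial ℂ)), z ∈ P.toValuationSubring ∧ evalAt P z = 0 ∧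
      y ∈ IntermediateField.adjoin ℂ ({t, z} : Set F) ∧ eval₂At q t z = 0 ∧
      eval₂At q (0 : ℂ) 0 = 0 ∧ eval₂At (derivative q) (0 : ℂ) 0 ≠ 0 := by
  have ht0 := ne_zero_of_ord_eq_one ht
  have htm := mem_of_ord_eq_one ht
  obtain ⟨p, hp, hp'⟩ := exists_separable_relation
    (transcendental_of_ord_ne_zero_complex (P := P) (t := t) (by omega)) y
  let O := P.toValuationSubring
  let t' : O := ⟨t, htm⟩
  let y' : O := ⟨y, hy⟩
  have hcoe : ∀ (r : Polynomial (Polynomial ℂ)) (a : O),
      ((eval₂At r t' a : O) : F) = eval₂At r t (a : F) := by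
    intro r a
    show O.subtype _ = _
    rw [eval₂At, Polynomial.hom_eval₂]
    congr 1
    exact Polynomial.ringHom_ext (fun c => by simp; rfl) (by simp [t'])
  have hp'O : eval₂At (derivative p) t' y' ≠ 0 := fun h => hp' (by rw [show y = (y' : F) from rfl, ← hcoe, h]; rfl)
  set s : ℕ := (P.ord (eval₂At (derivative p) t y)).toNat with hs
  have hord : P.ord (eval₂At (derivative p) t y) = (s : ℤ) := by
    have : 0 ≤ P.ord (eval₂At (derivative p) t y) := by
      rw [← hcoe _ y']
      exact Curves.ord_nonneg_of_mem P (SetLike.coe_mem _)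
    omega
  set N : ℕ := s + 1 with hN
  obtain ⟨Y, z, hz, hz0, hy'⟩ := exists_truncation ht hy N
  let z' : O := ⟨z, hz⟩
  let φ : Polynomial (Polynomial ℂ) →+* F :=
    Polynomial.eval₂RingHom (Polynomial.aeval t).toRingHom z
  have hφC : ∀ r : Polynomial ℂ, φ (C r) = Polynomial.aeval t r := fun r => by simp [φ]
  have hφX : φ X = z := by simp [φ]
  obtain ⟨k, hk⟩ := binomExpansion (p.map C) (C Y) (C (X ^ N) * X)
  set c₀ : Polynomial ℂ := p.eval Y with hc₀
  set c₁ : Polynomial ℂ := (derivative p).eval Y with hc₁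
  have hk' : (p.map C).eval (C Y + C (X ^ N) * X) =
      C c₀ + C c₁ * (C (X ^ N) * X) + k * (C (X ^ N) * X) ^ 2 := by
    rw [hk, derivative_map, eval_map, eval_map, eval₂_at_apply, eval₂_at_apply]
  have hφp : φ ((p.map C).eval (C Y + C (X ^ N) * X)) = 0 := by
    rw [eval_map, Polynomial.hom_eval₂]
    have h1 : φ.comp C = (Polynomial.aeval t).toRingHom := RingHom.ext hφC
    have h2 : φ (C Y + C (X ^ N) * X) = y := by
      rw [map_add, map_mul, hφC, hφC, hφX, map_pow, Polynomial.aeval_X, ← hy']
    rw [h1, h2]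
    exact hp
  have hφmem : ∀ r, φ r ∈ O := fun r => by
    have := hcoe r z'
    show eval₂At r t z ∈ O
    rw [show z = (z' : F) from rfl, ← this]
    exact SetLike.coe_mem _
  -- the order of `c₁ (t)` is `s`
  have hc₁t : ∃ u ∈ O, eval₂At (derivative p) t y - Polynomial.aeval t c₁ = t ^ N * u := by
    obtain ⟨w, hw⟩ := Polynomial.sub_dvd_eval_sub y' (Polynomial.aeval t' Y)
      ((derivative p).map (Polynomial.aeval t').toRingHom)
    refine ⟨z * (w : F), mul_mem hz w.2, ?_⟩
    have hw' : eval₂At (derivative p) t' y' - eval₂At (derivative p) t' (Polynomial.aeval t' Y) =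
        (y' - Polynomial.aeval t' Y) * w := by
      simpa [eval₂At, eval_map] using hw
    have h3 := congrArg (fun a : O => (a : F)) hw'
    simp only [AddSubgroupClass.coe_sub, MulMemClass.coe_mul] at h3
    rw [hcoe, hcoe] at h3
    have h4 : ((Polynomial.aeval t' Y : O) : F) = Polynomial.aeval t Y := by
      show O.subtype _ = _
      rw [Polynomial.aeval_def, Polynomial.hom_eval₂, Polynomial.aeval_def]
      congr 1
    rw [h4] at h3
    have h5 : eval₂At (derivative p) t (Polynomial.aeval t Y) = Polynomial.aeval t c₁ := by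
      rw [hc₁]
      exact (eval₂_at_apply (Polynomial.aeval t).toRingHom Y)
    rw [h5, show (y' : F) = y from rfl] at h3
    rw [h3, hy']
    ring
  obtain ⟨u, hu, hdiff⟩ := hc₁t
  have hne1 : Polynomial.aeval t c₁ ≠ 0 ∧ P.ord (Polynomial.aeval t c₁) = s := by
    have : Polynomial.aeval t c₁ = eval₂At (derivative p) t y + (-(t ^ N * u)) := by
      rw [← hdiff]; ring
    rw [this, ← hord]
    refine ord_add_of_lt P hp' ?_
    rcases eq_or_ne u 0 with rfl | hu0
    · left; simp
    right
    rw [Curves.ord_neg, P.ord_mul (pow_ne_zero _ ht0) hu0, Curves.ord_pow, ht, hord]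
    have := Curves.ord_nonneg_of_mem P hu
    omega
  obtain ⟨b, hb⟩ : X ^ s ∣ c₁ := by
    refine dvd_of_pow_dvd_aeval ht (u := Polynomial.aeval t c₁ / t ^ s)
      (mem_of_ord_nonneg P ?_) (by field_simp)
    rw [ord_div P hne1.1 (pow_ne_zero _ ht0), Curves.ord_pow, ht, hne1.2]
    omega
  have hb0 : b.eval 0 ≠ 0 := by
    intro h
    obtain ⟨b', hb'⟩ : X ∣ b := by
      rw [Polynomial.X_dvd_iff, Polynomial.coeff_zero_eq_eval_zero, h]
    have h1 := hne1.2
    have h2 := hne1.1
    rw [hb, hb', map_mul, map_mul, map_pow, Polynomial.aeval_X] at h1 h2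
    simp only [ne_eq, mul_eq_zero, not_or] at h2
    rw [P.ord_mul h2.1 (mul_ne_zero h2.2.1 h2.2.2), P.ord_mul h2.2.1 h2.2.2,
      Curves.ord_pow, ht] at h1
    have := Curves.ord_nonneg_of_mem P
      (evalAt_aeval_polynomial htm b').1
    omega
  obtain ⟨a, ha⟩ : X ^ (N + s) ∣ c₀ := by
    refine dvd_of_pow_dvd_aeval ht
      (u := -(Polynomial.aeval t b * z + φ k * t * z ^ 2))
      (neg_mem (add_mem (mul_mem (evalAt_aeval_polynomial htm b).1 hz)
        (mul_mem (mul_mem (hφmem k) htm) (pow_mem hz 2)))) ?_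
    have := hφp
    rw [hk', hb] at this
    simp only [map_add, map_mul, map_pow, hφC, hφX, Polynomial.aeval_X] at this
    rw [hN] at this ⊢
    linear_combination this
  let q : Polynomial (Polynomial ℂ) := C a + C b * X + C X * k * X ^ 2
  have hfac : (p.map C).eval (C Y + C (X ^ N) * X) = C (X ^ (N + s)) * q := by
    rw [hk', ha, hb, hN]
    simp only [q, map_mul, map_pow]
    ring
  have hq : eval₂At q t z = 0 := by
    rw [hfac, map_mul, hφC, map_pow, Polynomial.aeval_X] at hφp
    exact (mul_eq_zero.mp hφp).resolve_left (pow_ne_zero _ ht0)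
  have hev : ∀ r : Polynomial (Polynomial ℂ),
      evalAt P (eval₂At r t z) = eval₂At r (0 : ℂ) 0 := by
    intro r
    have h1 : evalAt P (eval₂At r t z) = resVal P (eval₂At r t' z') := by
      rw [show z = (z' : F) from rfl, ← hcoe, evalAt_of_mem (SetLike.coe_mem _)]
    rw [h1, eval₂At, Polynomial.hom_eval₂]
    have h2 : resVal P z' = 0 := by rw [← evalAt_of_mem hz]; exact hz0
    rw [h2]
    congr 1
    refine Polynomial.ringHom_ext (fun c => ?_) ?_
    · simpa using resVal_algebraMap P c
    · have : resVal P t' = 0 := by rw [← evalAt_of_mem htm]; exact evalAt_eq_zero_of_ord_eq_one ht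
      simpa using this
  refine ⟨z, q, hz, hz0, ?_, hq, ?_, ?_⟩
  · rw [hy']
    have htI : t ∈ IntermediateField.adjoin ℂ ({t, z} : Set F) :=
      IntermediateField.subset_adjoin _ _ (by simp)
    have hzI : z ∈ IntermediateField.adjoin ℂ ({t, z} : Set F) :=
      IntermediateField.subset_adjoin _ _ (by simp)
    refine add_mem ?_ (mul_mem (pow_mem htI _) hzI)
    have := Algebra.adjoin_le (S := (IntermediateField.adjoin ℂ ({t, z} : Set F)).toSubalgebra)
      (Set.singleton_subset_iff.mpr htI)
    exact this (Polynomial.aeval_mem_adjoin_singleton ℂ t (p := Y))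
  · rw [← hev q, hq, evalAt_zero]
  · simp [q, eval₂At, hb0]

end FLTA.PicTorsion
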