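import Fermat.Agent.PicTorsion.Analytic.Branch
import Mathlib.RingTheory.DiscreteValuationRing.TFAE
import Mathlib.RingTheory.Localization.AsSubring
import Mathlib.RingTheory.Localization.AtPrime.Basic
import Mathlib.RingTheory.FiniteType

/-!
# The unique place at a smooth point of a curve given by generators
-/

set_option autoImplicit false
set_option linter.unusedSectionVars false

noncomputable section

open AlgebraicCurve Polynomial IsLocalRing

namespace FLTA.PicTorsion

variable {F : Type} [Field F] [Algebra ℂ F] [IsCurveOver ℂ F] {ι : Type} [Finite ι]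

/-- The functions `t, z i` as one family. -/
abbrev genFam {A : Type} (t : A) (z : ι → A) : Option ι → A := fun o => o.elim t z

theorem exists_quotient_of_adjoin_eq_top {σ : Type} (g : σ → F)
    (hgen : IntermediateField.adjoin ℂ (Set.range g) = ⊤) (f : F) :
    ∃ a b : MvPolynomial σ ℂ, MvPolynomial.aeval g b ≠ 0 ∧
      f = MvPolynomial.aeval g a / MvPolynomial.aeval g b := by
  obtain ⟨a, b, hab⟩ := (IntermediateField.mem_adjoin_range_iff ℂ g f).mp
    (hgen ▸ IntermediateField.mem_top)
  by_cases hb : MvPolynomial.aeval g b = 0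
  · exact ⟨0, 1, by simp, by rw [hab, hb]; simp⟩
  · exact ⟨a, b, hb, hab⟩

/-- Two places with the same values of the generators, where one has all functions of the form
`a / b` with `b` non-vanishing, are equal. -/
theorem eq_of_values_eq {σ : Type} (g : σ → F) {v w : Place ℂ F}
    (hw : ∀ f ∈ w.toValuationSubring, ∃ a b : MvPolynomial σ ℂ,
      MvPolynomial.eval (fun i => evalAt v (g i)) b ≠ 0 ∧
        f = MvPolynomial.aeval g a / MvPolynomial.aeval g b)
    (hv : ∀ i, g i ∈ v.toValuationSubring) : w = v := by
  refine Curves.place_eq_of_le fun f hf => ?_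
  obtain ⟨a, b, hb, rfl⟩ := hw f hf
  obtain ⟨ha', -⟩ := evalAt_aeval g hv a
  obtain ⟨hb', hb''⟩ := evalAt_aeval g hv b
  rw [← hb''] at hb
  have hb0 : MvPolynomial.aeval g b ≠ 0 := fun h => hb (by rw [h, evalAt_zero])
  have hord : v.ord (MvPolynomial.aeval g b) = 0 := by
    have h1 := Curves.ord_nonneg_of_mem v hb'
    by_contra h2
    exact hb ((evalAt_eq_zero_iff hb').mpr (Or.inr (by omega)))
  rw [div_eq_mul_inv]
  exact mul_mem ha' (mem_of_ord_nonneg v (by rw [v.ord_inv, hord]; rfl))

/-- The place at a smooth point. -/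
theorem exists_place_of_point (t : F) (z : ι → F)
    (hgen : IntermediateField.adjoin ℂ (Set.range (genFam t z)) = ⊤)
    (htr : ∀ c : ℂ, t ≠ algebraMap ℂ F c)
    (q : ι → Polynomial (Polynomial ℂ)) (hq : ∀ i, eval₂At (q i) t (z i) = 0)
    (τ : ℂ) (ζ : ι → ℂ)
    (hq1 : ∀ i, eval₂At (derivative (q i)) τ (ζ i) ≠ 0)
    (hrel : ∀ G : MvPolynomial (Option ι) ℂ, MvPolynomial.aeval (genFam t z) G = 0 →
      MvPolynomial.eval (genFam τ ζ) G = 0) :
    ∃ w : Place ℂ F, (∀ o, genFam t z o ∈ w.toValuationSubring) ∧
      (∀ o, evalAt w (genFam t z o) = genFam τ ζ o) ∧ w.ord (t - algebraMap ℂ F τ) = 1 ∧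
      ∀ f ∈ w.toValuationSubring, ∃ a b : MvPolynomial (Option ι) ℂ,
        MvPolynomial.eval (genFam τ ζ) b ≠ 0 ∧
          f = MvPolynomial.aeval (genFam t z) a / MvPolynomial.aeval (genFam t z) b := by
  classical
  let g := genFam t z
  let pt := genFam τ ζ
  let R : Subalgebra ℂ F := (MvPolynomial.aeval g).range
  let π : MvPolynomial (Option ι) ℂ →ₐ[ℂ] R := (MvPolynomial.aeval g).rangeRestrict
  have hπs : Function.Surjective π := (MvPolynomial.aeval g).rangeRestrict_surjective
  have hπc : ∀ G, (π G : F) = MvPolynomial.aeval g G := fun G => rfl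
  haveI : IsFractionRing R F := IsFractionRing.of_field _ _ fun f => by
    obtain ⟨a, b, -, hab⟩ := exists_quotient_of_adjoin_eq_top g hgen f
    exact ⟨π a, π b, hab⟩
  haveI : IsNoetherianRing R := isNoetherianRing_of_surjective _ _ π.toRingHom hπs
  let ev : R →ₐ[ℂ] ℂ := AlgHom.liftOfSurjective π hπs (MvPolynomial.aeval pt) (by
    intro G hG
    rw [RingHom.mem_ker] at hG ⊢
    show MvPolynomial.aeval pt G = 0
    rw [MvPolynomial.aeval_eq_eval]
    exact hrel G (by rw [← hπc, show π G = 0 from hG]; rfl))
  have hev : ∀ G, ev (π G) = MvPolynomial.eval pt G := fun G => by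
    rw [← MvPolynomial.aeval_eq_eval]
    exact AlgHom.liftOfSurjective_apply π hπs _ _ G
  let m : Ideal R := RingHom.ker ev
  haveI hm : m.IsPrime := RingHom.ker_isPrime _
  have hS : m.primeCompl ≤ nonZeroDivisors R := Ideal.primeCompl_le_nonZeroDivisors m
  let L : Subalgebra R F := Localization.subalgebra.ofField F m.primeCompl hS
  haveI : IsLocalization.AtPrime L m := Localization.subalgebra.isLocalization_ofField F _ hS
  haveI : IsLocalRing L := IsLocalization.AtPrime.isLocalRing L m
  haveI : IsNoetherianRing L := IsLocalization.isNoetherianRing m.primeCompl L inferInstance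
  haveI : IsFractionRing L F := IsFractionRing.isFractionRing_of_isLocalization m.primeCompl _ _ hS
  have hunit : ∀ r : R, IsUnit (algebraMap R L r) ↔ ev r ≠ 0 := fun r => by
    rw [IsLocalization.AtPrime.isUnit_to_map_iff L m]
    rfl
  let u : R := π (MvPolynomial.X none) - algebraMap ℂ R τ
  have hu : (u : F) = t - algebraMap ℂ F τ := by
    simp [u, hπc, g, genFam]
  have huev : ev u = 0 := by simp [u, hev, pt, genFam]
  -- the maximal ideal is principal
  have hpr : ∀ r : R, ev r = 0 → algebraMap R L r ∈ Ideal.span {algebraMap R L u} := by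
    intro r hr
    obtain ⟨G, rfl⟩ := hπs r
    have key : ∀ o, algebraMap R L (π (MvPolynomial.X o) - algebraMap ℂ R (pt o)) ∈
        Ideal.span {algebraMap R L u} := by
      intro o
      cases o with
      | none => exact Ideal.mem_span_singleton_self _
      | some i =>
        let t' : R := π (MvPolynomial.X none)
        let z' : R := π (MvPolynomial.X (some i))
        let a : R := algebraMap ℂ R (ζ i)
        have hqR : eval₂At (q i) t' z' = 0 := by
          apply Subtype.ext
          show R.val _ = 0
          rw [map_eval₂At]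
          convert! hq i using 2 <;> simp [t', z', hπc, g, genFam]
        obtain ⟨K, hK⟩ := binomExpansion ((q i).map (Polynomial.aeval t').toRingHom) a (z' - a)
        rw [add_sub_cancel, eval_map, eval_map, derivative_map, eval_map] at hK
        set D : R := eval₂At (derivative (q i)) t' a + K * (z' - a) with hD
        have hDu : IsUnit (algebraMap R L D) := by
          rw [hunit, hD, map_add, map_mul, map_sub, map_eval₂At]
          simpa [t', z', a, hev, pt, genFam] using hq1 i
        have hqa : (t' - algebraMap ℂ R τ) ∣ eval₂At (q i) t' a := by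
          have hc : eval₂At (q i) τ (ζ i) = 0 := by
            have := congrArg ev hqR
            rw [map_eval₂At, map_zero] at this
            simpa [t', z', hev, pt, genFam] using this
          have h2 : eval₂At (q i) t' a = Polynomial.aeval t' ((q i).eval (C (ζ i))) := by
            rw [show a = Polynomial.aeval t' (C (ζ i)) from (Polynomial.aeval_C _ _).symm]
            exact eval₂_at_apply (Polynomial.aeval t').toRingHom (C (ζ i))
          have h3 : ((q i).eval (C (ζ i))).eval τ = 0 := by
            rw [← hc, ← Polynomial.coe_evalRingHom, ← eval₂_at_apply]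
            simp only [Polynomial.coe_evalRingHom, eval_C]
            rfl
          obtain ⟨e, he⟩ := dvd_iff_isRoot.mpr (show IsRoot _ τ from h3)
          refine ⟨Polynomial.aeval t' e, ?_⟩
          rw [h2, he, map_mul, map_sub, aeval_X, aeval_C]
        have h0 : eval₂At (q i) t' a + D * (z' - a) = 0 := by
          rw [← hqR, hD]; linear_combination -hK
        show algebraMap R L (z' - a) ∈ _
        obtain ⟨e, he⟩ := hqa
        refine (Ideal.mul_unit_mem_iff_mem _ hDu).mp ?_
        rw [← map_mul, show (z' - a) * D = u * (-e) by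
          linear_combination h0 - he, map_mul]
        exact Ideal.mul_mem_right _ _ (Ideal.mem_span_singleton_self _)
    have h1 : algebraMap R L (π G - algebraMap ℂ R (MvPolynomial.eval pt G)) ∈
        Ideal.span {algebraMap R L u} := by
      have h2 := aeval_sub_aeval_mem ((Ideal.span {algebraMap R L u}).comap (algebraMap R L))
        (fun o => π (MvPolynomial.X o)) (fun o => algebraMap ℂ R (pt o)) key G
      have e1 : MvPolynomial.aeval (fun o => π (MvPolynomial.X o)) G = π G := by
        rw [← map_mvAeval π, MvPolynomial.aeval_X_left_apply]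
      have e2 : MvPolynomial.aeval (fun o => algebraMap ℂ R (pt o)) G =
          algebraMap ℂ R (MvPolynomial.eval pt G) := by
        refine (map_mvAeval (Algebra.ofId ℂ R) pt G).symm.trans ?_
        rw [MvPolynomial.aeval_eq_eval]
        rfl
      rwa [e1, e2, Ideal.mem_comap] at h2
    rwa [← hev, hr, map_zero, sub_zero] at h1
  have hmax : maximalIdeal L = Ideal.span {algebraMap R L u} := by
    refine le_antisymm (fun x hx => ?_) ?_
    · obtain ⟨r, s, rfl⟩ := IsLocalization.exists_mk'_eq m.primeCompl x
      have hr : r ∈ m := (IsLocalization.AtPrime.mk'_mem_maximal_iff L m r s).mp hx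
      rw [IsLocalization.mk'_eq_mul_mk'_one]
      exact Ideal.mul_mem_right _ _ (hpr r hr)
    · rw [Ideal.span_singleton_le_iff_mem, IsLocalRing.mem_maximalIdeal, mem_nonunits_iff, hunit,
        not_not]
      exact huev
  have hu0 : algebraMap R L u ≠ 0 := fun h => by
    have : (u : F) = 0 := congrArg (Subtype.val : L → F) h
    rw [hu, sub_eq_zero] at this
    exact htr τ this
  have hnf : ¬ IsField L := by
    intro hf
    rw [IsLocalRing.isField_iff_maximalIdeal_eq, hmax, Ideal.span_singleton_eq_bot] at hf
    exact hu0 hf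
  haveI : IsDiscreteValuationRing L :=
    (((IsDiscreteValuationRing.TFAE L hnf).out 0 4 :) :
      IsDiscreteValuationRing L ↔ (maximalIdeal L).IsPrincipal).mpr ⟨⟨algebraMap R L u, hmax⟩⟩
  let w : Place ℂ F :=
    Place.ofHeightOneSpectrum (R := L) (IsDiscreteValuationRing.maximalIdeal L)
  have hLw : ∀ x : L, (x : F) ∈ w.toValuationSubring := fun x => by
    show (x : F) ∈ ((IsDiscreteValuationRing.maximalIdeal L).valuation F).valuationSubring
    exact (Valuation.mem_valuationSubring_iff _ _).mpr
      ((IsDiscreteValuationRing.maximalIdeal L).valuation_le_one x)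
  have hwlt : ∀ x : L, x ∈ maximalIdeal L →
      (IsDiscreteValuationRing.maximalIdeal L).valuation F (x : F) < 1 := fun x hx =>
    ((IsDiscreteValuationRing.maximalIdeal L).valuation_lt_one_iff_mem x).mpr hx
  have hwmax : ∀ x : L, x ∈ maximalIdeal L → evalAt w (x : F) = 0 := by
    intro x hx
    rw [evalAt_eq_zero_iff (hLw x)]
    rcases eq_or_ne (x : F) 0 with h | h
    · exact Or.inl h
    refine Or.inr (lt_of_le_of_ne (Curves.ord_nonneg_of_mem w (hLw x)) fun h0 => ?_)
    have hmem : ((x : F))⁻¹ ∈ w.toValuationSubring :=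
      mem_of_ord_nonneg w (by rw [w.ord_inv]; omega)
    have hlt := hwlt x hx
    have hle : (IsDiscreteValuationRing.maximalIdeal L).valuation F ((x : F))⁻¹ ≤ 1 :=
      (Valuation.mem_valuationSubring_iff _ _).mp hmem
    rw [map_inv₀] at hle
    have hne := (Valuation.ne_zero_iff ((IsDiscreteValuationRing.maximalIdeal L).valuation F)).mpr h
    exact absurd (lt_of_lt_of_le ((one_lt_inv₀ (zero_lt_iff.mpr hne)).mpr hlt) hle) (lt_irrefl _)
  have hval : ∀ G, evalAt w (MvPolynomial.aeval g G) = MvPolynomial.eval pt G := by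
    intro G
    have h1 : algebraMap R L (π G - algebraMap ℂ R (MvPolynomial.eval pt G)) ∈ maximalIdeal L := by
      rw [IsLocalRing.mem_maximalIdeal, mem_nonunits_iff, hunit, not_not]
      simp [hev]
    have h2 := hwmax _ h1
    rw [show ((algebraMap R L (π G - algebraMap ℂ R (MvPolynomial.eval pt G)) : L) : F) =
        MvPolynomial.aeval g G - algebraMap ℂ F (MvPolynomial.eval pt G) from rfl,
      evalAt_sub (show MvPolynomial.aeval g G ∈ w.toValuationSubring from
        hLw (algebraMap R L (π G))) (algebraMap_mem w _), evalAt_algebraMap,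
      sub_eq_zero] at h2
    exact h2
  have hfrac : ∀ f ∈ w.toValuationSubring, ∃ x : L, (x : F) = f := by
    intro f hf
    rcases eq_or_ne f 0 with rfl | hf0
    · exact ⟨0, rfl⟩
    rcases (ValuationRing.isInteger_or_isInteger L f) with ⟨x, hx⟩ | ⟨x, hx⟩
    · exact ⟨x, hx⟩
    · by_cases hxu : IsUnit x
      · obtain ⟨e, rfl⟩ := hxu
        refine ⟨(↑e⁻¹ : L), ?_⟩
        show algebraMap L F _ = f
        rw [map_units_inv, hx, inv_inv]
      · exfalso
        have hlt := hwlt x (by rwa [IsLocalRing.mem_maximalIdeal, mem_nonunits_iff])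
        rw [show (x : F) = f⁻¹ from hx, map_inv₀] at hlt
        have hle : (IsDiscreteValuationRing.maximalIdeal L).valuation F f ≤ 1 :=
          (Valuation.mem_valuationSubring_iff _ _).mp hf
        have hne := (Valuation.ne_zero_iff ((IsDiscreteValuationRing.maximalIdeal L).valuation F)).mpr hf0
        exact absurd (lt_of_lt_of_le ((inv_lt_one₀ (zero_lt_iff.mpr hne)).mp hlt) hle)
          (lt_irrefl _)
  refine ⟨w, fun o => by simpa [hπc, g] using hLw (algebraMap R L (π (MvPolynomial.X o))),
    fun o => by simpa [g, pt] using hval (MvPolynomial.X o), ?_, ?_⟩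
  · obtain ⟨f, hf0, hf1⟩ := Curves.exists_ord_eq w 1
    obtain ⟨x, hx⟩ := hfrac f (mem_of_ord_nonneg w (by omega))
    have hx0 : x ≠ 0 := fun h => hf0 (by rw [← hx, h]; rfl)
    have hirr : Irreducible (algebraMap R L u) :=
      (IsDiscreteValuationRing.irreducible_iff_uniformizer _).mpr hmax
    obtain ⟨n, e, he⟩ := IsDiscreteValuationRing.eq_unit_mul_pow_irreducible hx0 hirr
    have he1 : w.ord ((e : L) : F) = 0 := by
      have h1 := Curves.ord_nonneg_of_mem w (hLw e)
      have h2 := Curves.ord_nonneg_of_mem w (hLw ↑e⁻¹)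
      have h3 : ((↑e⁻¹ : L) : F) = ((e : L) : F)⁻¹ := map_units_inv (algebraMap L F) e
      rw [h3, w.ord_inv] at h2
      omega
    have hu' : (t - algebraMap ℂ F τ) ≠ 0 := sub_ne_zero.mpr (htr τ)
    have he0 : ((e : L) : F) ≠ 0 := fun h => e.ne_zero (Subtype.ext h)
    rw [← hx, he, Subalgebra.coe_mul, Subalgebra.coe_pow,
      show ((algebraMap R L u : L) : F) = t - algebraMap ℂ F τ from hu,
      w.ord_mul he0 (pow_ne_zero _ hu'), he1, zero_add, Curves.ord_pow] at hf1
    have hpos : 0 ≤ w.ord (t - algebraMap ℂ F τ) :=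
      hu ▸ Curves.ord_nonneg_of_mem w (hLw (algebraMap R L u))
    exact Int.eq_one_of_mul_eq_one_left hpos hf1
  · intro f hf
    obtain ⟨x, rfl⟩ := hfrac f hf
    obtain ⟨r, ⟨s, hs⟩, hrs⟩ := IsLocalization.exists_mk'_eq m.primeCompl x
    obtain ⟨a, rfl⟩ := hπs r
    obtain ⟨b, rfl⟩ := hπs s
    refine ⟨a, b, hev b ▸ hs, ?_⟩
    have := IsLocalization.mk'_spec L (π a) (⟨π b, hs⟩ : m.primeCompl)
    rw [hrs] at this
    have h' : (x : F) * MvPolynomial.aeval g b = MvPolynomial.aeval g a :=
      congrArg (Subtype.val : L → F) this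
    have hb0 : MvPolynomial.aeval g b ≠ 0 := fun h => hs (by
      show ev (π b) = 0
      rw [show π b = 0 from Subtype.ext h, map_zero])
    rw [← h', mul_div_cancel_right₀ _ hb0]

end FLTA.PicTorsion
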