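import Fermat.Agent.PicTorsion.Analytic.Coords
import Fermat.Agent.PicTorsion.Analytic.Divisors
import Mathlib.Analysis.Calculus.InverseFunctionTheorem.ContDiff
import Mathlib.Analysis.Calculus.FDeriv.Mul
import Mathlib.Analysis.Normed.Module.FiniteDimension
import Mathlib.LinearAlgebra.Matrix.NonsingularInverse
import Mathlib.Topology.Instances.Matrix

/-!
# The fundamental relation between classes of moving tuples

For `R` a non-special tuple and `S` any tuple of distinct places off `R`, small motions `s` of `S`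
determine a unique small motion `w` of `R` with `[S(s) - S] + [R(w) - R] = 0`.
-/

set_option autoImplicit false
set_option linter.unusedSectionVars false

noncomputable section

open AlgebraicCurve Filter Topology

namespace FLTA.PicTorsion

variable {F : Type} [Field F] [Algebra ℂ F] [IsCurveOver ℂ F]

theorem evalAt_sum {ι : Type} (s : Finset ι) (v : Place ℂ F) (f : ι → F)
    (hf : ∀ i ∈ s, f i ∈ v.toValuationSubring) :
    (∑ i ∈ s, f i) ∈ v.toValuationSubring ∧
      evalAt v (∑ i ∈ s, f i) = ∑ i ∈ s, evalAt v (f i) := by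
  classical
  induction s using Finset.induction with
  | empty => simp [zero_mem]
  | insert a t ha ih =>
    obtain ⟨h1, h2⟩ := ih fun i hi => hf i (Finset.mem_insert_of_mem hi)
    have h0 := hf a (Finset.mem_insert_self a t)
    rw [Finset.sum_insert ha, Finset.sum_insert ha, evalAt_add h0 h1, h2]
    exact ⟨add_mem h0 h1, rfl⟩

theorem evalAt_smul {v : Place ℂ F} {f : F} (c : ℂ) (hf : f ∈ v.toValuationSubring) :
    c • f ∈ v.toValuationSubring ∧ evalAt v (c • f) = c * evalAt v f := by
  rw [Algebra.smul_def, evalAt_mul (algebraMap_mem v c) hf, evalAt_algebraMap]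
  exact ⟨mul_mem (algebraMap_mem v c) hf, rfl⟩

theorem eq_zero_of_nonneg_of_degree_eq_zero {D : Divisor ℂ F} (h : 0 ≤ D)
    (hd : Divisor.degree D = 0) : D = 0 := by
  ext v
  rw [Curves.degree_eq_sum, Finsupp.sum, Finset.sum_eq_zero_iff_of_nonneg fun v _ => h v] at hd
  by_contra hv
  exact hv (hd v (Finsupp.mem_support_iff.mpr hv))

variable [Curves.IsFunctionField ℂ F] {ι κ : Type} [Fintype ι] [Fintype κ]

/-- The places with the given coordinates near a tuple. -/
def paramTup (P : ι → Place ℂ F) (z : ι → ℂ) : ι → Place ℂ F := fun i => param (P i) (z i)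

@[simp]
theorem paramTup_zero (P : ι → Place ℂ F) : paramTup P 0 = P :=
  funext fun i => param_zero (P i)

theorem tendsto_paramTup (P : ι → Place ℂ F) (i : ι) :
    Tendsto (fun z : ι → ℂ => paramTup P z i) (𝓝 0) (𝓝 (P i)) :=
  (tendsto_param (P i)).comp ((continuous_apply i).tendsto' 0 0 rfl)

theorem eventually_injective_paramTup {P : ι → Place ℂ F} (hP : Function.Injective P) :
    ∀ᶠ z in 𝓝 (0 : ι → ℂ), Function.Injective (paramTup P z) := by
  have : ∀ᶠ z in 𝓝 (0 : ι → ℂ), ∀ i j, i ≠ j → paramTup P z i ≠ paramTup P z j := by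
    refine eventually_all.mpr fun i => eventually_all.mpr fun j => ?_
    by_cases hij : i = j
    · exact Eventually.of_forall fun z h => absurd hij h
    · have hne : P i ≠ P j := fun h => hij (hP h)
      obtain ⟨U, V, hU, hV, hiU, hjV, hd⟩ := t2_separation hne
      filter_upwards [(tendsto_paramTup P i).eventually (hU.mem_nhds hiU),
        (tendsto_paramTup P j).eventually (hV.mem_nhds hjV)] with z h1 h2 _ h
      exact Set.disjoint_left.mp hd h1 (h ▸ h2)
  filter_upwards [this] with z hz i j h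
  by_contra hij
  exact hz i j hij h

/-- The relation between moving tuples. -/
theorem exists_sumLaw (S : ι → Place ℂ F) (R : κ → Place ℂ F)
    (hinj : Function.Injective (Sum.elim S R)) (hR : Curves.ell (tupDiv R) = 1)
    (hcard : Fintype.card κ = genusFF ℂ F) :
    ∃ W : (ι → ℂ) → (κ → ℂ), ContDiffAt ℂ 2 W 0 ∧ W 0 = 0 ∧
      (∀ᶠ s in 𝓝 0, tupCls S (paramTup S s) + tupCls R (paramTup R (W s)) = 0) ∧
      ∀ᶠ s in 𝓝 0, ∀ v : κ → Place ℂ F,
        tupCls S (paramTup S s) + tupCls R v = 0 → tupDiv v = tupDiv (paramTup R (W s)) := by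
  classical
  set Pt : ι ⊕ κ → Place ℂ F := Sum.elim S R with hPt
  set M : Divisor ℂ F := tupDiv Pt with hM
  have hM1 : ∀ a, M (Pt a) = 1 := fun a => tupDiv_apply_of_injective hinj a
  have hMsplit : M = tupDiv S + tupDiv R := tupDiv_sumElim S R
  have hspec := fun a => eventually_mul_unif_spec (Pt a) M (hM1 a)
  have hspec0 : ∀ a, ∀ h ∈ riemannRochSpace M, unif (Pt a) * h ∈ (Pt a).toValuationSubring ∧
      (h ≠ 0 → (evalAt (Pt a) (unif (Pt a) * h) = 0 ↔ 1 ≤ (Pt a).ord h + M (Pt a))) := by
    intro a h hh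
    have := (hspec a).self_of_nhds h hh
    rwa [param_zero] at this
  have h1M : (1 : F) ∈ riemannRochSpace M :=
    mem_riemannRochSpace_iff.mpr fun v => Or.inr (by
      rw [Place.ord_one]
      have := tupDiv_nonneg Pt v
      rw [Finsupp.zero_apply] at this
      change 0 ≤ M v at this
      omega)
  -- principal parts at `S`
  let ev : riemannRochSpace M →ₗ[ℂ] (ι → ℂ) :=
    { toFun := fun h i => evalAt (S i) (unif (S i) * h)
      map_add' := fun a b => funext fun i => by
        simp only [Submodule.coe_add, mul_add, Pi.add_apply]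
        exact evalAt_add (hspec0 (Sum.inl i) a a.2).1 (hspec0 (Sum.inl i) b b.2).1
      map_smul' := fun c a => funext fun i => by
        simp only [Submodule.coe_smul, mul_smul_comm, Pi.smul_apply, smul_eq_mul, RingHom.id_apply]
        exact (evalAt_smul c (hspec0 (Sum.inl i) a a.2).1).2 }
  have hone : riemannRochSpace (tupDiv R) = ℂ ∙ (1 : F) := by
    have h1R : (1 : F) ∈ riemannRochSpace (tupDiv R) :=
      mem_riemannRochSpace_iff.mpr fun v => Or.inr (by
        rw [Place.ord_one]
        have := tupDiv_nonneg R v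
        rw [Finsupp.zero_apply] at this
        omega)
    refine (Submodule.eq_of_le_of_finrank_le ?_ ?_).symm
    · rwa [Submodule.span_singleton_le_iff_mem]
    · rw [finrank_span_singleton one_ne_zero]
      exact hR.le
  have hker : ∀ h : riemannRochSpace M, ev h = 0 → ∃ c : ℂ, (h : F) = c • 1 := by
    intro h hh
    have hmem : (h : F) ∈ riemannRochSpace (tupDiv R) := by
      rw [mem_riemannRochSpace_iff]
      intro v
      by_cases h0 : (h : F) = 0
      · exact Or.inl h0
      refine Or.inr ?_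
      have hv := (mem_riemannRochSpace_iff.mp h.2 v).resolve_left h0
      rw [show M v = tupDiv S v + tupDiv R v by rw [hMsplit]; rfl] at hv
      by_cases hvS : ∃ i, S i = v
      · obtain ⟨i, rfl⟩ := hvS
        have := ((hspec0 (Sum.inl i) h h.2).2 h0).mp (congrFun hh i)
        rw [hM1] at this
        simp only [hPt, Sum.elim_inl] at this
        rw [tupDiv_apply_of_notMem (v := R) (w := S i) fun k hk => Sum.inr_ne_inl
          (hinj (show Pt (Sum.inr k) = Pt (Sum.inl i) from hk))]
        omega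
      · push Not at hvS
        rw [tupDiv_apply_of_notMem hvS, zero_add] at hv
        exact hv
    rw [hone, Submodule.mem_span_singleton] at hmem
    obtain ⟨c, hc⟩ := hmem
    exact ⟨c, hc.symm⟩
  have hsurj : Function.Surjective ev := by
    rw [← LinearMap.range_eq_top]
    apply Submodule.eq_top_of_finrank_eq
    have h1 := ev.finrank_range_add_finrank_ker
    have h2 : Module.finrank ℂ ev.ker ≤ 1 := by
      have hle : ev.ker.map (riemannRochSpace M).subtype ≤ ℂ ∙ (1 : F) := by
        rintro x ⟨h, hh, rfl⟩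
        obtain ⟨c, hc⟩ := hker h hh
        exact Submodule.mem_span_singleton.mpr ⟨c, hc.symm⟩
      have := Submodule.finrank_mono hle
      rw [finrank_span_singleton one_ne_zero] at this
      rwa [← (Submodule.equivMapOfInjective (riemannRochSpace M).subtype
        (riemannRochSpace M).injective_subtype ev.ker).finrank_eq] at this
    have h3 := Curves.riemann_inequality M
    rw [hM, degree_tupDiv, Fintype.card_sum, hcard] at h3
    have h4 := ev.range.finrank_le
    unfold Curves.ell at h3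
    rw [← hM] at h3
    simp only [Module.finrank_fintype_fun_eq_card] at h4 ⊢
    omega
  choose f hf using fun j : ι => hsurj (Pi.single j 1)
  let fn : Option ι → F := fun o => o.elim 1 fun j => f j
  have hfn : ∀ o, fn o ∈ riemannRochSpace M := fun o => by
    cases o with
    | none => exact h1M
    | some j => exact (f j).2
  choose φ hφ hφ0 hφev using fun a o => exists_expansion (hspec0 a (fn o) (hfn o)).1
  have hnone : ∀ a, φ a none =ᶠ[𝓝 0] id := fun a => by
    filter_upwards [hφev a none, eventually_param (Pt a)] with τ h1 h2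
    rw [← h1.2]
    simp only [fn, Option.elim_none, mul_one]
    exact h2.2.1
  have hnone0 : ∀ a, φ a none 0 = 0 := fun a => (hnone a).self_of_nhds
  have hdelta : ∀ i j, φ (Sum.inl i) (some j) 0 = if i = j then 1 else 0 := fun i j => by
    rw [hφ0]
    have := congrFun (hf j) i
    rw [Pi.single_apply] at this
    exact this
  -- the combination with coefficients `c₀, c`
  let comb : ℂ → (ι → ℂ) → F := fun c₀ c => c₀ • (1 : F) + ∑ j, c j • (f j : F)
  have hcombM : ∀ c₀ c, comb c₀ c ∈ riemannRochSpace M := fun c₀ c =>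
    add_mem (Submodule.smul_mem _ c₀ h1M) (sum_mem fun j _ => Submodule.smul_mem _ _ (f j).2)
  have hcombev : ∀ a, ∀ᶠ τ in 𝓝 0, ∀ c₀ c, evalAt (param (Pt a) τ) (unif (Pt a) * comb c₀ c) =
      c₀ * φ a none τ + ∑ j, c j * φ a (some j) τ := by
    intro a
    filter_upwards [hφev a none, eventually_all.mpr fun j : ι => hφev a (some j)]
      with τ h0 hj c₀ c
    simp only [fn, Option.elim_none, Option.elim_some] at h0 hj
    obtain ⟨hm, hs⟩ := evalAt_sum Finset.univ (param (Pt a) τ)
      (fun j => c j • (unif (Pt a) * (f j : F))) (fun j _ => (evalAt_smul _ (hj j).1).1)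
    simp only [comb, mul_add, Finset.mul_sum, mul_smul_comm]
    rw [evalAt_add (evalAt_smul c₀ h0.1).1 hm, (evalAt_smul c₀ h0.1).2, h0.2, hs]
    congr 1
    exact Finset.sum_congr rfl fun j _ => by rw [(evalAt_smul _ (hj j).1).2, (hj j).2]
  have hcomb0 : ∀ c₀ c, comb c₀ c = 0 → c₀ = 0 ∧ c = 0 := by
    intro c₀ c h
    have hc : ∀ i, c i = 0 := by
      intro i
      have h1 := (hcombev (Sum.inl i)).self_of_nhds c₀ c
      rw [h, mul_zero, evalAt_zero, hnone0, mul_zero, zero_add] at h1
      simpa [hdelta] using h1.symm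
    refine ⟨?_, funext hc⟩
    simp [comb, hc] at h
    exact h
  -- the system
  let zc : (ι ⊕ κ) → ((ι → ℂ) × (ι → ℂ) × (κ → ℂ)) →L[ℂ] ℂ :=
    Sum.elim (fun i => (ContinuousLinearMap.proj i).comp (ContinuousLinearMap.fst ℂ _ _))
      (fun k => (ContinuousLinearMap.proj k).comp
        ((ContinuousLinearMap.snd ℂ _ _).comp (ContinuousLinearMap.snd ℂ _ _)))
  let cc : ι → ((ι → ℂ) × (ι → ℂ) × (κ → ℂ)) →L[ℂ] ℂ := fun j =>
    (ContinuousLinearMap.proj j).comp
      ((ContinuousLinearMap.fst ℂ _ _).comp (ContinuousLinearMap.snd ℂ _ _))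
  let eqn : (ι ⊕ κ) → ((ι → ℂ) × (ι → ℂ) × (κ → ℂ)) → ℂ := fun a x =>
    φ a none (zc a x) + ∑ j, cc j x * φ a (some j) (zc a x)
  let deqn : (ι ⊕ κ) → ((ι → ℂ) × (ι → ℂ) × (κ → ℂ)) →L[ℂ] ℂ := fun a =>
    zc a + ∑ j, φ a (some j) 0 • cc j
  have heqnc : ∀ a, ContDiffAt ℂ 2 (eqn a) 0 := by
    intro a
    have h1 : ∀ o, ContDiffAt ℂ 2 (fun x => φ a o (zc a x)) 0 := fun o =>
      ContDiffAt.comp (0 : (ι → ℂ) × (ι → ℂ) × (κ → ℂ))
        (by rw [map_zero]; exact (hφ a o).contDiffAt) (zc a).contDiff.contDiffAt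
    exact (h1 none).add (ContDiffAt.sum fun j _ => (cc j).contDiff.contDiffAt.mul (h1 (some j)))
  have heqnd : ∀ a, HasFDerivAt (eqn a) (deqn a) 0 := by
    intro a
    have h1 : HasFDerivAt (fun x => φ a none (zc a x)) (zc a) 0 := by
      refine (zc a).hasFDerivAt.congr_of_eventuallyEq ?_
      exact ((zc a).continuous.tendsto' 0 0 (map_zero _)).eventually (hnone a)
    have h2 : ∀ j, HasFDerivAt (fun x => cc j x * φ a (some j) (zc a x))
        (φ a (some j) 0 • cc j) 0 := by
      intro j
      have hd : HasFDerivAt (fun x => φ a (some j) (zc a x))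
          ((fderiv ℂ (φ a (some j)) 0).comp (zc a)) 0 :=
        HasFDerivAt.comp (0 : (ι → ℂ) × (ι → ℂ) × (κ → ℂ))
          (by rw [map_zero]; exact (hφ a (some j)).differentiableAt.hasFDerivAt)
          (zc a).hasFDerivAt
      have h := (cc j).hasFDerivAt.fun_mul hd
      refine h.congr_fderiv (ContinuousLinearMap.ext fun x => ?_)
      simp
    exact h1.add (HasFDerivAt.fun_sum fun j _ => h2 j)
  let Hsys : ((ι → ℂ) × (ι → ℂ) × (κ → ℂ)) → (ι → ℂ) × (ι → ℂ) × (κ → ℂ) := fun x =>
    (x.1, fun i => eqn (Sum.inl i) x, fun k => eqn (Sum.inr k) x)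
  let Hd : ((ι → ℂ) × (ι → ℂ) × (κ → ℂ)) →L[ℂ] (ι → ℂ) × (ι → ℂ) × (κ → ℂ) :=
    (ContinuousLinearMap.fst ℂ _ _).prod
      ((ContinuousLinearMap.pi fun i => deqn (Sum.inl i)).prod
        (ContinuousLinearMap.pi fun k => deqn (Sum.inr k)))
  have hHdi : Function.Injective
      (Hd : ((ι → ℂ) × (ι → ℂ) × (κ → ℂ)) →ₗ[ℂ] (ι → ℂ) × (ι → ℂ) × (κ → ℂ)) := by
    rw [← LinearMap.ker_eq_bot, LinearMap.ker_eq_bot']
    rintro ⟨s, c, w⟩ h
    simp only [ContinuousLinearMap.coe_coe, Hd, ContinuousLinearMap.prod_apply,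
      ContinuousLinearMap.coe_fst', Prod.mk_eq_zero] at h
    obtain ⟨rfl, h1, h2⟩ := h
    have hev : ∀ a (x : (ι → ℂ) × (ι → ℂ) × (κ → ℂ)),
        deqn a x = zc a x + ∑ j, φ a (some j) 0 * x.2.1 j := fun a x => by
      simp [deqn, cc, ContinuousLinearMap.sum_apply]
    simp only [funext_iff, ContinuousLinearMap.pi_apply, hev, Pi.zero_apply] at h1 h2
    have hc : c = 0 := funext fun i => by
      simpa [zc, hdelta] using h1 i
    subst hc
    have hw : w = 0 := funext fun k => by
      simpa [zc] using h2 k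
    rw [hw]; rfl
  let He : ((ι → ℂ) × (ι → ℂ) × (κ → ℂ)) ≃L[ℂ] (ι → ℂ) × (ι → ℂ) × (κ → ℂ) :=
    (LinearEquiv.ofInjectiveEndo _ hHdi).toContinuousLinearEquiv
  have hHc : ContDiffAt ℂ 2 Hsys 0 := contDiffAt_fst.prodMk
    ((contDiffAt_pi.mpr fun i => heqnc (Sum.inl i)).prodMk
      (contDiffAt_pi.mpr fun k => heqnc (Sum.inr k)))
  have hHd : HasFDerivAt Hsys (He : _ →L[ℂ] _) 0 := by
    have : (He : ((ι → ℂ) × (ι → ℂ) × (κ → ℂ)) →L[ℂ] (ι → ℂ) × (ι → ℂ) × (κ → ℂ)) = Hd :=
      ContinuousLinearMap.ext fun x => by simp [He]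
    rw [this]
    exact hasFDerivAt_fst.prodMk
      ((hasFDerivAt_pi.mpr fun i => heqnd (Sum.inl i)).prodMk
        (hasFDerivAt_pi.mpr fun k => heqnd (Sum.inr k)))
  have hH0 : Hsys 0 = 0 := by
    simp [Hsys, eqn, hnone0]
    exact ⟨rfl, rfl⟩
  set inv := hHc.localInverse hHd (by norm_num) with hinv
  have hinv0 : inv 0 = 0 := by
    have := hHc.localInverse_apply_image hHd (by norm_num)
    rwa [hH0] at this
  have hinvc : ContDiffAt ℂ 2 inv 0 := hH0 ▸ hHc.to_localInverse hHd (by norm_num)
  have hincl : ContDiffAt ℂ 2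
      (fun s : ι → ℂ => ((s, 0, 0) : (ι → ℂ) × (ι → ℂ) × (κ → ℂ))) 0 :=
    contDiffAt_id.prodMk contDiffAt_const
  let sol : (ι → ℂ) → (ι → ℂ) × (ι → ℂ) × (κ → ℂ) := fun s => inv (s, 0, 0)
  have hsolc : ContDiffAt ℂ 2 sol 0 :=
    ContDiffAt.comp (0 : ι → ℂ)
      (f := fun s : ι → ℂ => ((s, 0, 0) : (ι → ℂ) × (ι → ℂ) × (κ → ℂ))) hinvc hincl
  have hsol0 : sol 0 = 0 := hinv0
  have hsolev : ∀ᶠ s in 𝓝 (0 : ι → ℂ), (sol s).1 = s ∧ ∀ a, eqn a (sol s) = 0 := by
    have hright := (hHc.hasStrictFDerivAt' hHd (by norm_num)).eventually_right_inverse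
    rw [hH0] at hright
    filter_upwards [(hincl.continuousAt.tendsto).eventually
      (show ∀ᶠ r in 𝓝 _, Hsys (inv r) = r from hright)] with s hs
    obtain ⟨h1, h2⟩ := Prod.ext_iff.mp hs
    obtain ⟨h3, h4⟩ := Prod.ext_iff.mp h2
    refine ⟨h1, fun a => ?_⟩
    cases a with
    | inl i => exact congrFun h3 i
    | inr k => exact congrFun h4 k
  let W : (ι → ℂ) → (κ → ℂ) := fun s => (sol s).2.2
  let cs : (ι → ℂ) → (ι → ℂ) := fun s => (sol s).2.1
  have hWc : ContDiffAt ℂ 2 W 0 :=
    ContDiffAt.comp (0 : ι → ℂ) contDiffAt_snd (ContDiffAt.comp (0 : ι → ℂ) contDiffAt_snd hsolc)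
  have hW0 : W 0 = 0 := by simp [W, hsol0]
  -- everything near the base tuple
  have hgood : ∀ᶠ z in 𝓝 (0 : ι ⊕ κ → ℂ), Function.Injective (paramTup Pt z) ∧ ∀ a,
      (∀ h ∈ riemannRochSpace M,
        unif (Pt a) * h ∈ (param (Pt a) (z a)).toValuationSubring ∧
        (h ≠ 0 → (evalAt (param (Pt a) (z a)) (unif (Pt a) * h) = 0 ↔
          1 ≤ (param (Pt a) (z a)).ord h + M (param (Pt a) (z a))))) ∧
      ∀ c₀ c, evalAt (param (Pt a) (z a)) (unif (Pt a) * comb c₀ c) =
        c₀ * φ a none (z a) + ∑ j, c j * φ a (some j) (z a) :=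
    (eventually_injective_paramTup hinj).and (eventually_all.mpr fun a =>
      (((continuous_apply a).tendsto' (0 : ι ⊕ κ → ℂ) 0 rfl).eventually (hspec a)).and
        (((continuous_apply a).tendsto' (0 : ι ⊕ κ → ℂ) 0 rfl).eventually (hcombev a)))
  have hz : Tendsto (fun s => Sum.elim s (W s)) (𝓝 0) (𝓝 (0 : ι ⊕ κ → ℂ)) := by
    rw [tendsto_pi_nhds]
    intro a
    cases a with
    | inl i => exact (continuous_apply i).tendsto' 0 0 rfl
    | inr k =>
      have := hWc.continuousAt.tendsto
      rw [hW0] at this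
      exact ((continuous_apply k).tendsto' 0 0 rfl).comp this
  have hdet : ∀ᶠ s in 𝓝 (0 : ι → ℂ),
      (Matrix.of fun i j => φ (Sum.inl i) (some j) (s i)).det ≠ 0 := by
    have hc : ContinuousAt
        (fun s : ι → ℂ => Matrix.of fun i j => φ (Sum.inl i) (some j) (s i)) 0 :=
      continuousAt_pi.mpr fun i => continuousAt_pi.mpr fun j =>
        ContinuousAt.comp (f := fun s : ι → ℂ => s i)
          (by simpa using (hφ (Sum.inl i) (some j)).continuousAt) (continuous_apply i).continuousAt
    have hdc : ContinuousAt (fun s : ι → ℂ =>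
        (Matrix.of fun i j => φ (Sum.inl i) (some j) (s i)).det) 0 :=
      (Continuous.matrix_det continuous_id).continuousAt.comp hc
    refine hdc.eventually_ne ?_
    rw [show (Matrix.of fun i j => φ (Sum.inl i) (some j) ((0 : ι → ℂ) i)) = 1 from
      Matrix.ext fun i j => by simp [hdelta, Matrix.one_apply]]
    simp
  have hmain : ∀ᶠ s in 𝓝 (0 : ι → ℂ),
      Curves.divFn (K := ℂ) (comb 1 (cs s)) =
        tupDiv (paramTup S s) + tupDiv (paramTup R (W s)) - M := by
    filter_upwards [hsolev, hz.eventually hgood] with s ⟨hs1, hs2⟩ ⟨hsinj, hsa⟩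
    have hne : comb 1 (cs s) ≠ 0 := fun h => one_ne_zero (hcomb0 _ _ h).1
    have hzc : ∀ a, zc a (sol s) = Sum.elim s (W s) a := fun a => by
      cases a with
      | inl i => exact congrFun hs1 i
      | inr k => rfl
    have hsplit : paramTup Pt (Sum.elim s (W s)) = Sum.elim (paramTup S s) (paramTup R (W s)) :=
      funext fun a => by cases a <;> rfl
    set V := paramTup Pt (Sum.elim s (W s)) with hV
    have hord : ∀ a, 1 ≤ (V a).ord (comb 1 (cs s)) + M (V a) := fun a => by
      refine (((hsa a).1 _ (hcombM _ _)).2 hne).mp ?_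
      rw [(hsa a).2, one_mul]
      have := hs2 a
      simp only [eqn, hzc] at this
      exact this
    have hge : 0 ≤ Curves.divFn (K := ℂ) (comb 1 (cs s)) + M - tupDiv V := by
      intro v
      rw [Finsupp.sub_apply, Finsupp.add_apply, Finsupp.zero_apply, Curves.divFn_apply]
      by_cases hv : ∃ a, V a = v
      · obtain ⟨a, rfl⟩ := hv
        rw [tupDiv_apply_of_injective hsinj]
        have := hord a
        omega
      · push Not at hv
        rw [tupDiv_apply_of_notMem hv]
        have := (mem_riemannRochSpace_iff.mp (hcombM 1 (cs s)) v).resolve_left hne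
        omega
    have := eq_zero_of_nonneg_of_degree_eq_zero hge (by
      rw [map_sub, map_add, Curves.degree_divFn, hM, degree_tupDiv, degree_tupDiv]
      simp)
    rw [← tupDiv_sumElim, ← hsplit]
    rw [sub_eq_zero, ← eq_sub_iff_add_eq] at this
    exact this
  refine ⟨W, hWc, hW0, ?_, ?_⟩
  · filter_upwards [hmain] with s hs
    rw [tupCls_add_eq_zero_iff]
    refine ⟨comb 1 (cs s), fun h => one_ne_zero (hcomb0 _ _ h).1, ?_⟩
    rw [hs, hMsplit]
  · filter_upwards [hmain, hdet, hsolev, hz.eventually hgood]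
      with s hs hdet' ⟨hs1, hs2⟩ ⟨hsinj, hsa⟩ v hv
    obtain ⟨h, hh0, hhd⟩ := (tupCls_add_eq_zero_iff _ _ _ _).mp hv
    have hhM : h ∈ riemannRochSpace M := by
      rw [Curves.mem_riemannRochSpace_iff_add_nonneg hh0, hhd, hMsplit, sub_add_cancel]
      exact add_nonneg (tupDiv_nonneg _) (tupDiv_nonneg _)
    obtain ⟨c₀, c, rfl⟩ : ∃ c₀ c, h = comb c₀ c := by
      let d : riemannRochSpace M :=
        ⟨h, hhM⟩ - ∑ j, (ev ⟨h, hhM⟩ j) • f j
      have hd : ev d = 0 := by
        funext i
        simp [d, map_sub, map_sum, map_smul, hf, Finset.sum_apply, Pi.single_apply]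
      obtain ⟨c₀, hc₀⟩ := hker d hd
      refine ⟨c₀, ev ⟨h, hhM⟩, ?_⟩
      have : h - ∑ j, (ev ⟨h, hhM⟩ j) • (f j : F) = c₀ • (1 : F) := by
        rw [← hc₀]; simp [d]
      simp only [comb, ← this, sub_add_cancel]
    have hlin : ∀ i, c₀ * φ (Sum.inl i) none (s i) + ∑ j, c j * φ (Sum.inl i) (some j) (s i) = 0 := by
      intro i
      obtain ⟨hsp, hcev⟩ := hsa (Sum.inl i)
      have hcev' := hcev c₀ c
      simp only [Sum.elim_inl] at hsp hcev'
      rw [← hcev', ((hsp _ hhM).2 hh0)]
      have e1 := congrArg (fun D : Divisor ℂ F => D (paramTup S s i)) hhd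
      simp only [Curves.divFn_apply, Finsupp.sub_apply, Finsupp.add_apply] at e1
      have e2 := one_le_tupDiv_apply (paramTup S s) i
      have e3 := tupDiv_nonneg v (paramTup S s i)
      rw [Finsupp.zero_apply] at e3
      have e4 : M (paramTup S s i) = tupDiv S (paramTup S s i) + tupDiv R (paramTup S s i) := by
        rw [hMsplit]; rfl
      show 1 ≤ (paramTup S s i).ord (comb c₀ c) + M (paramTup S s i)
      omega
    have hsol : ∀ i, φ (Sum.inl i) none (s i) +
        ∑ j, cs s j * φ (Sum.inl i) (some j) (s i) = 0 := by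
      intro i
      have := hs2 (Sum.inl i)
      simp only [eqn, zc, Sum.elim_inl, ContinuousLinearMap.comp_apply,
        ContinuousLinearMap.proj_apply, ContinuousLinearMap.coe_fst', hs1] at this
      exact this
    have hd0 : (fun j => c j - c₀ * cs s j) = 0 := by
      refine Matrix.eq_zero_of_mulVec_eq_zero hdet' (funext fun i => ?_)
      simp only [Matrix.mulVec, dotProduct, Matrix.of_apply, Pi.zero_apply]
      calc ∑ j, φ (Sum.inl i) (some j) (s i) * (c j - c₀ * cs s j)
          = (∑ j, c j * φ (Sum.inl i) (some j) (s i)) -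
              c₀ * ∑ j, cs s j * φ (Sum.inl i) (some j) (s i) := by
            rw [Finset.mul_sum, ← Finset.sum_sub_distrib]
            exact Finset.sum_congr rfl fun j _ => by ring
        _ = 0 := by linear_combination hlin i - c₀ * hsol i
    have hceq : comb c₀ c = c₀ • comb 1 (cs s) := by
      simp only [comb, smul_add, one_smul, Finset.smul_sum, smul_smul]
      congr 1
      exact Finset.sum_congr rfl fun j _ => by
        rw [show c j = c₀ * cs s j from sub_eq_zero.mp (congrFun hd0 j)]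
    have hc0 : c₀ ≠ 0 := fun h0 => hh0 (by rw [hceq, h0, zero_smul])
    have hne : comb 1 (cs s) ≠ 0 := fun h => one_ne_zero (hcomb0 _ _ h).1
    have hdiv : Curves.divFn (K := ℂ) (comb c₀ c) = Curves.divFn (comb 1 (cs s)) := by
      ext w
      rw [Curves.divFn_apply, Curves.divFn_apply, hceq, Algebra.smul_def,
        w.ord_mul (by simpa using hc0) hne, Curves.ord_algebraMap, zero_add]
    rw [hdiv, hs, hMsplit] at hhd
    exact (add_left_cancel (sub_left_injective hhd)).symm

end FLTA.PicTorsion
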