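import Fermat.Agent.PicTorsion.Analytic.SumLaw
import Fermat.Agent.PicTorsion.Analytic.Linearise
import Fermat.Agent.PicTorsion.Analytic.Compact
import Mathlib.Analysis.Complex.OpenMapping
import Mathlib.Topology.Algebra.Monoid

/-!
# `Pic⁰ = ℂ^g / Λ` for a function field over `ℂ`
-/

set_option autoImplicit false
set_option linter.unusedSectionVars false

noncomputable section

open AlgebraicCurve Filter Topology

namespace FLTA.PicTorsion

variable {F : Type} [Field F] [Algebra ℂ F] [IsCurveOver ℂ F]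

theorem tupCls_sumElim {ι κ : Type} [Fintype ι] [Fintype κ] (S s : ι → Place ℂ F)
    (R w : κ → Place ℂ F) :
    tupCls (Sum.elim S R) (Sum.elim s w) = tupCls S s + tupCls R w := by
  simp [tupCls, Fintype.sum_sum_type]

variable [Curves.IsFunctionField ℂ F]

theorem paramTup_sumElim {ι κ : Type} (S : ι → Place ℂ F) (R : κ → Place ℂ F) (s : ι → ℂ)
    (w : κ → ℂ) [Fintype ι] [Fintype κ] :
    paramTup (Sum.elim S R) (Sum.elim s w) = Sum.elim (paramTup S s) (paramTup R w) :=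
  funext fun a => by cases a <;> rfl

/-- The class map of a tuple in coordinates. -/
def alphaMap {ι : Type} [Fintype ι] (P : ι → Place ℂ F) (u : ι → ℂ) : Pic0 ℂ F :=
  tupCls P (paramTup P u)

theorem alphaMap_zero {ι : Type} [Fintype ι] (P : ι → Place ℂ F) : alphaMap P 0 = 0 := by
  simp [alphaMap]

/-- The linearised class map near a non-special tuple. -/
theorem exists_exp (P : Fin (genusFF ℂ F) → Place ℂ F) (hP : NonSpecial P) :
    ∃ (e : (Fin (genusFF ℂ F) → ℂ) →+ Pic0 ℂ F)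
      (L : (Fin (genusFF ℂ F) → ℂ) → (Fin (genusFF ℂ F) → ℂ)),
      L 0 = 0 ∧ ContinuousAt L 0 ∧ map L (𝓝 0) = 𝓝 0 ∧
      (∀ᶠ u in 𝓝 0, alphaMap P u = e (L u)) ∧ ∀ᶠ z in 𝓝 0, e z = 0 → z = 0 := by
  classical
  have hcard : Fintype.card (Fin (genusFF ℂ F)) = genusFF ℂ F := Fintype.card_fin _
  obtain ⟨Q, hQ, hQP⟩ := exists_nonSpecial (Set.finite_range P)
  obtain ⟨R, hR, hRPQ⟩ := exists_nonSpecial ((Set.finite_range P).union (Set.finite_range Q))
  have hPQ : ∀ i j, P i ≠ Q j := fun i j h => hQP j ⟨i, h⟩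
  have hPR : ∀ i j, P i ≠ R j := fun i j h => hRPQ j (Or.inl ⟨i, h⟩)
  have hQR : ∀ i j, Q i ≠ R j := fun i j h => hRPQ j (Or.inr ⟨i, h⟩)
  have iQR : Function.Injective (Sum.elim Q R) := hQ.injective.sumElim hR.injective hQR
  obtain ⟨Wb, hWb, hWb0, hb, -⟩ :=
    exists_sumLaw P Q (hP.injective.sumElim hQ.injective hPQ) hQ.ell_eq_one hcard
  obtain ⟨Wc, hWc, hWc0, hc, -⟩ :=
    exists_sumLaw P R (hP.injective.sumElim hR.injective hPR) hR.ell_eq_one hcard
  obtain ⟨Wa, hWa, hWa0, ha, -⟩ :=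
    exists_sumLaw (Sum.elim Q R) P (iQR.sumElim hP.injective (fun a j => by
      cases a with
      | inl i => exact (hPQ j i).symm
      | inr i => exact (hPR j i).symm)) hP.ell_eq_one hcard
  obtain ⟨Wb', hWb', hWb'0, -, hu'⟩ :=
    exists_sumLaw Q P (hQ.injective.sumElim hP.injective fun i j => (hPQ j i).symm)
      hP.ell_eq_one hcard
  let pre : (Fin (genusFF ℂ F) → ℂ) × (Fin (genusFF ℂ F) → ℂ) →
      (Fin (genusFF ℂ F) ⊕ Fin (genusFF ℂ F) → ℂ) := fun p => Sum.elim (Wb p.2) (Wc p.1)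
  let Φ : (Fin (genusFF ℂ F) → ℂ) × (Fin (genusFF ℂ F) → ℂ) → (Fin (genusFF ℂ F) → ℂ) :=
    fun p => Wa (pre p)
  have hpre : ContDiffAt ℂ 2 pre 0 := by
    refine contDiffAt_pi.mpr fun a => ?_
    cases a with
    | inl i =>
      exact (contDiffAt_pi.mp (ContDiffAt.comp
        (0 : (Fin (genusFF ℂ F) → ℂ) × (Fin (genusFF ℂ F) → ℂ)) hWb contDiffAt_snd)) i
    | inr k =>
      exact (contDiffAt_pi.mp (ContDiffAt.comp
        (0 : (Fin (genusFF ℂ F) → ℂ) × (Fin (genusFF ℂ F) → ℂ)) hWc contDiffAt_fst)) k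
  have hpre0 : pre 0 = 0 := funext fun a => by
    cases a <;> simp [pre, hWb0, hWc0]
  have hΦ : ContDiffAt ℂ 2 Φ 0 :=
    ContDiffAt.comp (0 : (Fin (genusFF ℂ F) → ℂ) × (Fin (genusFF ℂ F) → ℂ))
      (f := pre) (hpre0.symm ▸ hWa) hpre
  have hΦ0 : Φ 0 = 0 := by simp [Φ, hpre0, hWa0]
  have hadd : ∀ᶠ p in 𝓝 (0 : (Fin (genusFF ℂ F) → ℂ) × (Fin (genusFF ℂ F) → ℂ)),
      alphaMap P (Φ p) = alphaMap P p.1 + alphaMap P p.2 := by
    have hp : Tendsto pre (𝓝 0) (𝓝 0) := by
      have := hpre.continuousAt.tendsto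
      rwa [hpre0] at this
    filter_upwards [(continuous_fst.tendsto' _ 0 rfl).eventually hc,
      (continuous_snd.tendsto' _ 0 rfl).eventually hb, hp.eventually ha] with p h1 h2 h3
    simp only [pre] at h3
    rw [paramTup_sumElim, tupCls_sumElim] at h3
    unfold alphaMap
    rw [eq_neg_of_add_eq_zero_left h1, eq_neg_of_add_eq_zero_left h2]
    rw [eq_neg_of_add_eq_zero_right h3]
    abel
  have hinj : ∀ᶠ p in 𝓝 (0 : (Fin (genusFF ℂ F) → ℂ) × (Fin (genusFF ℂ F) → ℂ)),
      alphaMap P p.1 = alphaMap P p.2 → p.1 = p.2 := by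
    have hW : Tendsto Wb (𝓝 0) (𝓝 0) := by
      have := hWb.continuousAt.tendsto
      rwa [hWb0] at this
    have hsep : ∀ᶠ p in 𝓝 (0 : (Fin (genusFF ℂ F) → ℂ) × (Fin (genusFF ℂ F) → ℂ)),
        ∀ i j, i ≠ j → param (P i) (p.1 i) ≠ param (P j) (p.2 j) := by
      refine eventually_all.mpr fun i => eventually_all.mpr fun j => ?_
      by_cases hij : i = j
      · exact Eventually.of_forall fun p h => absurd hij h
      obtain ⟨U, V, hU, hV, hiU, hjV, hd⟩ :=
        t2_separation (fun h => hij (hP.injective h) : P i ≠ P j)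
      have c1 : Tendsto (fun p : (Fin (genusFF ℂ F) → ℂ) × (Fin (genusFF ℂ F) → ℂ) =>
          paramTup P p.1 i) (𝓝 0) (𝓝 (P i)) :=
        (tendsto_paramTup P i).comp (continuous_fst.tendsto' _ 0 rfl)
      have c2 : Tendsto (fun p : (Fin (genusFF ℂ F) → ℂ) × (Fin (genusFF ℂ F) → ℂ) =>
          paramTup P p.2 j) (𝓝 0) (𝓝 (P j)) :=
        (tendsto_paramTup P j).comp (continuous_snd.tendsto' _ 0 rfl)
      filter_upwards [c1.eventually (hU.mem_nhds hiU), c2.eventually (hV.mem_nhds hjV)]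
        with p h1 h2 _ h
      exact Set.disjoint_left.mp hd (show param (P i) (p.1 i) ∈ U from h1)
        (h ▸ (show param (P j) (p.2 j) ∈ V from h2))
    have hco : ∀ᶠ u in 𝓝 (0 : Fin (genusFF ℂ F) → ℂ), ∀ i, coord (P i) (param (P i) (u i)) = u i :=
      eventually_all.mpr fun i => (((continuous_apply i).tendsto'
        (0 : Fin (genusFF ℂ F) → ℂ) 0 rfl).eventually (eventually_param (P i))).mono
        fun u h => h.2.1
    filter_upwards [(continuous_fst.tendsto' _ 0 rfl).eventually hb,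
      (hW.comp (continuous_fst.tendsto' _ 0 rfl)).eventually hu', hsep,
      (continuous_fst.tendsto' _ 0 rfl).eventually hco,
      (continuous_snd.tendsto' _ 0 rfl).eventually hco] with p h1 h2 h3 h4 h5 hp
    unfold alphaMap at hp
    have e1 := h2 (paramTup P p.1) (by rw [add_comm]; exact h1)
    have e2 := h2 (paramTup P p.2) (by rw [add_comm, ← hp]; exact h1)
    have e : tupDiv (paramTup P p.1) = tupDiv (paramTup P p.2) := e1.trans e2.symm
    funext i
    have hi := one_le_tupDiv_apply (paramTup P p.1) i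
    rw [e] at hi
    obtain ⟨j, hj⟩ : ∃ j, paramTup P p.2 j = paramTup P p.1 i := by
      by_contra hne
      push Not at hne
      rw [tupDiv_apply_of_notMem hne] at hi
      omega
    have hij : i = j := by
      by_contra hne
      exact h3 i j hne hj.symm
    subst hij
    rw [← h4 i, ← h5 i]
    exact congrArg (coord (P i)) hj.symm
  have hl : ∀ᶠ u in 𝓝 (0 : Fin (genusFF ℂ F) → ℂ), Φ (u, 0) = u := by
    have c : Tendsto (fun u : Fin (genusFF ℂ F) → ℂ =>
        (u, (0 : Fin (genusFF ℂ F) → ℂ))) (𝓝 0) (𝓝 0) :=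
      Continuous.tendsto' (by fun_prop) _ _ rfl
    have c' : Tendsto (fun u : Fin (genusFF ℂ F) → ℂ => (Φ (u, 0), u)) (𝓝 0) (𝓝 0) := by
      refine Tendsto.prodMk_nhds ?_ tendsto_id
      have := hΦ.continuousAt.tendsto.comp c
      rwa [hΦ0] at this
    filter_upwards [c.eventually hadd, c'.eventually hinj] with u h1 h2
    refine h2 ?_
    rw [h1, alphaMap_zero, add_zero]
  have hr : ∀ᶠ u in 𝓝 (0 : Fin (genusFF ℂ F) → ℂ), Φ (0, u) = u := by
    have c : Tendsto (fun u : Fin (genusFF ℂ F) → ℂ =>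
        ((0 : Fin (genusFF ℂ F) → ℂ), u)) (𝓝 0) (𝓝 0) :=
      Continuous.tendsto' (by fun_prop) _ _ rfl
    have c' : Tendsto (fun u : Fin (genusFF ℂ F) → ℂ => (Φ (0, u), u)) (𝓝 0) (𝓝 0) := by
      refine Tendsto.prodMk_nhds ?_ tendsto_id
      have := hΦ.continuousAt.tendsto.comp c
      rwa [hΦ0] at this
    filter_upwards [c.eventually hadd, c'.eventually hinj] with u h1 h2
    refine h2 ?_
    rw [h1, alphaMap_zero, zero_add]
  exact exists_linearisation (alphaMap P) Φ hΦ (alphaMap_zero P) hl hr hadd hinj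

/-- Near any place, differences of places lie in the image of the unit ball. -/
theorem eventually_ptDiff_mem (P : Fin (genusFF ℂ F) → Place ℂ F) (hP : NonSpecial P)
    {e : (Fin (genusFF ℂ F) → ℂ) →+ Pic0 ℂ F}
    {L : (Fin (genusFF ℂ F) → ℂ) → (Fin (genusFF ℂ F) → ℂ)} (hL0 : L 0 = 0)
    (hL : ContinuousAt L 0) (heL : ∀ᶠ u in 𝓝 0, alphaMap P u = e (L u)) (pt : Place ℂ F) :
    ∀ᶠ v in 𝓝 pt, ∃ z, ‖z‖ ≤ 1 ∧ ptDiff v pt = e z := by
  classical
  have hcard : Fintype.card (Fin (genusFF ℂ F)) = genusFF ℂ F := Fintype.card_fin _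
  obtain ⟨R, hR, hRP⟩ := exists_nonSpecial ((Set.finite_range P).union (Set.finite_singleton pt))
  have h1 : Function.Injective (Sum.elim (fun _ : Unit => pt) R) :=
    Function.Injective.sumElim (fun a b _ => Subsingleton.elim a b) hR.injective
      fun _ j h => hRP j (Or.inr h.symm)
  obtain ⟨W, hW, hW0, hw, -⟩ := exists_sumLaw (fun _ : Unit => pt) R h1 hR.ell_eq_one hcard
  obtain ⟨V, hV, hV0, hv, -⟩ := exists_sumLaw R P
    (hR.injective.sumElim hP.injective fun i j h => hRP i (Or.inl ⟨j, h.symm⟩))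
    hP.ell_eq_one hcard
  have c0 : Tendsto (fun v => fun _ : Unit => coord pt v) (𝓝 pt) (𝓝 0) :=
    tendsto_pi_nhds.mpr fun _ => tendsto_coord pt
  have cW : Tendsto (fun v => W (fun _ : Unit => coord pt v)) (𝓝 pt) (𝓝 0) := by
    have := hW.continuousAt.tendsto
    rw [hW0] at this
    exact this.comp c0
  have cV : Tendsto (fun v => V (W (fun _ : Unit => coord pt v))) (𝓝 pt) (𝓝 0) := by
    have := hV.continuousAt.tendsto
    rw [hV0] at this
    exact this.comp cW
  have cL : Tendsto (fun v => ‖L (V (W (fun _ : Unit => coord pt v)))‖) (𝓝 pt) (𝓝 0) := by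
    have := hL.tendsto
    rw [hL0] at this
    simpa using (this.comp cV).norm
  filter_upwards [c0.eventually hw, cW.eventually hv, cV.eventually heL,
    cL.eventually_le_const zero_lt_one, eventually_param_coord pt] with v e1 e2 e3 e4 e5
  refine ⟨_, e4, ?_⟩
  rw [← e3]
  unfold alphaMap
  rw [eq_neg_of_add_eq_zero_right e2, ← eq_neg_of_add_eq_zero_left e1]
  simp [tupCls, paramTup, e5]

/-- A function with a single pole takes every value on a non-empty clopen set missing the pole. -/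
theorem eq_univ_of_isClopen {S : Set (Place ℂ F)} (hS : IsClopen S) {O : Place ℂ F} (hO : O ∈ S) :
    S = Set.univ := by
  classical
  by_contra hne
  obtain ⟨v₀, hv₀⟩ := (Set.ne_univ_iff_exists_notMem S).mp hne
  set m := genusFF ℂ F + 1
  set D : Divisor ℂ F := Finsupp.single O (m : ℤ) with hD
  obtain ⟨h, hh, hnc⟩ : ∃ h ∈ riemannRochSpace D, ∀ c : ℂ, h ≠ algebraMap ℂ F c := by
    by_contra hc
    push Not at hc
    have hle : riemannRochSpace D ≤ ℂ ∙ (1 : F) := fun h hh => by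
      obtain ⟨c, rfl⟩ := hc h hh
      exact Submodule.mem_span_singleton.mpr ⟨c, (Algebra.algebraMap_eq_smul_one c).symm⟩
    have h1 := Submodule.finrank_mono hle
    rw [finrank_span_singleton one_ne_zero] at h1
    have h2 := Curves.riemann_inequality D
    have h3 : Divisor.degree D = m := by
      rw [hD, Divisor.degree_single, IsCurveOver.deg_eq_one_of_isAlgClosed]
      simp
    unfold Curves.ell at h2
    omega
  have hmem : ∀ v, v ≠ O → h ∈ v.toValuationSubring := by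
    intro v hv
    rcases mem_riemannRochSpace_iff.mp hh v with h0 | h0
    · exact h0 ▸ zero_mem _
    · rw [hD, Finsupp.single_eq_of_ne hv] at h0
      exact mem_of_ord_nonneg v (by omega)
  have hmemV : ∀ v ∈ Sᶜ, h ∈ v.toValuationSubring := fun v hv =>
    hmem v fun e => hv (e ▸ hO)
  haveI := compactSpace_place (F := F)
  have hcomp : IsCompact ((fun v => evalAt v h) '' Sᶜ) :=
    (hS.compl.1.isCompact).image_of_continuousOn ((continuousOn_evalAt h).mono hmemV)
  have hopen : IsOpen ((fun v => evalAt v h) '' Sᶜ) := by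
    rw [isOpen_iff_mem_nhds]
    rintro _ ⟨v, hv, rfl⟩
    obtain ⟨φ, hφ, hφ0, hev⟩ := exists_expansion (hmemV v hv)
    have hnconst : ¬ ∀ᶠ τ in 𝓝 0, φ τ = φ 0 := by
      intro hcst
      set k := h - algebraMap ℂ F (φ 0) with hk
      have hk0 : k ≠ 0 := sub_ne_zero.mpr (hnc _)
      have hinf : {τ : ℂ | coord v (param v τ) = τ ∧ param v τ ∈
          (Curves.divFn (K := ℂ) k).support}.Infinite := by
        refine infinite_of_mem_nhds 0 ?_
        filter_upwards [hcst, hev, eventually_param v] with τ h1 h2 h3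
        refine ⟨h3.2.1, Finsupp.mem_support_iff.mpr ?_⟩
        rw [Curves.divFn_apply]
        have := sub_evalAt_eq_zero_or_pos h2.1
        rw [h2.2, h1] at this
        exact (this.resolve_left hk0).ne'
      refine (hinf.image (f := param v) fun a ha b hb hab => ?_).mono ?_
        (Curves.divFn (K := ℂ) k).support.finite_toSet
      · rw [← ha.1, hab, hb.1]
      · rintro _ ⟨a, ha, rfl⟩
        exact ha.2
    have hle := hφ.eventually_constant_or_nhds_le_map_nhds.resolve_left hnconst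
    refine mem_of_superset (hφ0 ▸ hle (image_mem_map (hev.and
      ((tendsto_param v).eventually (hS.compl.2.mem_nhds hv))))) ?_
    rintro _ ⟨τ, ⟨⟨-, h1⟩, h2⟩, rfl⟩
    exact ⟨param v τ, h2, h1⟩
  have huniv : (fun v => evalAt v h) '' Sᶜ = Set.univ :=
    IsClopen.eq_univ ⟨hcomp.isClosed, hopen⟩ ⟨_, v₀, hv₀, rfl⟩
  exact noncompact_univ ℂ (huniv ▸ hcomp)

/-- `Pic⁰` is a quotient of `ℂ^g` by a discrete subgroup with compact fundamental domain. -/
theorem exists_uniformisation :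
    ∃ (e : (Fin (genusFF ℂ F) → ℂ) →+ Pic0 ℂ F) (K : Set (Fin (genusFF ℂ F) → ℂ)),
      (∀ᶠ z in 𝓝 0, e z = 0 → z = 0) ∧ IsCompact K ∧ ∀ x, ∃ z ∈ K, e z = x := by
  classical
  haveI := compactSpace_place (F := F)
  obtain ⟨P, hP, -⟩ := exists_nonSpecial (F := F) Set.finite_empty
  obtain ⟨e, L, hL0, hL, -, heL, hker⟩ := exists_exp P hP
  obtain ⟨O⟩ := Curves.IsFunctionField.exists_place (K := ℂ) (F := F)
  have hN := eventually_ptDiff_mem P hP hL0 hL heL
  -- every difference is in the image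
  set S : Set (Place ℂ F) := {v | ∃ z, e z = ptDiff v O}
  have hclopen : IsClopen S := by
    refine ⟨⟨isOpen_iff_mem_nhds.mpr fun v hv => ?_⟩, isOpen_iff_mem_nhds.mpr fun v hv => ?_⟩
    · filter_upwards [hN v] with w hw hwS
      obtain ⟨z, -, hz⟩ := hw
      obtain ⟨y, hy⟩ := hwS
      exact hv ⟨y - z, by rw [map_sub, hy, ← hz, ← ptDiff_add w v O]; abel⟩
    · filter_upwards [hN v] with w hw
      obtain ⟨z, -, hz⟩ := hw
      obtain ⟨y, hy⟩ := hv
      exact ⟨z + y, by rw [map_add, ← hz, hy, ptDiff_add]⟩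
  have hall : ∀ v, ∃ z, e z = ptDiff v O := fun v =>
    (Set.eq_univ_iff_forall.mp (eq_univ_of_isClopen hclopen (O := O) ⟨0, by simp⟩)) v
  choose y hy using hall
  obtain ⟨t, ht⟩ := isCompact_univ.elim_nhds_subcover
    (fun v => {w | ∃ z, ‖z‖ ≤ 1 ∧ ptDiff w v = e z}) (fun v _ => hN v)
  let K₁ : Set (Fin (genusFF ℂ F) → ℂ) :=
    ⋃ v ∈ t, (fun z => z + y v) '' Metric.closedBall 0 1
  have hK₁ : IsCompact K₁ := t.isCompact_biUnion fun v _ =>
    (isCompact_closedBall _ _).image (continuous_id.add continuous_const)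
  have hcov : ∀ w, ∃ z ∈ K₁, e z = ptDiff w O := by
    intro w
    obtain ⟨v, hvt, z, hz1, hz⟩ : ∃ v ∈ t, ∃ z, ‖z‖ ≤ 1 ∧ ptDiff w v = e z := by
      simpa using ht.2 (Set.mem_univ w)
    refine ⟨z + y v, Set.mem_biUnion hvt ⟨z, by simpa using hz1, rfl⟩, ?_⟩
    rw [map_add, ← hz, hy, ptDiff_add]
  let Kg : Set (Fin (genusFF ℂ F) → ℂ) :=
    (fun k : Fin (genusFF ℂ F) → (Fin (genusFF ℂ F) → ℂ) => ∑ i, k i) '' Set.pi Set.univ (fun _ => K₁)
  refine ⟨e, Kg, hker, (isCompact_univ_pi fun _ => hK₁).image (continuous_finsetSum _ fun i _ =>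
    continuous_apply i), fun x => ?_⟩
  obtain ⟨E, hE⟩ := exists_eq_tupCls O x
  choose k hk1 hk2 using fun i => hcov (E i)
  refine ⟨∑ i, k i, ⟨k, fun i _ => hk1 i, rfl⟩, ?_⟩
  rw [hE, map_sum, tupCls]
  simp [hk2]

end FLTA.PicTorsion
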